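import Fermat.Agent.S36.H193.Clopen

/-!
# S36 engine, leaf CLOPEN (helper193), part 2: the dual graph of the special fibre is connected

Setting of `Clopen.lean`.  In addition the sheets are pairwise *separated*:

  `Sep 𝒲` : for distinct sheets `W ≠ W'` there is `c`, integral on all sheets, vanishing on `W'`
            and not on `W`

(true as soon as the centres of the sheets on one chart are pairwise incomparable, e.g. distinct
height-one primes).

* `exists_sep_idem` (weak approximation): every subset of the sheets is cut out by an element of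
  `F` which is `≡ 1` on it and `≡ 0` on the other sheets.
* **`clopen_sheets`**: a property of sheets which propagates along sheets meeting at a closed
  point of one of the two charts holds for all sheets or for none: *the graph "sheets, joined
  when they pass through a common closed point of the special fibre" is connected*.
* **`clopen_label`**: a labelling of the sheets (values in any type) which agrees on sheets
  through a common closed point is constant.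
* `clopen_const`: the same for labels `lab W ∈ F` which are the residues of one element `G`
  (`G ≡ lab W` on `W`); no separation hypothesis is needed, only that distinct labels stay
  distinct on every sheet.
-/

set_option autoImplicit false
set_option linter.style.haveILetI false

namespace Fermat.Agent.S36.H193

open Fermat.Agent.S18.H138

variable {R : Type*} [CommRing R] {F : Type*} [Field F] [Algebra R F]

/-- The sheets are pairwise separated by everywhere integral elements. -/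
def Sep (𝒲 : Set (ValuationSubring F)) : Prop :=
  ∀ W ∈ 𝒲, ∀ W' ∈ 𝒲, W ≠ W' →
    ∃ c : F, (∀ V ∈ 𝒲, c ∈ V) ∧ c ∈ W'.nonunits ∧ c ∉ W.nonunits

section Approx

theorem nu_unit_mul (W : ValuationSubring F) {a b : F} (ha : a ∈ W) (hb : b ∈ W)
    (ha' : a ∉ W.nonunits) (hb' : b ∉ W.nonunits) : a * b ∉ W.nonunits := by
  rw [ValuationSubring.mem_nonunits_iff, not_lt] at *
  have h1 : W.valuation a = 1 := le_antisymm ((W.valuation_le_one_iff a).2 ha) ha'
  have h2 : W.valuation b = 1 := le_antisymm ((W.valuation_le_one_iff b).2 hb) hb'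
  rw [map_mul, h1, h2, one_mul]

theorem nu_unit_inv (W : ValuationSubring F) {a : F} (ha : a ∈ W) (ha' : a ∉ W.nonunits) :
    a⁻¹ ∈ W := by
  rw [ValuationSubring.mem_nonunits_iff, not_lt] at ha'
  have h1 : W.valuation a = 1 := le_antisymm ((W.valuation_le_one_iff a).2 ha) ha'
  rw [← W.valuation_le_one_iff, map_inv₀, h1, inv_one]

theorem nu_sum (W : ValuationSubring F) {ι : Type*} (s : Finset ι) (f : ι → F)
    (h : ∀ i ∈ s, f i ∈ W.nonunits) : ∑ i ∈ s, f i ∈ W.nonunits := by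
  classical
  induction s using Finset.induction_on with
  | empty => simp
  | insert a s ha ih =>
    rw [Finset.sum_insert ha]
    exact nu_add W (h a (Finset.mem_insert_self a s))
      (ih fun i hi => h i (Finset.mem_insert_of_mem hi))

/-- An everywhere integral element vanishing on the sheets of `𝒮` and not on `W ∉ 𝒮`. -/
theorem exists_sep_elt {𝒲 : Set (ValuationSubring F)} (hsep : Sep 𝒲)
    (W : ValuationSubring F) (hW : W ∈ 𝒲) (𝒮 : Finset (ValuationSubring F))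
    (h𝒮 : ∀ V ∈ 𝒮, V ∈ 𝒲 ∧ V ≠ W) :
    ∃ c : F, (∀ V ∈ 𝒲, c ∈ V) ∧ c ∉ W.nonunits ∧ ∀ V ∈ 𝒮, c ∈ V.nonunits := by
  classical
  induction 𝒮 using Finset.induction_on with
  | empty => exact ⟨1, fun V _ => V.one_mem, nu_one_not W, by simp⟩
  | insert V₀ 𝒮 hV₀ ih =>
    obtain ⟨c, hc, hcW, hc𝒮⟩ := ih fun V hV => h𝒮 V (Finset.mem_insert_of_mem hV)
    obtain ⟨hV₀𝒲, hV₀W⟩ := h𝒮 V₀ (Finset.mem_insert_self V₀ 𝒮)
    obtain ⟨d, hd, hdV₀, hdW⟩ := hsep W hW V₀ hV₀𝒲 (Ne.symm hV₀W)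
    refine ⟨d * c, fun V hV => V.mul_mem _ _ (hd V hV) (hc V hV),
      nu_unit_mul W (hd W hW) (hc W hW) hdW hcW, ?_⟩
    intro V hV
    rw [Finset.mem_insert] at hV
    rcases hV with rfl | hV
    · exact nu_mul_right V hdV₀ (hc V hV₀𝒲)
    · exact nu_mul_left V (hc𝒮 V hV) (hd V (h𝒮 V (Finset.mem_insert_of_mem hV)).1)

/-- **Weak approximation for separated sheets.**  Every set of sheets is cut out by an
element which is `≡ 1` on it and `≡ 0` on the other sheets. -/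
theorem exists_sep_idem {𝒲 : Set (ValuationSubring F)} (h𝒲 : 𝒲.Finite) (hsep : Sep 𝒲)
    (P : ValuationSubring F → Prop) :
    ∃ e : F, ∀ W ∈ 𝒲, (P W → 1 - e ∈ W.nonunits) ∧ (¬ P W → e ∈ W.nonunits) := by
  classical
  -- the local generators
  have hc : ∀ W : ValuationSubring F, ∃ c : F, W ∈ 𝒲 →
      (∀ V ∈ 𝒲, c ∈ V) ∧ c ∉ W.nonunits ∧ ∀ V ∈ 𝒲, V ≠ W → c ∈ V.nonunits := by
    intro W
    by_cases hW : W ∈ 𝒲
    · obtain ⟨c, h1, h2, h3⟩ := exists_sep_elt hsep W hW (h𝒲.toFinset.erase W) (by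
        intro V hV
        rw [Finset.mem_erase, Set.Finite.mem_toFinset] at hV
        exact ⟨hV.2, hV.1⟩)
      refine ⟨c, fun _ => ⟨h1, h2, fun V hV hne => h3 V ?_⟩⟩
      rw [Finset.mem_erase, Set.Finite.mem_toFinset]
      exact ⟨hne, hV⟩
    · exact ⟨0, fun h => absurd h hW⟩
  choose c hc using hc
  set s : F := ∑ W ∈ h𝒲.toFinset, c W with hs
  set a : F := ∑ W ∈ h𝒲.toFinset.filter P, c W with ha
  set b : F := ∑ W ∈ h𝒲.toFinset.filter (fun W => ¬ P W), c W with hb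
  have hab : a + b = s := by
    rw [ha, hb, hs]
    exact Finset.sum_filter_add_sum_filter_not _ _ _
  have hcV : ∀ W ∈ 𝒲, ∀ V ∈ 𝒲, c W ∈ V := fun W hW V hV => (hc W hW).1 V hV
  -- `s` is a unit of every sheet
  have hsunit : ∀ V ∈ 𝒲, s ∈ V ∧ s ∉ V.nonunits := by
    intro V hV
    have hVmem : V ∈ h𝒲.toFinset := (Set.Finite.mem_toFinset h𝒲).2 hV
    have h1 : s = c V + ∑ W ∈ h𝒲.toFinset.erase V, c W := by
      rw [hs, Finset.add_sum_erase _ _ hVmem]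
    have h2 : ∑ W ∈ h𝒲.toFinset.erase V, c W ∈ V.nonunits := by
      refine nu_sum V _ _ fun W hW => ?_
      rw [Finset.mem_erase, Set.Finite.mem_toFinset] at hW
      exact (hc W hW.2).2.2 V hV (Ne.symm hW.1)
    refine ⟨?_, ?_⟩
    · rw [h1]
      exact V.add_mem _ _ (hcV V hV V hV) (nu_mem V h2)
    · intro h3
      apply (hc V hV).2.1
      have : c V = s - ∑ W ∈ h𝒲.toFinset.erase V, c W := by rw [h1]; ring
      rw [this]
      exact nu_sub V h3 h2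
  refine ⟨a * s⁻¹, fun V hV => ⟨fun hP => ?_, fun hP => ?_⟩⟩
  · -- `1 - e = b / s`
    obtain ⟨hsV, hsu⟩ := hsunit V hV
    have hs0 : s ≠ 0 := by
      rintro h0
      rw [h0] at hsu
      exact hsu (nu_zero V)
    have h1 : 1 - a * s⁻¹ = b * s⁻¹ := by
      field_simp
      rw [← hab]; ring
    rw [h1]
    refine nu_mul_right V (nu_sum V _ _ fun W hW => ?_) (nu_unit_inv V hsV hsu)
    rw [Finset.mem_filter, Set.Finite.mem_toFinset] at hW
    refine (hc W hW.1).2.2 V hV ?_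
    rintro rfl
    exact hW.2 hP
  · obtain ⟨hsV, hsu⟩ := hsunit V hV
    refine nu_mul_right V (nu_sum V _ _ fun W hW => ?_) (nu_unit_inv V hsV hsu)
    rw [Finset.mem_filter, Set.Finite.mem_toFinset] at hW
    refine (hc W hW.1).2.2 V hV ?_
    rintro rfl
    exact hP hW.2

end Approx

section Main

variable [IsNoetherianRing R] [IsIntegrallyClosed (Polynomial R)] [CharZero F]

/-- **CLOPEN, graph form.**  The graph whose vertices are the sheets of the special fibre,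
two sheets being joined when they pass through a common closed point of one of the two charts,
is connected: a property of sheets which propagates along edges holds for all or for none. -/
theorem clopen_sheets
    (hinjR : Function.Injective (algebraMap R F))
    (hRF : ∀ y : F, IsIntegral R y → y ∈ Set.range (algebraMap R F))
    {x : F} (hx : Transcendental R x) [FiniteDimensional (baseField R x) F]
    (w : R) (hw : Prime w)
    {𝒲 : Set (ValuationSubring F)} (h𝒲 : 𝒲.Finite) (hsep : Sep 𝒲)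
    (hmid : ∀ W ∈ 𝒲, ∀ c ∈ chart R ({x, x⁻¹} : Set F), c ∈ W)
    (hwW : ∀ W ∈ 𝒲, algebraMap R F w ∈ W.nonunits)
    (qep_fin : QepRad 𝒲 w (chart R ({x} : Set F)))
    (qep_inf : QepRad 𝒲 w (chart R ({x⁻¹} : Set F)))
    (qep_mid : QepRad 𝒲 w (chart R ({x, x⁻¹} : Set F)))
    (P : ValuationSubring F → Prop)
    (hloc_fin : ∀ 𝔫 : Ideal (chart R ({x} : Set F)), 𝔫.IsMaximal →
      algebraMap R (chart R ({x} : Set F)) w ∈ 𝔫 →
      ∀ W ∈ 𝒲, ∀ W' ∈ 𝒲, Through _ 𝔫 W → Through _ 𝔫 W' → P W → P W')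
    (hloc_inf : ∀ 𝔫 : Ideal (chart R ({x⁻¹} : Set F)), 𝔫.IsMaximal →
      algebraMap R (chart R ({x⁻¹} : Set F)) w ∈ 𝔫 →
      ∀ W ∈ 𝒲, ∀ W' ∈ 𝒲, Through _ 𝔫 W → Through _ 𝔫 W' → P W → P W') :
    (∀ W ∈ 𝒲, P W) ∨ (∀ W ∈ 𝒲, ¬ P W) := by
  obtain ⟨e, he⟩ := exists_sep_idem h𝒲 hsep fun W => ¬ P W
  have he₀ : ∀ W ∈ 𝒲, e ∈ W.nonunits ∨ 1 - e ∈ W.nonunits := by
    intro W hW
    by_cases hP : P W
    · exact Or.inl ((he W hW).2 (not_not.2 hP))
    · exact Or.inr ((he W hW).1 hP)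
  have hiff : ∀ W ∈ 𝒲, e ∈ W.nonunits ↔ P W := by
    intro W hW
    constructor
    · intro h
      by_contra hP
      exact nu_not_both W h ((he W hW).1 hP)
    · intro hP
      exact (he W hW).2 (not_not.2 hP)
  rcases clopen_idem hinjR hRF hx w hw h𝒲 hmid hwW qep_fin qep_inf qep_mid he₀
      (fun 𝔫 h𝔫 hw𝔫 W hW W' hW' hth hth' h =>
        (hiff W' hW').2 (hloc_fin 𝔫 h𝔫 hw𝔫 W hW W' hW' hth hth' ((hiff W hW).1 h)))
      (fun 𝔫 h𝔫 hw𝔫 W hW W' hW' hth hth' h =>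
        (hiff W' hW').2 (hloc_inf 𝔫 h𝔫 hw𝔫 W hW W' hW' hth hth' ((hiff W hW).1 h))) with h | h
  · exact Or.inl fun W hW => (hiff W hW).1 (h W hW)
  · refine Or.inr fun W hW hP => ?_
    exact nu_not_both W ((hiff W hW).2 hP) (h W hW)

/-- **CLOPEN, label form.**  A labelling of the sheets which agrees on any two sheets passing
through a common closed point of the special fibre is constant. -/
theorem clopen_label
    (hinjR : Function.Injective (algebraMap R F))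
    (hRF : ∀ y : F, IsIntegral R y → y ∈ Set.range (algebraMap R F))
    {x : F} (hx : Transcendental R x) [FiniteDimensional (baseField R x) F]
    (w : R) (hw : Prime w)
    {𝒲 : Set (ValuationSubring F)} (h𝒲 : 𝒲.Finite) (hsep : Sep 𝒲)
    (hmid : ∀ W ∈ 𝒲, ∀ c ∈ chart R ({x, x⁻¹} : Set F), c ∈ W)
    (hwW : ∀ W ∈ 𝒲, algebraMap R F w ∈ W.nonunits)
    (qep_fin : QepRad 𝒲 w (chart R ({x} : Set F)))
    (qep_inf : QepRad 𝒲 w (chart R ({x⁻¹} : Set F)))
    (qep_mid : QepRad 𝒲 w (chart R ({x, x⁻¹} : Set F)))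
    {α : Type*} (lab : ValuationSubring F → α)
    (hloc_fin : ∀ 𝔫 : Ideal (chart R ({x} : Set F)), 𝔫.IsMaximal →
      algebraMap R (chart R ({x} : Set F)) w ∈ 𝔫 →
      ∀ W ∈ 𝒲, ∀ W' ∈ 𝒲, Through _ 𝔫 W → Through _ 𝔫 W' → lab W = lab W')
    (hloc_inf : ∀ 𝔫 : Ideal (chart R ({x⁻¹} : Set F)), 𝔫.IsMaximal →
      algebraMap R (chart R ({x⁻¹} : Set F)) w ∈ 𝔫 →
      ∀ W ∈ 𝒲, ∀ W' ∈ 𝒲, Through _ 𝔫 W → Through _ 𝔫 W' → lab W = lab W') :
    ∀ W ∈ 𝒲, ∀ W' ∈ 𝒲, lab W = lab W' := by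
  intro W₀ hW₀ W₁ hW₁
  rcases clopen_sheets hinjR hRF hx w hw h𝒲 hsep hmid hwW qep_fin qep_inf qep_mid
      (fun W => lab W = lab W₀)
      (fun 𝔫 h𝔫 hw𝔫 W hW W' hW' hth hth' h =>
        (hloc_fin 𝔫 h𝔫 hw𝔫 W' hW' W hW hth' hth).trans h)
      (fun 𝔫 h𝔫 hw𝔫 W hW W' hW' hth hth' h =>
        (hloc_inf 𝔫 h𝔫 hw𝔫 W' hW' W hW hth' hth).trans h) with h | h
  · exact (h W₁ hW₁).symm
  · exact absurd rfl (h W₀ hW₀)

/-- **CLOPEN, residue form** (no separation hypothesis).  Let `G ∈ F` have residue `lab W` on the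
sheet `W`, where the `lab W ∈ F` are integral on every sheet and distinct labels stay distinct
on every sheet (e.g. roots of unity of order invertible in `R`).  If the labels of two sheets
through a common closed point of the special fibre agree, all labels agree. -/
theorem clopen_const
    (hinjR : Function.Injective (algebraMap R F))
    (hRF : ∀ y : F, IsIntegral R y → y ∈ Set.range (algebraMap R F))
    {x : F} (hx : Transcendental R x) [FiniteDimensional (baseField R x) F]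
    (w : R) (hw : Prime w)
    {𝒲 : Set (ValuationSubring F)} (h𝒲 : 𝒲.Finite)
    (hmid : ∀ W ∈ 𝒲, ∀ c ∈ chart R ({x, x⁻¹} : Set F), c ∈ W)
    (hwW : ∀ W ∈ 𝒲, algebraMap R F w ∈ W.nonunits)
    (qep_fin : QepRad 𝒲 w (chart R ({x} : Set F)))
    (qep_inf : QepRad 𝒲 w (chart R ({x⁻¹} : Set F)))
    (qep_mid : QepRad 𝒲 w (chart R ({x, x⁻¹} : Set F)))
    (G : F) (lab : ValuationSubring F → F)
    (hG : ∀ W ∈ 𝒲, G - lab W ∈ W.nonunits)
    (hlabW : ∀ W ∈ 𝒲, ∀ V ∈ 𝒲, lab W ∈ V)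
    (hlabne : ∀ W ∈ 𝒲, ∀ W' ∈ 𝒲, ∀ V ∈ 𝒲, lab W ≠ lab W' → lab W - lab W' ∉ V.nonunits)
    (hloc_fin : ∀ 𝔫 : Ideal (chart R ({x} : Set F)), 𝔫.IsMaximal →
      algebraMap R (chart R ({x} : Set F)) w ∈ 𝔫 →
      ∀ W ∈ 𝒲, ∀ W' ∈ 𝒲, Through _ 𝔫 W → Through _ 𝔫 W' → lab W = lab W')
    (hloc_inf : ∀ 𝔫 : Ideal (chart R ({x⁻¹} : Set F)), 𝔫.IsMaximal →
      algebraMap R (chart R ({x⁻¹} : Set F)) w ∈ 𝔫 →
      ∀ W ∈ 𝒲, ∀ W' ∈ 𝒲, Through _ 𝔫 W → Through _ 𝔫 W' → lab W = lab W') :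
    ∀ W ∈ 𝒲, ∀ W' ∈ 𝒲, lab W = lab W' := by
  classical
  intro W₀ hW₀ W₁ hW₁
  set ℓ₀ : F := lab W₀ with hℓ₀
  -- the other labels
  set Λ : Finset F := (h𝒲.toFinset.image lab).erase ℓ₀ with hΛ
  have hΛmem : ∀ ℓ, ℓ ∈ Λ ↔ ℓ ≠ ℓ₀ ∧ ∃ W ∈ 𝒲, lab W = ℓ := by
    intro ℓ
    rw [hΛ, Finset.mem_erase, Finset.mem_image]
    simp only [Set.Finite.mem_toFinset]
  -- Lagrange idempotent of the label `ℓ₀`
  set e : F := ∏ ℓ ∈ Λ, (G - ℓ) * (ℓ₀ - ℓ)⁻¹ with he
  have hGV : ∀ V ∈ 𝒲, G ∈ V := by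
    intro V hV
    have : G = (G - lab V) + lab V := by ring
    rw [this]
    exact V.add_mem _ _ (nu_mem V (hG V hV)) (hlabW V hV V hV)
  have hinv : ∀ ℓ ∈ Λ, ∀ V ∈ 𝒲, (ℓ₀ - ℓ)⁻¹ ∈ V := by
    intro ℓ hℓ V hV
    obtain ⟨hne, W, hW, rfl⟩ := (hΛmem ℓ).1 hℓ
    exact nu_unit_inv V (V.sub_mem (hlabW W₀ hW₀ V hV) (hlabW W hW V hV))
      (hlabne W₀ hW₀ W hW V hV (Ne.symm hne))
  have hfac : ∀ ℓ ∈ Λ, ∀ V ∈ 𝒲, (G - ℓ) * (ℓ₀ - ℓ)⁻¹ ∈ V := by
    intro ℓ hℓ V hV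
    obtain ⟨hne, W, hW, rfl⟩ := (hΛmem ℓ).1 hℓ
    exact V.mul_mem _ _ (V.sub_mem (hGV V hV) (hlabW W hW V hV)) (hinv _ hℓ V hV)
  -- `e ≡ 1` on the sheets with label `ℓ₀`
  have he1 : ∀ V ∈ 𝒲, lab V = ℓ₀ → 1 - e ∈ V.nonunits := by
    intro V hV hlab
    have hgen : ∀ S : Finset F, S ⊆ Λ →
        1 - ∏ ℓ ∈ S, (G - ℓ) * (ℓ₀ - ℓ)⁻¹ ∈ V.nonunits ∧
          ∏ ℓ ∈ S, (G - ℓ) * (ℓ₀ - ℓ)⁻¹ ∈ V := by
      intro S
      induction S using Finset.induction_on with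
      | empty =>
        intro _
        refine ⟨by simp, by simp [V.one_mem]⟩
      | insert ℓ S hℓ ih =>
        intro hS
        obtain ⟨ih1, ih2⟩ := ih fun a ha => hS (Finset.mem_insert_of_mem ha)
        have hℓΛ : ℓ ∈ Λ := hS (Finset.mem_insert_self ℓ S)
        have hne : ℓ₀ - ℓ ≠ 0 := sub_ne_zero.2 (Ne.symm ((hΛmem ℓ).1 hℓΛ).1)
        have h1 : 1 - (G - ℓ) * (ℓ₀ - ℓ)⁻¹ ∈ V.nonunits := by
          have : 1 - (G - ℓ) * (ℓ₀ - ℓ)⁻¹ = -((G - lab V) * (ℓ₀ - ℓ)⁻¹) := by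
            rw [hlab]
            field_simp
            ring
          rw [this]
          exact nu_neg V (nu_mul_right V (hG V hV) (hinv ℓ hℓΛ V hV))
        rw [Finset.prod_insert hℓ]
        refine ⟨?_, V.mul_mem _ _ (hfac ℓ hℓΛ V hV) ih2⟩
        have : 1 - (G - ℓ) * (ℓ₀ - ℓ)⁻¹ * ∏ ℓ ∈ S, (G - ℓ) * (ℓ₀ - ℓ)⁻¹ =
            (1 - (G - ℓ) * (ℓ₀ - ℓ)⁻¹) * ∏ ℓ ∈ S, (G - ℓ) * (ℓ₀ - ℓ)⁻¹ +
              (1 - ∏ ℓ ∈ S, (G - ℓ) * (ℓ₀ - ℓ)⁻¹) := by ring
        rw [this]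
        exact nu_add V (nu_mul_right V h1 ih2) ih1
    exact (hgen Λ (Finset.Subset.refl _)).1
  -- `e ≡ 0` on the other sheets
  have he0 : ∀ V ∈ 𝒲, lab V ≠ ℓ₀ → e ∈ V.nonunits := by
    intro V hV hlab
    have hmem : lab V ∈ Λ := (hΛmem _).2 ⟨hlab, V, hV, rfl⟩
    rw [he, ← Finset.mul_prod_erase _ _ hmem]
    refine nu_mul_right V (nu_mul_right V (hG V hV) (hinv _ hmem V hV)) ?_
    exact V.prod_mem fun ℓ hℓ => hfac ℓ (Finset.mem_of_mem_erase hℓ) V hV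
  have he₀ : ∀ V ∈ 𝒲, e ∈ V.nonunits ∨ 1 - e ∈ V.nonunits := by
    intro V hV
    by_cases h : lab V = ℓ₀
    · exact Or.inr (he1 V hV h)
    · exact Or.inl (he0 V hV h)
  have hiff : ∀ V ∈ 𝒲, e ∈ V.nonunits ↔ lab V ≠ ℓ₀ := by
    intro V hV
    constructor
    · intro h hlab
      exact nu_not_both V h (he1 V hV hlab)
    · exact he0 V hV
  rcases clopen_idem hinjR hRF hx w hw h𝒲 hmid hwW qep_fin qep_inf qep_mid he₀
      (fun 𝔫 h𝔫 hw𝔫 W hW W' hW' hth hth' h => by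
        rw [hiff W' hW', ← hloc_fin 𝔫 h𝔫 hw𝔫 W hW W' hW' hth hth']
        exact (hiff W hW).1 h)
      (fun 𝔫 h𝔫 hw𝔫 W hW W' hW' hth hth' h => by
        rw [hiff W' hW', ← hloc_inf 𝔫 h𝔫 hw𝔫 W hW W' hW' hth hth']
        exact (hiff W hW).1 h) with h | h
  · exact absurd rfl ((hiff W₀ hW₀).1 (h W₀ hW₀))
  · by_contra hne
    exact nu_not_both W₁ ((hiff W₁ hW₁).2 (Ne.symm hne)) (h W₁ hW₁)

end Main

end Fermat.Agent.S36.H193
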