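import Fermat.Agent.S36.H193.QepAll
import Fermat.Agent.S36.H193.ClopenGraph
import Fermat.Agent.A2.H849.Hartogs

/-!
# S36 engine, leaf CLOPEN (helper193), part 7: the sheets of an arbitrary finite cover

Setting: `R` a noetherian domain with `R[X]` integrally closed, `w ∈ R` prime, `Z` a field of
characteristic `0`, `x ∈ Z` transcendental over `R`, `Z` finite over `baseField R x`.
`C = chart R {x}` is the integral closure of `R[x]` in `Z`; the sheets are the valuation subrings
`W` of `Z` with `A2.H12.IsSheet w x W`.

**No hypothesis on the special fibre** (it may be non-reduced, with any singularities):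

* `chart_inst` : `C` is noetherian, integrally closed, with fraction field `Z`.
* `centre_mem_minimalPrimes` : the centre on `C` of a sheet is a minimal prime over `w C`.
* `sheet_mem_iff` : a sheet is the localisation of `C` at its centre (a discrete valuation ring).
* `sheets_finite` : there are finitely many sheets.
* `sheets_sep` : the sheets are pairwise separated (`Sep`).
* **`clopen_label_sheets`**, **`kummer_wall3_sheets`** : the CLOPEN theorems of `ClopenGraph.lean`
  and `LabelWall.lean` for the set of all sheets, without any structural hypothesis.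
-/

set_option autoImplicit false
set_option linter.style.haveILetI false
set_option linter.unusedSectionVars false

namespace Fermat.Agent.S36.H193

open Polynomial
open Fermat.Agent.A2.H12 (IsSheet)
open Fermat.Agent.A2.H849 (locAt mem_locAt_iff isDiscreteValuationRing_locAt_of_colon)
open Fermat.Agent.S18.H138

universe u

section Inst

variable {R : Type*} [CommRing R] {Z : Type*} [Field Z] [Algebra R Z]
variable [IsNoetherianRing R] [IsIntegrallyClosed R[X]] [CharZero Z]

/-- The identity ring equivalence between the integral closure of `R[S]` and the chart. -/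
def chartEquiv (S : Set Z) : ↥(integralClosure (Algebra.adjoin R S) Z) ≃+* ↥(chart R S) where
  toFun y := ⟨y.1, y.2⟩
  invFun y := ⟨y.1, y.2⟩
  left_inv _ := rfl
  right_inv _ := rfl
  map_mul' _ _ := rfl
  map_add' _ _ := rfl

/-- The chart is noetherian, integrally closed, and every element of `Z` is a quotient of
elements of the chart. -/
theorem chart_inst {x : Z} (hx : Transcendental R x) [FiniteDimensional (baseField R x) Z] :
    IsNoetherianRing (chart R ({x} : Set Z)) ∧ IsIntegrallyClosed (chart R ({x} : Set Z)) ∧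
      ∀ z : Z, ∃ a ∈ chart R ({x} : Set Z), ∃ b ∈ chart R ({x} : Set Z), b ≠ 0 ∧ z = a / b := by
  classical
  set A : Subalgebra R Z := Algebra.adjoin R ({x} : Set Z) with hA
  set K : Subfield Z := baseField R x with hK
  haveI := isIntegrallyClosed_adjoin_singleton (R := R) hx
  haveI := isNoetherianRing_adjoin_singleton (R := R) hx
  let φ : A →+* K :=
    { toFun := fun a => ⟨a, adjoin_le_baseField x a.2⟩
      map_one' := rfl
      map_mul' := fun _ _ => rfl
      map_zero' := rfl
      map_add' := fun _ _ => rfl }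
  letI : Algebra A K := φ.toAlgebra
  haveI : IsScalarTower A K Z := IsScalarTower.of_algebraMap_eq (fun _ => rfl)
  have hinj : Function.Injective (algebraMap A K) := by
    intro a b hab
    have : (a : Z) = b := congrArg (fun t : K => (t : Z)) hab
    exact Subtype.ext this
  haveI : FaithfulSMul A K := (faithfulSMul_iff_algebraMap_injective A K).2 hinj
  haveI : IsFractionRing A K := by
    refine IsFractionRing.of_field A K (fun z => ?_)
    obtain ⟨a, ha, b, hb, h⟩ := exists_div_of_mem_baseField (R := R) x z.2
    exact ⟨⟨a, ha⟩, ⟨b, hb⟩, Subtype.ext h⟩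
  haveI : CharZero K := (algebraMap K Z).charZero
  haveI h1 : IsNoetherianRing (integralClosure A Z) :=
    IsIntegralClosure.isNoetherianRing A K Z (integralClosure A Z)
  haveI h2 : IsIntegrallyClosed (integralClosure A Z) :=
    integralClosure.isIntegrallyClosedOfFiniteExtension K
  haveI h3 : IsFractionRing (integralClosure A Z) Z :=
    integralClosure.isFractionRing_of_finite_extension K Z
  refine ⟨isNoetherianRing_of_ringEquiv _ (chartEquiv (R := R) ({x} : Set Z)),
    IsIntegrallyClosed.of_equiv (chartEquiv (R := R) ({x} : Set Z)), ?_⟩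
  intro z
  obtain ⟨a, b, hb, h⟩ := IsFractionRing.div_surjective (A := integralClosure A Z) z
  refine ⟨a.1, a.2, b.1, b.2, ?_, h.symm⟩
  have := nonZeroDivisors.ne_zero hb
  intro h0
  exact this (Subtype.ext h0)

end Inst

section Centre

variable {R : Type*} [CommRing R] {Z : Type*} [Field Z] [Algebra R Z]

/-- The inclusion of a subalgebra contained in a valuation subring. -/
def inclW (W : ValuationSubring Z) (C : Subalgebra R Z) (h : ∀ c ∈ C, c ∈ W) : C →+* W where
  toFun b := ⟨b, h b b.2⟩
  map_one' := rfl
  map_mul' _ _ := rfl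
  map_zero' := rfl
  map_add' _ _ := rfl

/-- The centre of a valuation subring on a subalgebra contained in it. -/
def centreW (W : ValuationSubring Z) (C : Subalgebra R Z) (h : ∀ c ∈ C, c ∈ W) : Ideal C :=
  (IsLocalRing.maximalIdeal W).comap (inclW W C h)

theorem mem_centreW (W : ValuationSubring Z) (C : Subalgebra R Z) (h : ∀ c ∈ C, c ∈ W)
    (b : C) : b ∈ centreW W C h ↔ (b : Z) ∈ W.nonunits := by
  rw [centreW, Ideal.mem_comap, ValuationSubring.mem_nonunits_iff_exists_mem_maximalIdeal]
  constructor
  · intro hb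
    exact ⟨h b b.2, hb⟩
  · rintro ⟨_, hb⟩
    exact hb

instance centreW_isPrime (W : ValuationSubring Z) (C : Subalgebra R Z) (h : ∀ c ∈ C, c ∈ W) :
    (centreW W C h).IsPrime :=
  Ideal.comap_isPrime _ _

theorem through_centreW (W : ValuationSubring Z) (C : Subalgebra R Z) (h : ∀ c ∈ C, c ∈ W)
    (𝔫 : Ideal C) : Through C 𝔫 W ↔ centreW W C h ≤ 𝔫 := by
  constructor
  · intro hth c hc
    exact hth c ((mem_centreW W C h c).1 hc)
  · intro hle c hc
    exact hle ((mem_centreW W C h c).2 hc)

end Centre

section Sheets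

variable {R : Type u} [CommRing R] [IsDomain R] {Z : Type u} [Field Z] [Algebra R Z]

theorem sheet_chart_le {w : R} {x : Z} {W : ValuationSubring Z} (hW : IsSheet w x W) :
    ∀ c ∈ chart R ({x} : Set Z), c ∈ W := fun _ hc =>
  hW.chart_le (T := {x}) (by simp) hc

theorem sheet_chart_mid_le {w : R} {x : Z} {W : ValuationSubring Z} (hW : IsSheet w x W) :
    ∀ c ∈ chart R ({x, x⁻¹} : Set Z), c ∈ W := fun _ hc =>
  hW.chart_le (T := {x, x⁻¹}) (le_refl _) hc

/-- Gauss condition: a polynomial in `x` which is a nonunit of a sheet is divisible by `w`. -/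
theorem sheet_dvd_of_nonunit {w : R} {x : Z} {W : ValuationSubring Z} (hW : IsSheet w x W)
    (P : R[X]) (h : aeval x P ∈ W.nonunits) :
    ∃ Q : R[X], aeval x P = algebraMap R Z w * aeval x Q := by
  by_cases h0 : aeval x P = 0
  · exact ⟨0, by rw [h0, map_zero, mul_zero]⟩
  have hall : ∀ i, w ∣ P.coeff i := by
    by_contra hcon
    rw [not_forall] at hcon
    have h1 := hW.2.2.2 P hcon
    rw [ValuationSubring.mem_nonunits_iff_or] at h
    rcases h with h | h
    · exact h0 h
    · exact h h1
  obtain ⟨Q, hQ⟩ := (Polynomial.C_dvd_iff_dvd_coeff w P).2 hall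
  refine ⟨Q, ?_⟩
  rw [hQ, map_mul, aeval_C]

/-- The centre of a sheet on the chart is a minimal prime over `w`. -/
theorem centre_mem_minimalPrimes {w : R} {x : Z} {W : ValuationSubring Z}
    (hW : IsSheet w x W) :
    centreW W (chart R ({x} : Set Z)) (sheet_chart_le hW) ∈
      (Ideal.span {algebraMap R (chart R ({x} : Set Z)) w}).minimalPrimes := by
  set B := chart R ({x} : Set Z) with hB
  set 𝔭 := centreW W B (sheet_chart_le hW) with h𝔭
  have hw𝔭 : algebraMap R B w ∈ 𝔭 := (mem_centreW W B _ _).2 hW.2.2.1
  refine ⟨⟨inferInstance, ?_⟩, ?_⟩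
  · rw [Ideal.span_le, Set.singleton_subset_iff]
    exact hw𝔭
  · rintro p ⟨hpp, hwp⟩ hle
    haveI := hpp
    have hwp' : algebraMap R B w ∈ p := hwp (Ideal.subset_span rfl)
    by_contra hnot
    obtain ⟨b, hbc, hbp⟩ := SetLike.not_le_iff_exists.1 hnot
    set A : Subalgebra R Z := Algebra.adjoin R ({x} : Set Z) with hA
    have hAB : A ≤ B := adjoin_le_chart _
    letI : Algebra A B := (Subalgebra.inclusion hAB).toRingHom.toAlgebra
    have hint : IsIntegral A b := by
      obtain ⟨P, hPm, hP⟩ := (mem_chart.1 b.2)
      refine ⟨P, hPm, ?_⟩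
      apply Subtype.ext
      have := Polynomial.hom_eval₂ P (algebraMap A B) (B.val : B →+* Z) b
      rw [show ((B.val : B →+* Z) (eval₂ (algebraMap A B) b P) : Z)
        = ((eval₂ (algebraMap A B) b P : B) : Z) from rfl] at this
      rw [this]
      exact hP
    have hlt := Ideal.comap_lt_comap_of_integral_mem_sdiff hle ⟨hbc, hbp⟩ hint
    obtain ⟨a, hac, hap⟩ := SetLike.exists_of_lt hlt
    rw [Ideal.mem_comap] at hac hap
    rw [mem_centreW] at hac
    have haF : ((algebraMap A B a : B) : Z) = (a : Z) := rfl
    obtain ⟨P, hP⟩ : ∃ P : R[X], aeval x P = (a : Z) := by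
      have h1 : (a : Z) ∈ Algebra.adjoin R ({x} : Set Z) := a.2
      rw [Algebra.adjoin_singleton_eq_range_aeval] at h1
      exact h1
    rw [haF, ← hP] at hac
    obtain ⟨Q, hQ⟩ := sheet_dvd_of_nonunit hW P hac
    apply hap
    have hQB : aeval x Q ∈ B := hAB (by
      show aeval x Q ∈ Algebra.adjoin R ({x} : Set Z)
      rw [Algebra.adjoin_singleton_eq_range_aeval]
      exact ⟨Q, rfl⟩)
    have : algebraMap A B a = algebraMap R B w * ⟨aeval x Q, hQB⟩ := by
      apply Subtype.ext
      rw [haF, ← hP, hQ]
      rfl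
    rw [this]
    exact Ideal.mul_mem_right _ _ hwp'

variable [IsNoetherianRing R] [IsIntegrallyClosed R[X]] [CharZero Z]

/-- **A sheet is the localisation of the chart at its centre.** -/
theorem sheet_mem_iff (hinjR : Function.Injective (algebraMap R Z)) {w : R} (hw : Prime w)
    {x : Z} (hx : Transcendental R x)
    [FiniteDimensional (baseField R x) Z] {W : ValuationSubring Z} (hW : IsSheet w x W) (z : Z) :
    z ∈ W ↔ ∃ a s : chart R ({x} : Set Z), (s : Z) ∉ W.nonunits ∧ z = a * (s : Z)⁻¹ := by
  classical
  set B := chart R ({x} : Set Z) with hB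
  obtain ⟨hnoeth, hic, hfrac⟩ := chart_inst (R := R) hx
  haveI := hnoeth
  haveI := hic
  haveI : IsFractionRing B Z := by
    refine IsFractionRing.of_field B Z (fun z => ?_)
    obtain ⟨a, ha, b, hb, -, h⟩ := hfrac z
    exact ⟨⟨a, ha⟩, ⟨b, hb⟩, h⟩
  set 𝔭 := centreW W B (sheet_chart_le hW) with h𝔭
  have hmin := centre_mem_minimalPrimes hW
  have hBW := sheet_chart_le hW
  constructor
  · intro hz
    -- the localisation at the centre is a discrete valuation ring
    have hw0 : algebraMap R B w ≠ 0 := by
      intro h0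
      have : algebraMap R Z w = 0 := congrArg Subtype.val h0
      exact hw.ne_zero (hinjR (by rw [this, map_zero]))
    have hcolon : ((Ideal.span {algebraMap R B w} : Ideal B) : Submodule B B).colon {(1 : B)} =
        Ideal.span {algebraMap R B w} := by
      ext r
      rw [Submodule.mem_colon_singleton, smul_eq_mul, mul_one]
    have hmin' : 𝔭 ∈ (((Ideal.span {algebraMap R B w} : Ideal B) : Submodule B B).colon
        {(1 : B)}).minimalPrimes := by
      rw [hcolon]
      exact hmin
    obtain ⟨c, hc⟩ := Submodule.exists_eq_colon_of_mem_minimalPrimes hmin'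
    have hP : ∀ r, r ∈ 𝔭 ↔ algebraMap R B w ∣ r * c := by
      intro r
      rw [hc, Submodule.mem_colon_singleton, smul_eq_mul]
      exact Ideal.mem_span_singleton
    haveI hdvr : IsDiscreteValuationRing (locAt Z 𝔭) :=
      isDiscreteValuationRing_locAt_of_colon 𝔭 (algebraMap R B w) c hw0 hP
    rcases ValuationRing.isInteger_or_isInteger (locAt Z 𝔭) (K := Z) z with ⟨y, hy⟩ | ⟨y, hy⟩
    · obtain ⟨a, s, hs, h⟩ := (mem_locAt_iff 𝔭 (y : Z)).1 y.2
      refine ⟨a, s, fun hsn => hs ((mem_centreW W B hBW s).2 hsn), ?_⟩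
      rw [← hy]
      exact h
    · -- `z⁻¹ ∈ B_𝔭`
      by_cases hz0 : z = 0
      · exact ⟨0, 1, by simpa using nu_one_not W, by simp [hz0]⟩
      obtain ⟨a, s, hs, h⟩ := (mem_locAt_iff 𝔭 (y : Z)).1 y.2
      have hy' : (y : Z) = z⁻¹ := hy
      rw [hy'] at h
      have hs0 : (s : Z) ≠ 0 := by
        intro h0
        apply hs
        rw [mem_centreW, h0]
        exact nu_zero W
      have ha0 : (a : Z) ≠ 0 := by
        intro h0
        have h1 : algebraMap B Z a = 0 := h0
        rw [h1, zero_mul] at h
        exact hz0 (inv_eq_zero.1 h)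
      -- `a` is a unit of `W`
      have haW : (a : Z) ∉ W.nonunits := by
        intro han
        have hsW : (s : Z) ∈ W := hBW s s.2
        have hsn : (s : Z) ∉ W.nonunits := fun h1 => hs ((mem_centreW W B hBW s).2 h1)
        have h1 : z⁻¹ ∈ W.nonunits := by
          rw [h]
          exact nu_mul_right W han (nu_unit_inv W hsW hsn)
        have h2 := nu_mul_left W h1 hz
        rw [mul_inv_cancel₀ hz0] at h2
        exact nu_one_not W h2
      refine ⟨s, a, haW, ?_⟩
      have h1 : z = (z⁻¹)⁻¹ := (inv_inv z).symm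
      rw [h1, h]
      have e1 : algebraMap B Z a = (a : Z) := rfl
      have e2 : algebraMap B Z s = (s : Z) := rfl
      rw [e1, e2, mul_inv, inv_inv, mul_comm]
  · rintro ⟨a, s, hs, rfl⟩
    exact W.mul_mem _ _ (hBW a a.2) (nu_unit_inv W (hBW s s.2) hs)

/-- A sheet is determined by its centre on the chart. -/
theorem sheet_eq_of_centre_eq (hinjR : Function.Injective (algebraMap R Z)) {w : R}
    (hw : Prime w) {x : Z} (hx : Transcendental R x)
    [FiniteDimensional (baseField R x) Z] {W W' : ValuationSubring Z} (hW : IsSheet w x W)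
    (hW' : IsSheet w x W')
    (h : centreW W (chart R ({x} : Set Z)) (sheet_chart_le hW) =
      centreW W' (chart R ({x} : Set Z)) (sheet_chart_le hW')) : W = W' := by
  have hnu : ∀ s : chart R ({x} : Set Z), (s : Z) ∈ W.nonunits ↔ (s : Z) ∈ W'.nonunits := by
    intro s
    rw [← mem_centreW W _ (sheet_chart_le hW), ← mem_centreW W' _ (sheet_chart_le hW'), h]
  ext z
  rw [sheet_mem_iff hinjR hw hx hW, sheet_mem_iff hinjR hw hx hW']
  constructor
  · rintro ⟨a, s, hs, hz⟩
    exact ⟨a, s, fun h1 => hs ((hnu s).2 h1), hz⟩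
  · rintro ⟨a, s, hs, hz⟩
    exact ⟨a, s, fun h1 => hs ((hnu s).1 h1), hz⟩

/-- **There are finitely many sheets.** -/
theorem sheets_finite (hinjR : Function.Injective (algebraMap R Z)) (w : R) (hw : Prime w)
    {x : Z} (hx : Transcendental R x) [FiniteDimensional (baseField R x) Z] :
    {W : ValuationSubring Z | IsSheet w x W}.Finite := by
  classical
  set B := chart R ({x} : Set Z) with hB
  obtain ⟨hnoeth, -, -⟩ := chart_inst (R := R) hx
  haveI := hnoeth
  have hfin := Ideal.finite_minimalPrimes_of_isNoetherianRing B (Ideal.span {algebraMap R B w})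
  let f : ValuationSubring Z → Ideal B := fun W =>
    if h : IsSheet w x W then centreW W B (sheet_chart_le h) else ⊥
  refine Set.Finite.of_injOn (f := f) (t := (Ideal.span {algebraMap R B w}).minimalPrimes)
    ?_ ?_ hfin
  · intro W hW
    have hW' : IsSheet w x W := hW
    simp only [f, dif_pos hW']
    exact centre_mem_minimalPrimes hW'
  · intro W hW W' hW' hff
    have h1 : IsSheet w x W := hW
    have h2 : IsSheet w x W' := hW'
    simp only [f, dif_pos h1, dif_pos h2] at hff
    exact sheet_eq_of_centre_eq hinjR hw hx h1 h2 hff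

/-- **The sheets are pairwise separated.** -/
theorem sheets_sep (hinjR : Function.Injective (algebraMap R Z)) (w : R) (hw : Prime w)
    {x : Z} (hx : Transcendental R x) [FiniteDimensional (baseField R x) Z] :
    Sep {W : ValuationSubring Z | IsSheet w x W} := by
  intro W hW W' hW' hne
  have h1 : IsSheet w x W := hW
  have h2 : IsSheet w x W' := hW'
  set B := chart R ({x} : Set Z) with hB
  have hnle : ¬ centreW W' B (sheet_chart_le h2) ≤ centreW W B (sheet_chart_le h1) := by
    intro hle
    have hge := (centre_mem_minimalPrimes h1).2 (centre_mem_minimalPrimes h2).1 hle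
    exact hne (sheet_eq_of_centre_eq hinjR hw hx h1 h2 (le_antisymm hge hle))
  obtain ⟨c, hc', hc⟩ := SetLike.not_le_iff_exists.1 hnle
  refine ⟨c, fun V hV => sheet_chart_le (show IsSheet w x V from hV) c c.2,
    (mem_centreW W' B _ c).1 hc', fun h => hc ((mem_centreW W B _ c).2 h)⟩

end Sheets

end Fermat.Agent.S36.H193
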