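import Fermat.Agent.S36.H193.WallBase
import Fermat.Agent.A2.H93.Sheets
import Fermat.Agent.A2.H552.ConstLeaf
import Fermat.Agent.A2.H313.Const

/-!
# S36 engine, leaf CLOPEN (helper193), part 10: the label wall, final form (no cover in sight)

`R` a Henselian discrete valuation ring with algebraically closed residue field, uniformiser `w`,
fraction field `E` of characteristic `0`; `F` a field over `E`, `x ∈ F` transcendental over `R`,
`F` finite over `Frac R (x)`; `m` invertible in `R`, `ζ ∈ R` a primitive `m`-th root of unity.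
Sheets of `F`: `A2.H12.IsSheet w x V`.

**Theorem** (`exists_pow_eq_of_base`).  Let `f ∈ F^×` be such that
* `f ≡ 1` on every sheet of `F` (`f` is split),
* some sheet `V₀` of `F` is unramified over `R` (`w` generates its maximal ideal) and discrete,
* at every closed point `𝔫` of the special fibre of the two charts of `F` there is a purity
  datum `f = ε h ^ m` (`ε` a unit at `𝔫`) such that on every sheet `V` through `𝔫` the residue of
  `h` has the value `ζ ^ κ V · v` at `𝔫` (`BasePureValuesAt`; `κ` = normalising exponents,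
  depending on the sheet only).
Then `f` is an `m`-th power in `F`.

The special fibre may be non-reduced and any number of sheets may pass through a closed point
(level `q²`: `q B = p_FF ∩ p_mid^(q-1) ∩ p_VV`, triple points; `V₀ = V_FF`).
The Kummer cover `Z = F(f^(1/m))` is constructed inside the proof; "no new constants" in `Z` is
`A2.H552.isIntegral_mem_range_of_unramified` applied to a sheet of `Z` over `V₀`
(`A2.H93.CoverSplit`).
-/

set_option autoImplicit false
set_option linter.style.haveILetI false
set_option linter.unusedSectionVars false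

namespace Fermat.Agent.S36.H193

open Polynomial
open Fermat.Agent.A2.H12 (IsSheet)
open Fermat.Agent.S18.H138

universe u

section Pow

variable {R : Type u} [CommRing R] [IsDomain R] [IsDiscreteValuationRing R]
  [HenselianLocalRing R] [IsAlgClosed (IsLocalRing.ResidueField R)] [IsIntegrallyClosed R[X]]
variable (E : Type u) [Field E] [CharZero E] [Algebra R E] [IsFractionRing R E]
variable {F : Type u} [Field F] [Algebra E F] [Algebra R F] [IsScalarTower R E F]

include E in

/-- **The label wall, final form.** -/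
theorem exists_pow_eq_of_base (w : R) (hw : Irreducible w)
    {x : F} (hx : Transcendental R x) [FiniteDimensional (baseField R x) F]
    {m : ℕ} (hm : 0 < m) {mi : R} (hmi : (m : R) * mi = 1) {ζ : R} (hζ : IsPrimitiveRoot ζ m)
    {f : F} (hf0 : f ≠ 0)
    (hsplit : ∀ V, IsSheet w x V → f - 1 ∈ V.nonunits)
    (V₀ : ValuationSubring F) (hV₀ : IsSheet w x V₀)
    (hunif : ∀ a ∈ V₀.nonunits, ∃ b ∈ V₀, a = algebraMap R F w * b)
    (hdisc : ∀ g : F, ∃ k : ℕ, g * algebraMap R F w ^ k ∈ V₀)
    (κ : ValuationSubring F → ℕ)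
    (hpure_fin : ∀ 𝔫 : Ideal (chart R ({x} : Set F)), 𝔫.IsMaximal →
      algebraMap R (chart R ({x} : Set F)) w ∈ 𝔫 →
      BasePureValuesAt {V | IsSheet w x V} (chart R ({x} : Set F)) 𝔫 m f ζ κ)
    (hpure_inf : ∀ 𝔫 : Ideal (chart R ({x⁻¹} : Set F)), 𝔫.IsMaximal →
      algebraMap R (chart R ({x⁻¹} : Set F)) w ∈ 𝔫 →
      BasePureValuesAt {V | IsSheet w x V} (chart R ({x⁻¹} : Set F)) 𝔫 m f ζ κ) :
    ∃ g : F, g ^ m = f := by
  classical
  have hwp : Prime w := hw.prime
  have hinjRE : Function.Injective (algebraMap R E) := IsFractionRing.injective R E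
  have hinjRF : Function.Injective (algebraMap R F) := by
    rw [IsScalarTower.algebraMap_eq R E F]
    exact (algebraMap E F).injective.comp hinjRE
  haveI : CharZero F := charZero_of_injective_algebraMap (algebraMap E F).injective
  have hmF : (m : F) ≠ 0 := Nat.cast_ne_zero.2 hm.ne'
  -- the cover
  let Z := (X ^ m - C f : F[X]).SplittingField
  haveI : FiniteDimensional F Z := IsSplittingField.finiteDimensional Z (X ^ m - C f : F[X])
  haveI : IsGalois F Z := IsGalois.of_separable_splitting_field (p := (X ^ m - C f : F[X]))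
    (separable_X_pow_sub_C f hmF hf0)
  haveI : IsScalarTower R E Z := by
    refine IsScalarTower.of_algebraMap_eq (fun r => ?_)
    rw [IsScalarTower.algebraMap_apply R F Z, IsScalarTower.algebraMap_apply E F Z,
      ← IsScalarTower.algebraMap_apply R E F]
  haveI : CharZero Z := charZero_of_injective_algebraMap (algebraMap F Z).injective
  have hinjRZ : Function.Injective (algebraMap R Z) := by
    rw [IsScalarTower.algebraMap_eq R F Z]
    exact (algebraMap F Z).injective.comp hinjRF
  have hxZ : Transcendental R (algebraMap F Z x) :=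
    (transcendental_algebraMap_iff (algebraMap F Z).injective).2 hx
  haveI : FiniteDimensional (baseField R (algebraMap F Z x)) Z :=
    Fermat.Agent.A2.H313.finiteDimensional_baseField_tower (R := R) (L := Z) x
  -- a root
  have hdeg : (((X ^ m - C f : F[X])).map (algebraMap F Z)).degree ≠ 0 := by
    rw [degree_map, degree_X_pow_sub_C hm]
    exact_mod_cast hm.ne'
  obtain ⟨G, hGroot⟩ := (SplittingField.splits (X ^ m - C f : F[X])).exists_eval_eq_zero hdeg
  have hG : G ^ m = algebraMap F Z f := by
    simp only [Polynomial.map_sub, Polynomial.map_pow, map_X, map_C, eval_sub, eval_pow, eval_X,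
      eval_C] at hGroot
    exact sub_eq_zero.1 hGroot
  have hG0 : G ≠ 0 := by
    rintro rfl
    rw [zero_pow hm.ne'] at hG
    exact hf0 ((map_eq_zero (algebraMap F Z)).1 hG.symm)
  -- the cover is generated by `G`
  have hζZ : IsPrimitiveRoot (algebraMap R Z ζ) m := hζ.map_of_injective hinjRZ
  have hgen : Algebra.adjoin F (Set.range fun _ : Unit => G) = ⊤ := by
    rw [eq_top_iff, ← SplittingField.adjoin_rootSet (X ^ m - C f : F[X])]
    refine Algebra.adjoin_le ?_
    intro r hr
    rw [mem_rootSet] at hr
    have hr1 : r ^ m = algebraMap F Z f := by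
      have := hr.2
      simp only [map_sub, map_pow, aeval_X, aeval_C] at this
      exact sub_eq_zero.1 this
    have hpow : (r / G) ^ m = 1 := by
      rw [div_pow, hr1, hG, div_self]
      rw [← hG]
      exact pow_ne_zero _ hG0
    haveI : NeZero m := ⟨hm.ne'⟩
    obtain ⟨i, -, hi⟩ := hζZ.eq_pow_of_pow_eq_one hpow
    have hrG : r = algebraMap R Z ζ ^ i * G := by
      rw [hi]
      field_simp
    rw [hrG]
    refine Subalgebra.mul_mem _ (Subalgebra.pow_mem _ ?_ i) (Algebra.subset_adjoin ⟨(), rfl⟩)
    rw [IsScalarTower.algebraMap_apply R F Z]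
    exact Subalgebra.algebraMap_mem _ _
  -- a sheet of the cover over `V₀`, unramified
  obtain ⟨W, hWV⟩ := Fermat.Agent.A2.H93.exists_comap_eq_of_unif (L := Z) V₀
    (algebraMap R F w) hV₀.2.2.1 hunif
  have hwF0 : algebraMap R F w ≠ 0 := fun h => hw.ne_zero (hinjRF (by rw [h, map_zero]))
  have hfV₀ : f ∈ V₀ := by
    have : f = (f - 1) + 1 := by ring
    rw [this]
    exact V₀.add_mem _ _ (nu_mem V₀ (hsplit V₀ hV₀)) V₀.one_mem
  have hfnu : f ∉ V₀.nonunits := by
    intro h
    have h1 := nu_sub V₀ h (hsplit V₀ hV₀)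
    have : f - (f - 1) = 1 := by ring
    rw [this] at h1
    exact nu_one_not V₀ h1
  have hgenV₀ : ∀ a ∈ V₀, a⁻¹ ∉ V₀ → a * (algebraMap R F w)⁻¹ ∈ V₀ := by
    intro a ha hainv
    have han : a ∈ V₀.nonunits := by
      rw [ValuationSubring.mem_nonunits_iff_or]
      exact Or.inr hainv
    obtain ⟨b, hb, rfl⟩ := hunif a han
    rw [mul_comm, ← mul_assoc, inv_mul_cancel₀ hwF0, one_mul]
    exact hb
  have hD : Fermat.Agent.A2.H93.CoverSplit V₀ W (algebraMap R F w) m (algebraMap R F ζ)
      (fun _ : Unit => G) (fun _ => f) (fun _ => 1) := by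
    refine ⟨?_, ?_, hgenV₀, hdisc, hζ.map_of_injective hinjRF, hm, ?_, fun _ => hG,
      fun _ => hfV₀, fun _ => hf0, fun _ => nu_unit_inv V₀ hfV₀ hfnu, fun _ => V₀.one_mem, ?_,
      hgen⟩
    · intro a
      rw [← hWV, ValuationSubring.mem_comap]
    · intro h
      have h1 := nu_mul_left V₀ hV₀.2.2.1 h
      rw [inv_mul_cancel₀ hwF0] at h1
      exact nu_one_not V₀ h1
    · have h1 : (m : F)⁻¹ = algebraMap R F mi := by
        have := congrArg (algebraMap R F) hmi
        rw [map_mul, map_natCast, map_one] at this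
        exact inv_eq_of_mul_eq_one_right this
      rw [h1]
      exact hV₀.1 mi
    · intro _
      rw [one_pow]
      by_cases h0 : f - 1 = 0
      · rw [h0, zero_mul]
        exact V₀.zero_mem
      · have h1 := hsplit V₀ hV₀
        refine hgenV₀ _ (nu_mem V₀ h1) ?_
        rw [ValuationSubring.mem_nonunits_iff_or] at h1
        exact h1.resolve_left h0
  have hRW : ∀ r : R, algebraMap R Z r ∈ W := by
    intro r
    have : algebraMap F Z (algebraMap R F r) ∈ W := by
      rw [← ValuationSubring.mem_comap, hWV]
      exact hV₀.1 r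
    exact this
  have hwW : algebraMap R Z w ∈ W.nonunits := by
    have : algebraMap F Z (algebraMap R F w) ∈ W.nonunits := by
      rw [← mem_nonunits_comap_algebraMap, hWV]
      exact hV₀.2.2.1
    exact this
  have hunifW : ∀ a ∈ W.nonunits, ∃ b ∈ W, a = algebraMap R Z w * b := by
    intro a ha
    have hwZ0 : algebraMap R Z w ≠ 0 := fun h => hw.ne_zero (hinjRZ (by rw [h, map_zero]))
    by_cases ha0 : a = 0
    · exact ⟨0, W.zero_mem, by rw [ha0, mul_zero]⟩
    · have hainv : a⁻¹ ∉ W := by
        have := (ValuationSubring.mem_nonunits_iff_or W).1 ha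
        exact this.resolve_left ha0
      refine ⟨a * (algebraMap R Z w)⁻¹, hD.mul_inv_mem (nu_mem W ha) hainv, ?_⟩
      rw [mul_comm a, ← mul_assoc, mul_inv_cancel₀ hwZ0, one_mul]
  have hRF : ∀ y : Z, IsIntegral R y → y ∈ Set.range (algebraMap R Z) := fun y hy =>
    Fermat.Agent.A2.H552.isIntegral_mem_range_of_unramified E w hw W hRW hwW hunifW y hy
  -- the wall
  obtain ⟨g, hg⟩ := kummer_wall3_of_base hinjRZ hRF hxZ w hwp hm hmi hζ hG hsplit κ
    hpure_fin hpure_inf
  refine ⟨g, (algebraMap F Z).injective ?_⟩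
  rw [map_pow, hg, hG]

end Pow

end Fermat.Agent.S36.H193
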