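import Fermat.Agent.S36.H193.WallPow

/-!
# S36 engine, leaf CLOPEN (helper193), part 11: the label wall, flexible form (ALG3 step (c6))

Same theorem as `exists_pow_eq_of_base` (`WallPow.lean`), in the shape consumed by the assembly of
ALG3 from a three-component context:

* the set `𝒱` of valuation rings along which the values are given is ANY set containing all sheets
  (e.g. `{V₁, V₂, V₃}` once "every sheet is one of `V₁, V₂, V₃`" is known);
* the unramified discrete valuation ring `V₀` used for "no new constants" need NOT be a sheet: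
  only `R ⊆ V₀`, `w` generates the maximal ideal of `V₀`, `V₀` is `w`-adically discrete and
  `f ≡ 1` on `V₀`;
* `exists_pow_eq_of_three` : the hypotheses on the base are those of the frozen context
  (`Transcendental E x`, `F` finite over `E(x)`, `q ∤ m`), for the three rings `V₁, V₂, V₃`.

* `BasePureValuesAt.mono` : monotonicity in the set of sheets.
-/

set_option autoImplicit false
set_option linter.style.haveILetI false
set_option linter.unusedSectionVars false

namespace Fermat.Agent.S36.H193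

open Polynomial
open Fermat.Agent.A2.H12 (IsSheet)
open Fermat.Agent.S18.H138

universe u

section Mono

variable {R : Type*} [CommRing R] {F : Type*} [Field F] [Algebra R F]

/-- A purity datum with normalised values along a set of sheets is one along every subset. -/
theorem BasePureValuesAt.mono {𝒱 𝒱' : Set (ValuationSubring F)} (h : 𝒱 ⊆ 𝒱')
    {B : Subalgebra R F} {𝔫 : Ideal B} {m : ℕ} {f : F} {ζ : R} {κ : ValuationSubring F → ℕ}
    (hb : BasePureValuesAt 𝒱' B 𝔫 m f ζ κ) : BasePureValuesAt 𝒱 B 𝔫 m f ζ κ := by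
  obtain ⟨h', e₁, e₂, v, hh0, he₂, hv, hf, hval⟩ := hb
  exact ⟨h', e₁, e₂, v, hh0, he₂, hv, hf, fun V hV hth => hval V (h hV) hth⟩

end Mono

section Flex

variable {R : Type u} [CommRing R] [IsDomain R] [IsDiscreteValuationRing R]
  [HenselianLocalRing R] [IsAlgClosed (IsLocalRing.ResidueField R)] [IsIntegrallyClosed R[X]]
variable (E : Type u) [Field E] [CharZero E] [Algebra R E] [IsFractionRing R E]
variable {F : Type u} [Field F] [Algebra E F] [Algebra R F] [IsScalarTower R E F]

include E in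
/-- **The label wall, flexible form.**  `𝒱` any set of valuation rings containing all sheets,
`V₀` any unramified discrete valuation ring of `F` containing `R` on which `f ≡ 1`. -/
theorem exists_pow_eq_of_base_set (w : R) (hw : Irreducible w)
    {x : F} (hx : Transcendental R x) [FiniteDimensional (baseField R x) F]
    {m : ℕ} (hm : 0 < m) {mi : R} (hmi : (m : R) * mi = 1) {ζ : R} (hζ : IsPrimitiveRoot ζ m)
    {f : F} (hf0 : f ≠ 0)
    (𝒱 : Set (ValuationSubring F)) (h𝒱 : ∀ V, IsSheet w x V → V ∈ 𝒱)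
    (hsplit : ∀ V ∈ 𝒱, f - 1 ∈ V.nonunits)
    (V₀ : ValuationSubring F) (hRV₀ : ∀ r : R, algebraMap R F r ∈ V₀)
    (hwV₀ : algebraMap R F w ∈ V₀.nonunits) (hsplit₀ : f - 1 ∈ V₀.nonunits)
    (hunif : ∀ a ∈ V₀.nonunits, ∃ b ∈ V₀, a = algebraMap R F w * b)
    (hdisc : ∀ g : F, ∃ k : ℕ, g * algebraMap R F w ^ k ∈ V₀)
    (κ : ValuationSubring F → ℕ)
    (hpure_fin : ∀ 𝔫 : Ideal (chart R ({x} : Set F)), 𝔫.IsMaximal →
      algebraMap R (chart R ({x} : Set F)) w ∈ 𝔫 →
      BasePureValuesAt 𝒱 (chart R ({x} : Set F)) 𝔫 m f ζ κ)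
    (hpure_inf : ∀ 𝔫 : Ideal (chart R ({x⁻¹} : Set F)), 𝔫.IsMaximal →
      algebraMap R (chart R ({x⁻¹} : Set F)) w ∈ 𝔫 →
      BasePureValuesAt 𝒱 (chart R ({x⁻¹} : Set F)) 𝔫 m f ζ κ) :
    ∃ g : F, g ^ m = f := by
  classical
  have hwp : Prime w := hw.prime
  have hinjRE : Function.Injective (algebraMap R E) := IsFractionRing.injective R E
  have hinjRF : Function.Injective (algebraMap R F) := by
    rw [IsScalarTower.algebraMap_eq R E F]
    exact (algebraMap E F).injective.comp hinjRE
  haveI : CharZero F := charZero_of_injective_algebraMap (algebraMap E F).injective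
  have hmF : (m : F) ≠ 0 := Nat.cast_ne_zero.2 hm.ne'
  -- the cover
  let Z := (X ^ m - C f : F[X]).SplittingField
  haveI : FiniteDimensional F Z := IsSplittingField.finiteDimensional Z (X ^ m - C f : F[X])
  haveI : IsGalois F Z := IsGalois.of_separable_splitting_field (p := (X ^ m - C f : F[X]))
    (separable_X_pow_sub_C f hmF hf0)
  haveI : IsScalarTower R E Z := by
    refine IsScalarTower.of_algebraMap_eq (fun r => ?_)
    rw [IsScalarTower.algebraMap_apply R F Z, IsScalarTower.algebraMap_apply E F Z,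
      ← IsScalarTower.algebraMap_apply R E F]
  haveI : CharZero Z := charZero_of_injective_algebraMap (algebraMap F Z).injective
  have hinjRZ : Function.Injective (algebraMap R Z) := by
    rw [IsScalarTower.algebraMap_eq R F Z]
    exact (algebraMap F Z).injective.comp hinjRF
  have hxZ : Transcendental R (algebraMap F Z x) :=
    (transcendental_algebraMap_iff (algebraMap F Z).injective).2 hx
  haveI : FiniteDimensional (baseField R (algebraMap F Z x)) Z :=
    Fermat.Agent.A2.H313.finiteDimensional_baseField_tower (R := R) (L := Z) x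
  -- a root
  have hdeg : (((X ^ m - C f : F[X])).map (algebraMap F Z)).degree ≠ 0 := by
    rw [degree_map, degree_X_pow_sub_C hm]
    exact_mod_cast hm.ne'
  obtain ⟨G, hGroot⟩ := (SplittingField.splits (X ^ m - C f : F[X])).exists_eval_eq_zero hdeg
  have hG : G ^ m = algebraMap F Z f := by
    simp only [Polynomial.map_sub, Polynomial.map_pow, map_X, map_C, eval_sub, eval_pow, eval_X,
      eval_C] at hGroot
    exact sub_eq_zero.1 hGroot
  have hG0 : G ≠ 0 := by
    rintro rfl
    rw [zero_pow hm.ne'] at hG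
    exact hf0 ((map_eq_zero (algebraMap F Z)).1 hG.symm)
  -- the cover is generated by `G`
  have hζZ : IsPrimitiveRoot (algebraMap R Z ζ) m := hζ.map_of_injective hinjRZ
  have hgen : Algebra.adjoin F (Set.range fun _ : Unit => G) = ⊤ := by
    rw [eq_top_iff, ← SplittingField.adjoin_rootSet (X ^ m - C f : F[X])]
    refine Algebra.adjoin_le ?_
    intro r hr
    rw [mem_rootSet] at hr
    have hr1 : r ^ m = algebraMap F Z f := by
      have := hr.2
      simp only [map_sub, map_pow, aeval_X, aeval_C] at this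
      exact sub_eq_zero.1 this
    have hpow : (r / G) ^ m = 1 := by
      rw [div_pow, hr1, hG, div_self]
      rw [← hG]
      exact pow_ne_zero _ hG0
    haveI : NeZero m := ⟨hm.ne'⟩
    obtain ⟨i, -, hi⟩ := hζZ.eq_pow_of_pow_eq_one hpow
    have hrG : r = algebraMap R Z ζ ^ i * G := by
      rw [hi]
      field_simp
    rw [hrG]
    refine Subalgebra.mul_mem _ (Subalgebra.pow_mem _ ?_ i) (Algebra.subset_adjoin ⟨(), rfl⟩)
    rw [IsScalarTower.algebraMap_apply R F Z]
    exact Subalgebra.algebraMap_mem _ _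
  -- a valuation ring of the cover over `V₀`, unramified
  obtain ⟨W, hWV⟩ := Fermat.Agent.A2.H93.exists_comap_eq_of_unif (L := Z) V₀
    (algebraMap R F w) hwV₀ hunif
  have hwF0 : algebraMap R F w ≠ 0 := fun h => hw.ne_zero (hinjRF (by rw [h, map_zero]))
  have hfV₀ : f ∈ V₀ := by
    have : f = (f - 1) + 1 := by ring
    rw [this]
    exact V₀.add_mem _ _ (nu_mem V₀ hsplit₀) V₀.one_mem
  have hfnu : f ∉ V₀.nonunits := by
    intro h
    have h1 := nu_sub V₀ h hsplit₀
    have : f - (f - 1) = 1 := by ring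
    rw [this] at h1
    exact nu_one_not V₀ h1
  have hgenV₀ : ∀ a ∈ V₀, a⁻¹ ∉ V₀ → a * (algebraMap R F w)⁻¹ ∈ V₀ := by
    intro a ha hainv
    have han : a ∈ V₀.nonunits := by
      rw [ValuationSubring.mem_nonunits_iff_or]
      exact Or.inr hainv
    obtain ⟨b, hb, rfl⟩ := hunif a han
    rw [mul_comm, ← mul_assoc, inv_mul_cancel₀ hwF0, one_mul]
    exact hb
  have hD : Fermat.Agent.A2.H93.CoverSplit V₀ W (algebraMap R F w) m (algebraMap R F ζ)
      (fun _ : Unit => G) (fun _ => f) (fun _ => 1) := by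
    refine ⟨?_, ?_, hgenV₀, hdisc, hζ.map_of_injective hinjRF, hm, ?_, fun _ => hG,
      fun _ => hfV₀, fun _ => hf0, fun _ => nu_unit_inv V₀ hfV₀ hfnu, fun _ => V₀.one_mem, ?_,
      hgen⟩
    · intro a
      rw [← hWV, ValuationSubring.mem_comap]
    · intro h
      have h1 := nu_mul_left V₀ hwV₀ h
      rw [inv_mul_cancel₀ hwF0] at h1
      exact nu_one_not V₀ h1
    · have h1 : (m : F)⁻¹ = algebraMap R F mi := by
        have := congrArg (algebraMap R F) hmi
        rw [map_mul, map_natCast, map_one] at this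
        exact inv_eq_of_mul_eq_one_right this
      rw [h1]
      exact hRV₀ mi
    · intro _
      rw [one_pow]
      by_cases h0 : f - 1 = 0
      · rw [h0, zero_mul]
        exact V₀.zero_mem
      · have h1 := hsplit₀
        refine hgenV₀ _ (nu_mem V₀ h1) ?_
        rw [ValuationSubring.mem_nonunits_iff_or] at h1
        exact h1.resolve_left h0
  have hRW : ∀ r : R, algebraMap R Z r ∈ W := by
    intro r
    have : algebraMap F Z (algebraMap R F r) ∈ W := by
      rw [← ValuationSubring.mem_comap, hWV]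
      exact hRV₀ r
    exact this
  have hwW : algebraMap R Z w ∈ W.nonunits := by
    have : algebraMap F Z (algebraMap R F w) ∈ W.nonunits := by
      rw [← mem_nonunits_comap_algebraMap, hWV]
      exact hwV₀
    exact this
  have hunifW : ∀ a ∈ W.nonunits, ∃ b ∈ W, a = algebraMap R Z w * b := by
    intro a ha
    have hwZ0 : algebraMap R Z w ≠ 0 := fun h => hw.ne_zero (hinjRZ (by rw [h, map_zero]))
    by_cases ha0 : a = 0
    · exact ⟨0, W.zero_mem, by rw [ha0, mul_zero]⟩
    · have hainv : a⁻¹ ∉ W := by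
        have := (ValuationSubring.mem_nonunits_iff_or W).1 ha
        exact this.resolve_left ha0
      refine ⟨a * (algebraMap R Z w)⁻¹, hD.mul_inv_mem (nu_mem W ha) hainv, ?_⟩
      rw [mul_comm a, ← mul_assoc, mul_inv_cancel₀ hwZ0, one_mul]
  have hRF : ∀ y : Z, IsIntegral R y → y ∈ Set.range (algebraMap R Z) := fun y hy =>
    Fermat.Agent.A2.H552.isIntegral_mem_range_of_unramified E w hw W hRW hwW hunifW y hy
  -- the wall
  obtain ⟨g, hg⟩ := kummer_wall3_of_base hinjRZ hRF hxZ w hwp hm hmi hζ hG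
    (fun V hV => hsplit V (h𝒱 V hV)) κ
    (fun 𝔫 h𝔫 hw𝔫 => (hpure_fin 𝔫 h𝔫 hw𝔫).mono (fun V hV => h𝒱 V hV))
    (fun 𝔫 h𝔫 hw𝔫 => (hpure_inf 𝔫 h𝔫 hw𝔫).mono (fun V hV => h𝒱 V hV))
  refine ⟨g, (algebraMap F Z).injective ?_⟩
  rw [map_pow, hg, hG]

include E in
/-- **The label wall for a three-component context** (ALG3, step (c6)).  Hypotheses on the base
in the shape of the frozen context: `x` transcendental over `E`, `F` finite over `E(x)`, residue
characteristic `q ∤ m`; `V₁` unramified and discrete, containing `R`; every sheet is one of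
`V₁, V₂, V₃`; `f ≡ 1` on `V₁, V₂, V₃`; purity data with normalised values along `V₁, V₂, V₃` at
every closed point of the special fibre of the two charts. -/
theorem exists_pow_eq_of_three (w : R) (hw : Irreducible w) (q : ℕ) (hq : q.Prime)
    (hqR : (q : R) ∈ IsLocalRing.maximalIdeal R)
    {x : F} (hx : Transcendental E x)
    (hfin : FiniteDimensional (IntermediateField.adjoin E ({x} : Set F)) F)
    {m : ℕ} (hm : 0 < m) (hqm : ¬ q ∣ m) {ζ : R} (hζ : IsPrimitiveRoot ζ m)
    {f : F} (hf0 : f ≠ 0)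
    (V₁ V₂ V₃ : ValuationSubring F)
    (hsheets : ∀ V, IsSheet w x V → V = V₁ ∨ V = V₂ ∨ V = V₃)
    (h₁ : f - 1 ∈ V₁.nonunits) (h₂ : f - 1 ∈ V₂.nonunits) (h₃ : f - 1 ∈ V₃.nonunits)
    (hRV₁ : ∀ r : R, algebraMap R F r ∈ V₁)
    (hwV₁ : algebraMap R F w ∈ V₁.nonunits)
    (hunif : ∀ a ∈ V₁.nonunits, a * (algebraMap R F w)⁻¹ ∈ V₁)
    (hdisc : ∀ g : F, ∃ k : ℕ, g * algebraMap R F w ^ k ∈ V₁)
    (κ : ValuationSubring F → ℕ)
    (hpure_fin : ∀ 𝔫 : Ideal (chart R ({x} : Set F)), 𝔫.IsMaximal →
      algebraMap R (chart R ({x} : Set F)) w ∈ 𝔫 →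
      BasePureValuesAt {V | V = V₁ ∨ V = V₂ ∨ V = V₃} (chart R ({x} : Set F)) 𝔫 m f ζ κ)
    (hpure_inf : ∀ 𝔫 : Ideal (chart R ({x⁻¹} : Set F)), 𝔫.IsMaximal →
      algebraMap R (chart R ({x⁻¹} : Set F)) w ∈ 𝔫 →
      BasePureValuesAt {V | V = V₁ ∨ V = V₂ ∨ V = V₃} (chart R ({x⁻¹} : Set F)) 𝔫 m f ζ κ) :
    ∃ g : F, g ^ m = f := by
  have hinjRE : Function.Injective (algebraMap R E) := IsFractionRing.injective R E
  have hinjRF : Function.Injective (algebraMap R F) := by
    rw [IsScalarTower.algebraMap_eq R E F]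
    exact (algebraMap E F).injective.comp hinjRE
  have hwF0 : algebraMap R F w ≠ 0 := fun h => hw.ne_zero (hinjRF (by rw [h, map_zero]))
  have hxR : Transcendental R x := hx.restrictScalars hinjRE
  haveI := hfin
  haveI : FiniteDimensional (baseField R x) F :=
    Fermat.Agent.A2.H313.finiteDimensional_baseField_of_adjoin E x
  -- `m` is invertible in `R`
  obtain ⟨mi, hmi⟩ : ∃ mi : R, (m : R) * mi = 1 := by
    have hu : IsUnit (m : R) := by
      by_contra hnu
      have hmem : (m : R) ∈ IsLocalRing.maximalIdeal R := (IsLocalRing.mem_maximalIdeal _).2 hnu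
      have hcop : Nat.Coprime q m := (Nat.Prime.coprime_iff_not_dvd hq).2 hqm
      have h1 : ((Nat.gcd q m : ℕ) : R) ∈ IsLocalRing.maximalIdeal R := by
        have hb : ((Nat.gcd q m : ℕ) : ℤ) = q * Nat.gcdA q m + m * Nat.gcdB q m :=
          Nat.gcd_eq_gcd_ab q m
        have hc : ((Nat.gcd q m : ℕ) : R) = (q : R) * ((Nat.gcdA q m : ℤ) : R) +
            (m : R) * ((Nat.gcdB q m : ℤ) : R) := by
          have := congrArg (fun z : ℤ => (z : R)) hb
          simpa using this
        rw [hc]
        exact Ideal.add_mem _ (Ideal.mul_mem_right _ _ hqR) (Ideal.mul_mem_right _ _ hmem)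
      rw [hcop, Nat.cast_one] at h1
      exact (IsLocalRing.mem_maximalIdeal _).1 h1 isUnit_one
    obtain ⟨v, hv⟩ := hu
    exact ⟨(v⁻¹ : Rˣ), by rw [← hv, Units.mul_inv]⟩
  refine exists_pow_eq_of_base_set E w hw hxR hm hmi hζ hf0
    {V | V = V₁ ∨ V = V₂ ∨ V = V₃} hsheets ?_ V₁ hRV₁ hwV₁ h₁ ?_ hdisc κ hpure_fin hpure_inf
  · rintro V (rfl | rfl | rfl)
    · exact h₁
    · exact h₂
    · exact h₃
  · intro a ha
    refine ⟨a * (algebraMap R F w)⁻¹, hunif a ha, ?_⟩
    rw [mul_comm a, ← mul_assoc, mul_inv_cancel₀ hwF0, one_mul]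

end Flex

end Fermat.Agent.S36.H193
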