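import Fermat.Agent.S18.H138.Connected

/-!
# S36 engine, leaf CLOPEN (helper193), part 1: gluing a generic idempotent, radical version

Setting of `S18.H138.connected_special_fibre`: `R` a noetherian domain with `R[X]` integrally
closed (a DVR), `w ∈ R` prime, `F` a field of characteristic `0`, `x ∈ F` transcendental, `F`
finite over `baseField R x`, `R` integrally closed in `F`.  The charts are the integral closures
of `R[x]`, `R[x⁻¹]`, `R[x, x⁻¹]` in `F`.

`𝒲` is a finite set of valuation subrings of `F` (the *sheets*: the components of the special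
fibre), each containing the charts and having `w` as a non-unit.  No discreteness, no
uniformiser and **no reducedness of the special fibre** is assumed: the only link between the
charts and the sheets is the *radical* `q`-expansion principle

  `QepRad 𝒲 w C` : an element of the chart `C` lying in the maximal ideal of every sheet is
                   nilpotent modulo `w C`

(the sheets are all the components of the special fibre of `C`).  For a reduced special fibre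
this is `A2.H12.RedConclusion`; at level `q²` (`q B = p_FF ∩ p_mid^(q-1) ∩ p_VV`) only the
radical form holds.

**Theorem** (`clopen_idem`).  Let `e₀ ∈ F` be `≡ 0` or `≡ 1` on every sheet.  If at every closed
point `𝔫 ∋ w` of the two charts `chart {x}`, `chart {x⁻¹}` all sheets through `𝔫` are of the same
kind, then `e₀ ≡ 0` on all sheets or `e₀ ≡ 1` on all sheets.

This is the purely topological step "a locally constant function on a connected special fibre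
is constant"; it needs no purity datum and works for any number of branches through a point.
-/

set_option autoImplicit false
set_option linter.style.haveILetI false

namespace Fermat.Agent.S36.H193

open Fermat.Agent.S18.H138

variable {R : Type*} [CommRing R] {F : Type*} [Field F] [Algebra R F]

section Nonunits

variable (W : ValuationSubring F)

theorem nu_mem {a : F} (ha : a ∈ W.nonunits) : a ∈ W := W.nonunits_subset ha

theorem nu_zero : (0 : F) ∈ W.nonunits := by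
  rw [ValuationSubring.mem_nonunits_iff, map_zero]
  exact zero_lt_one

theorem nu_add {a b : F} (ha : a ∈ W.nonunits) (hb : b ∈ W.nonunits) :
    a + b ∈ W.nonunits := by
  rw [ValuationSubring.mem_nonunits_iff] at *
  exact Valuation.map_add_lt _ ha hb

theorem nu_neg {a : F} (ha : a ∈ W.nonunits) : -a ∈ W.nonunits := by
  rw [ValuationSubring.mem_nonunits_iff] at *
  rwa [Valuation.map_neg]

theorem nu_sub {a b : F} (ha : a ∈ W.nonunits) (hb : b ∈ W.nonunits) :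
    a - b ∈ W.nonunits := by
  rw [ValuationSubring.mem_nonunits_iff] at *
  exact Valuation.map_sub_lt _ ha hb

theorem nu_mul_left {a c : F} (ha : a ∈ W.nonunits) (hc : c ∈ W) : c * a ∈ W.nonunits := by
  rw [ValuationSubring.mem_nonunits_iff] at ha ⊢
  rw [map_mul]
  have h1 : W.valuation c ≤ 1 := (W.valuation_le_one_iff c).2 hc
  calc W.valuation c * W.valuation a ≤ 1 * W.valuation a := by gcongr
    _ = W.valuation a := one_mul _
    _ < 1 := ha

theorem nu_mul_right {a c : F} (ha : a ∈ W.nonunits) (hc : c ∈ W) : a * c ∈ W.nonunits := by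
  rw [mul_comm]
  exact nu_mul_left W ha hc

theorem nu_one_not : (1 : F) ∉ W.nonunits := by
  rw [ValuationSubring.mem_nonunits_iff, map_one]
  exact lt_irrefl _

theorem nu_pow {a : F} (ha : a ∈ W.nonunits) {n : ℕ} (hn : n ≠ 0) : a ^ n ∈ W.nonunits := by
  obtain ⟨k, rfl⟩ := Nat.exists_eq_succ_of_ne_zero hn
  rw [pow_succ]
  exact nu_mul_left W ha (W.pow_mem (nu_mem W ha) k)

/-- not both kinds at once -/
theorem nu_not_both {e : F} (h0 : e ∈ W.nonunits) (h1 : 1 - e ∈ W.nonunits) : False := by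
  have := nu_add W h0 h1
  rw [add_sub_cancel] at this
  exact nu_one_not W this

/-- The lifted idempotent `1 - (1 - e ^ n) ^ n` is of the same kind as `e`. -/
theorem nu_lift_zero {e : F} (he : e ∈ W.nonunits) {n : ℕ} (hn : n ≠ 0) :
    1 - (1 - e ^ n) ^ n ∈ W.nonunits := by
  have h1 : 1 - (1 - e ^ n) ^ n = (∑ i ∈ Finset.range n, (1 - e ^ n) ^ i) * e ^ n := by
    have := geom_sum_mul_neg (1 - e ^ n) n
    rw [← this]
    ring
  rw [h1]
  refine nu_mul_left W (nu_pow W he hn) ?_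
  exact W.sum_mem fun i _ => W.pow_mem (W.sub_mem W.one_mem (W.pow_mem (nu_mem W he) n)) i

theorem nu_lift_one {e : F} (he : 1 - e ∈ W.nonunits) {n : ℕ} (hn : n ≠ 0) :
    1 - (1 - (1 - e ^ n) ^ n) ∈ W.nonunits := by
  have heW : e ∈ W := by
    have : e = 1 - (1 - e) := by ring
    rw [this]
    exact W.sub_mem W.one_mem (nu_mem W he)
  have h1 : 1 - e ^ n = (∑ i ∈ Finset.range n, e ^ i) * (1 - e) := geom_sum_mul_neg e n |>.symm
  have h2 : 1 - e ^ n ∈ W.nonunits := by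
    rw [h1]
    exact nu_mul_left W he (W.sum_mem fun i _ => W.pow_mem heW i)
  have h3 : 1 - (1 - (1 - e ^ n) ^ n) = (1 - e ^ n) ^ n := by ring
  rw [h3]
  exact nu_pow W h2 hn

end Nonunits

/-- `b` lies in the maximal ideal of every sheet. -/
def InJ (𝒲 : Set (ValuationSubring F)) (b : F) : Prop :=
  ∀ W ∈ 𝒲, b ∈ W.nonunits

/-- The sheet `W` passes through the closed point `𝔫` of the chart `C`. -/
def Through (C : Subalgebra R F) (𝔫 : Ideal C) (W : ValuationSubring F) : Prop :=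
  ∀ c : C, (c : F) ∈ W.nonunits → c ∈ 𝔫

/-- The **radical `q`-expansion principle** for the chart `C`: an element of `C` vanishing on
every sheet is nilpotent modulo `w C`. -/
def QepRad (𝒲 : Set (ValuationSubring F)) (w : R) (C : Subalgebra R F) : Prop :=
  ∀ b ∈ C, InJ 𝒲 b → ∃ N : ℕ, ∃ t ∈ C, b ^ N = algebraMap R F w * t

theorem InJ.add {𝒲 : Set (ValuationSubring F)} {a b : F} (ha : InJ 𝒲 a) (hb : InJ 𝒲 b) :
    InJ 𝒲 (a + b) := fun W hW => nu_add W (ha W hW) (hb W hW)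

theorem InJ.sub {𝒲 : Set (ValuationSubring F)} {a b : F} (ha : InJ 𝒲 a) (hb : InJ 𝒲 b) :
    InJ 𝒲 (a - b) := fun W hW => nu_sub W (ha W hW) (hb W hW)

theorem InJ.neg {𝒲 : Set (ValuationSubring F)} {a : F} (ha : InJ 𝒲 a) :
    InJ 𝒲 (-a) := fun W hW => nu_neg W (ha W hW)

theorem InJ.zero (𝒲 : Set (ValuationSubring F)) : InJ 𝒲 (0 : F) := fun W _ => nu_zero W

theorem InJ.mul_left {𝒲 : Set (ValuationSubring F)} {a c : F} (ha : InJ 𝒲 a)
    (hc : ∀ W ∈ 𝒲, c ∈ W) : InJ 𝒲 (c * a) := fun W hW => nu_mul_left W (ha W hW) (hc W hW)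

/-- A reduced `q`-expansion principle is in particular a radical one. -/
theorem QepRad.of_red {𝒲 : Set (ValuationSubring F)} {w : R} {C : Subalgebra R F}
    (h : ∀ b ∈ C, InJ 𝒲 b → ∃ t ∈ C, b = algebraMap R F w * t) : QepRad 𝒲 w C := by
  intro b hb hJ
  obtain ⟨t, ht, h1⟩ := h b hb hJ
  exact ⟨1, t, ht, by rw [pow_one, h1]⟩

section RegIdeal

/-- The *regularity ideal* of `e₀` on the chart `C`, modulo the radical: the denominators
`s ∈ C` such that `s e₀` is congruent on every sheet to an element of `C`. -/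
def regIdealJ (𝒲 : Set (ValuationSubring F)) (C : Subalgebra R F)
    (hC : ∀ W ∈ 𝒲, ∀ c ∈ C, c ∈ W) (e₀ : F) : Ideal C where
  carrier := {s | ∃ e ∈ C, InJ 𝒲 ((s : F) * e₀ - e)}
  add_mem' := by
    rintro a b ⟨e, he, h⟩ ⟨e', he', h'⟩
    refine ⟨e + e', C.add_mem he he', ?_⟩
    have : ((a + b : C) : F) * e₀ - (e + e') = ((a : F) * e₀ - e) + ((b : F) * e₀ - e') := by
      push_cast; ring
    rw [this]
    exact h.add h'
  zero_mem' := ⟨0, C.zero_mem, by simpa using InJ.zero 𝒲⟩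
  smul_mem' := by
    rintro c a ⟨e, he, h⟩
    refine ⟨c * e, C.mul_mem c.2 he, ?_⟩
    have : ((c • a : C) : F) * e₀ - c * e = (c : F) * ((a : F) * e₀ - e) := by
      rw [smul_eq_mul]; push_cast; ring
    rw [this]
    exact h.mul_left fun W hW => hC W hW c c.2

/-- A denominator outside `𝔫` vanishing on finitely many sheets that do not pass through `𝔫`. -/
theorem exists_prod_avoid {C : Subalgebra R F} (𝔫 : Ideal C) [h𝔫 : 𝔫.IsPrime]
    (𝒮 : Finset (ValuationSubring F)) (hC : ∀ W ∈ 𝒮, ∀ c ∈ C, c ∈ W)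
    (h : ∀ W ∈ 𝒮, ¬ Through C 𝔫 W) :
    ∃ s : C, s ∉ 𝔫 ∧ ∀ W ∈ 𝒮, (s : F) ∈ W.nonunits := by
  classical
  induction 𝒮 using Finset.induction_on with
  | empty =>
    refine ⟨1, ?_, by simp⟩
    intro h1
    exact h𝔫.ne_top ((Ideal.eq_top_iff_one _).2 h1)
  | insert V 𝒮 hV ih =>
    obtain ⟨s, hs, hsW⟩ := ih (fun W hW => hC W (Finset.mem_insert_of_mem hW))
      (fun W hW => h W (Finset.mem_insert_of_mem hW))
    have hVn := h V (Finset.mem_insert_self V 𝒮)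
    rw [Through] at hVn
    push Not at hVn
    obtain ⟨c, hcV, hcn⟩ := hVn
    refine ⟨c * s, ?_, ?_⟩
    · intro hmem
      rcases h𝔫.mem_or_mem hmem with h1 | h1
      · exact hcn h1
      · exact hs h1
    · intro W hW
      rw [Finset.mem_insert] at hW
      push_cast
      rcases hW with rfl | hW
      · exact nu_mul_right W hcV (hC W (Finset.mem_insert_self W 𝒮) s s.2)
      · exact nu_mul_left W (hsW W hW) (hC W (Finset.mem_insert_of_mem hW) c c.2)

/-- If `e₀` is `≡ 0` or `≡ 1` on every sheet and the sheets through any closed point `𝔫 ∋ w` of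
the chart `C` are of the same kind, then `e₀` is congruent on every sheet to an element of
`C`. -/
theorem exists_chart_rep_rad {𝒲 : Set (ValuationSubring F)} (h𝒲 : 𝒲.Finite)
    {C : Subalgebra R F} (hC : ∀ W ∈ 𝒲, ∀ c ∈ C, c ∈ W) (w : R)
    (hwW : ∀ W ∈ 𝒲, algebraMap R F w ∈ W.nonunits) {e₀ : F}
    (he₀ : ∀ W ∈ 𝒲, e₀ ∈ W.nonunits ∨ 1 - e₀ ∈ W.nonunits)
    (hloc : ∀ 𝔫 : Ideal C, 𝔫.IsMaximal → algebraMap R C w ∈ 𝔫 →
      ∀ W ∈ 𝒲, ∀ W' ∈ 𝒲, Through C 𝔫 W → Through C 𝔫 W' →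
        (e₀ ∈ W.nonunits → e₀ ∈ W'.nonunits)) :
    ∃ e ∈ C, InJ 𝒲 (e₀ - e) := by
  classical
  have he₀W : ∀ W ∈ 𝒲, e₀ ∈ W := by
    intro W hW
    rcases he₀ W hW with h | h
    · exact nu_mem W h
    · have : e₀ = 1 - (1 - e₀) := by ring
      rw [this]
      exact W.sub_mem W.one_mem (nu_mem W h)
  have hw : algebraMap R C w ∈ regIdealJ 𝒲 C hC e₀ := by
    refine ⟨0, C.zero_mem, ?_⟩
    rw [sub_zero]
    intro W hW
    exact nu_mul_right W (hwW W hW) (he₀W W hW)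
  have htop : regIdealJ 𝒲 C hC e₀ = ⊤ := by
    by_contra hne
    obtain ⟨𝔫, h𝔫, hle⟩ := Ideal.exists_le_maximal _ hne
    haveI := h𝔫.isPrime
    have hw𝔫 := hle hw
    by_cases hex : ∃ W ∈ 𝒲, Through C 𝔫 W ∧ e₀ ∈ W.nonunits
    · -- all sheets through `𝔫` are of kind `0`
      obtain ⟨W₀, hW₀, hth₀, hk₀⟩ := hex
      set 𝒮 : Finset (ValuationSubring F) :=
        h𝒲.toFinset.filter fun W => e₀ ∉ W.nonunits with h𝒮
      have h𝒮mem : ∀ W, W ∈ 𝒮 ↔ W ∈ 𝒲 ∧ e₀ ∉ W.nonunits := by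
        intro W
        rw [h𝒮, Finset.mem_filter, Set.Finite.mem_toFinset]
      obtain ⟨s, hs, hsW⟩ := exists_prod_avoid 𝔫 𝒮
        (fun W hW => hC W ((h𝒮mem W).1 hW).1)
        (fun W hW hth => ((h𝒮mem W).1 hW).2
          (hloc 𝔫 h𝔫 hw𝔫 W₀ hW₀ W ((h𝒮mem W).1 hW).1 hth₀ hth hk₀))
      refine hs (hle ⟨0, C.zero_mem, ?_⟩)
      rw [sub_zero]
      intro W hW
      by_cases hk : e₀ ∈ W.nonunits
      · exact nu_mul_left W hk (hC W hW s s.2)
      · exact nu_mul_right W (hsW W ((h𝒮mem W).2 ⟨hW, hk⟩)) (he₀W W hW)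
    · -- all sheets through `𝔫` are of kind `1`
      push Not at hex
      set 𝒮 : Finset (ValuationSubring F) :=
        h𝒲.toFinset.filter fun W => e₀ ∈ W.nonunits with h𝒮
      have h𝒮mem : ∀ W, W ∈ 𝒮 ↔ W ∈ 𝒲 ∧ e₀ ∈ W.nonunits := by
        intro W
        rw [h𝒮, Finset.mem_filter, Set.Finite.mem_toFinset]
      obtain ⟨s, hs, hsW⟩ := exists_prod_avoid 𝔫 𝒮
        (fun W hW => hC W ((h𝒮mem W).1 hW).1)
        (fun W hW hth => hex W ((h𝒮mem W).1 hW).1 hth ((h𝒮mem W).1 hW).2)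
      refine hs (hle ⟨s, s.2, ?_⟩)
      intro W hW
      have hsW' : (s : F) ∈ W := hC W hW s s.2
      by_cases hk : e₀ ∈ W.nonunits
      · have h1 := hsW W ((h𝒮mem W).2 ⟨hW, hk⟩)
        exact nu_sub W (nu_mul_right W h1 (he₀W W hW)) h1
      · have h1 : 1 - e₀ ∈ W.nonunits := (he₀ W hW).resolve_left hk
        have : (s : F) * e₀ - s = -((s : F) * (1 - e₀)) := by ring
        rw [this]
        exact nu_neg W (nu_mul_left W h1 hsW')
  have h1 : (1 : C) ∈ regIdealJ 𝒲 C hC e₀ := by rw [htop]; trivial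
  obtain ⟨e, he, h⟩ := h1
  refine ⟨e, he, ?_⟩
  simpa using h

end RegIdeal

section Lift

variable {A : Type*} [CommRing A]

/-- Lifting idempotents modulo a nilpotent: if `(e² - e) ^ n ∈ w A` then
`E = 1 - (1 - e ^ n) ^ n` is idempotent modulo `w A`. -/
theorem exists_idem_lift (w e : A) (n : ℕ) (h : ∃ t, (e ^ 2 - e) ^ n = w * t) :
    ∃ t, (1 - (1 - e ^ n) ^ n) ^ 2 - (1 - (1 - e ^ n) ^ n) = w * t := by
  set I : Ideal A := Ideal.span {w} with hI
  have h0 : (Ideal.Quotient.mk I e - Ideal.Quotient.mk I e ^ 2) ^ n = 0 := by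
    rw [← map_pow, ← map_sub, ← map_pow, Ideal.Quotient.eq_zero_iff_mem]
    obtain ⟨t, ht⟩ := h
    have : (e - e ^ 2) ^ n = (-1) ^ n * (e ^ 2 - e) ^ n := by
      rw [← mul_pow]; congr 1; ring
    rw [this, ht, hI]
    refine Ideal.mem_span_singleton'.2 ⟨(-1) ^ n * t, by ring⟩
  have h1 := isIdempotentElem_one_sub_one_sub_pow_pow (Ideal.Quotient.mk I e) n h0
  have h2 : Ideal.Quotient.mk I ((1 - (1 - e ^ n) ^ n) ^ 2 - (1 - (1 - e ^ n) ^ n)) = 0 := by
    have h3 : Ideal.Quotient.mk I (1 - (1 - e ^ n) ^ n) =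
        1 - (1 - Ideal.Quotient.mk I e ^ n) ^ n := by
      simp only [map_sub, map_one, map_pow]
    rw [map_sub, map_pow, h3, sub_eq_zero, pow_two]
    exact h1
  rw [Ideal.Quotient.eq_zero_iff_mem, hI] at h2
  obtain ⟨t, ht⟩ := Ideal.mem_span_singleton'.1 h2
  exact ⟨t, by rw [← ht, mul_comm]⟩

/-- Two idempotents modulo `w A` whose difference is nilpotent modulo `w A` are congruent. -/
theorem idem_congr_of_nilpotent (w a b : A) (ha : ∃ t, a ^ 2 - a = w * t)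
    (hb : ∃ t, b ^ 2 - b = w * t) (n : ℕ) (h : ∃ t, (a - b) ^ n = w * t) :
    ∃ t, a - b = w * t := by
  set I : Ideal A := Ideal.span {w} with hI
  have hmem : ∀ c : A, (∃ t, c = w * t) → Ideal.Quotient.mk I c = 0 := by
    rintro c ⟨t, rfl⟩
    rw [Ideal.Quotient.eq_zero_iff_mem, hI]
    exact Ideal.mem_span_singleton'.2 ⟨t, by ring⟩
  have ha' : IsIdempotentElem (Ideal.Quotient.mk I a) := by
    have := hmem _ ha
    rw [map_sub, map_pow, sub_eq_zero, pow_two] at this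
    exact this
  have hb' : IsIdempotentElem (Ideal.Quotient.mk I b) := by
    have := hmem _ hb
    rw [map_sub, map_pow, sub_eq_zero, pow_two] at this
    exact this
  have hn : IsNilpotent (Ideal.Quotient.mk I a - Ideal.Quotient.mk I b) := by
    refine ⟨n, ?_⟩
    rw [← map_sub, ← map_pow]
    exact hmem _ h
  have heq := eq_of_isNilpotent_sub_of_isIdempotentElem ha' hb' hn
  have h2 : Ideal.Quotient.mk I (a - b) = 0 := by
    rw [map_sub, heq, sub_self]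
  rw [Ideal.Quotient.eq_zero_iff_mem, hI] at h2
  obtain ⟨t, ht⟩ := Ideal.mem_span_singleton'.1 h2
  exact ⟨t, by rw [← ht, mul_comm]⟩

end Lift

section Sub

/-- `exists_idem_lift` inside a subalgebra of `F`. -/
theorem exists_idem_lift_sub (C : Subalgebra R F) (w : R) {e : F} (he : e ∈ C) (n : ℕ)
    (h : ∃ t ∈ C, (e ^ 2 - e) ^ n = algebraMap R F w * t) :
    ∃ t ∈ C, (1 - (1 - e ^ n) ^ n) ^ 2 - (1 - (1 - e ^ n) ^ n) = algebraMap R F w * t := by
  obtain ⟨t, ht, h1⟩ := h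
  obtain ⟨t', ht'⟩ := exists_idem_lift (algebraMap R C w) (⟨e, he⟩ : C) n
    ⟨⟨t, ht⟩, Subtype.ext (by push_cast; exact h1)⟩
  refine ⟨t', t'.2, ?_⟩
  have := congrArg (fun c : C => (c : F)) ht'
  simpa using this

/-- `idem_congr_of_nilpotent` inside a subalgebra of `F`. -/
theorem idem_congr_of_nilpotent_sub (C : Subalgebra R F) (w : R) {a b : F} (ha : a ∈ C)
    (hb : b ∈ C) (hia : ∃ t ∈ C, a ^ 2 - a = algebraMap R F w * t)
    (hib : ∃ t ∈ C, b ^ 2 - b = algebraMap R F w * t) (n : ℕ)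
    (h : ∃ t ∈ C, (a - b) ^ n = algebraMap R F w * t) :
    ∃ t ∈ C, a - b = algebraMap R F w * t := by
  obtain ⟨t₁, ht₁, h1⟩ := hia
  obtain ⟨t₂, ht₂, h2⟩ := hib
  obtain ⟨t₃, ht₃, h3⟩ := h
  obtain ⟨t', ht'⟩ := idem_congr_of_nilpotent (algebraMap R C w) (⟨a, ha⟩ : C) (⟨b, hb⟩ : C)
    ⟨⟨t₁, ht₁⟩, Subtype.ext (by push_cast; exact h1)⟩
    ⟨⟨t₂, ht₂⟩, Subtype.ext (by push_cast; exact h2)⟩ n
    ⟨⟨t₃, ht₃⟩, Subtype.ext (by push_cast; exact h3)⟩
  refine ⟨t', t'.2, ?_⟩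
  have := congrArg (fun c : C => (c : F)) ht'
  simpa using this

end Sub

section Main

variable [IsNoetherianRing R] [IsIntegrallyClosed (Polynomial R)] [CharZero F]

/-- **CLOPEN, idempotent form.**  A function on the sheets of the special fibre with values in
`{0, 1}`, induced by an element `e₀` of `F`, which is constant on the sheets through every closed
point of the two charts, is constant.  The special fibre may be non-reduced (`QepRad`). -/
theorem clopen_idem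
    (hinjR : Function.Injective (algebraMap R F))
    (hRF : ∀ y : F, IsIntegral R y → y ∈ Set.range (algebraMap R F))
    {x : F} (hx : Transcendental R x) [FiniteDimensional (baseField R x) F]
    (w : R) (hw : Prime w)
    {𝒲 : Set (ValuationSubring F)} (h𝒲 : 𝒲.Finite)
    (hmid : ∀ W ∈ 𝒲, ∀ c ∈ chart R ({x, x⁻¹} : Set F), c ∈ W)
    (hwW : ∀ W ∈ 𝒲, algebraMap R F w ∈ W.nonunits)
    (qep_fin : QepRad 𝒲 w (chart R ({x} : Set F)))
    (qep_inf : QepRad 𝒲 w (chart R ({x⁻¹} : Set F)))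
    (qep_mid : QepRad 𝒲 w (chart R ({x, x⁻¹} : Set F)))
    {e₀ : F} (he₀ : ∀ W ∈ 𝒲, e₀ ∈ W.nonunits ∨ 1 - e₀ ∈ W.nonunits)
    (hloc_fin : ∀ 𝔫 : Ideal (chart R ({x} : Set F)), 𝔫.IsMaximal →
      algebraMap R (chart R ({x} : Set F)) w ∈ 𝔫 →
      ∀ W ∈ 𝒲, ∀ W' ∈ 𝒲, Through _ 𝔫 W → Through _ 𝔫 W' →
        (e₀ ∈ W.nonunits → e₀ ∈ W'.nonunits))
    (hloc_inf : ∀ 𝔫 : Ideal (chart R ({x⁻¹} : Set F)), 𝔫.IsMaximal →
      algebraMap R (chart R ({x⁻¹} : Set F)) w ∈ 𝔫 →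
      ∀ W ∈ 𝒲, ∀ W' ∈ 𝒲, Through _ 𝔫 W → Through _ 𝔫 W' →
        (e₀ ∈ W.nonunits → e₀ ∈ W'.nonunits)) :
    InJ 𝒲 e₀ ∨ InJ 𝒲 (1 - e₀) := by
  have hfm : chart R ({x} : Set F) ≤ chart R ({x, x⁻¹} : Set F) := chart_mono (by simp)
  have him : chart R ({x⁻¹} : Set F) ≤ chart R ({x, x⁻¹} : Set F) := chart_mono (by simp)
  have hfin : ∀ W ∈ 𝒲, ∀ c ∈ chart R ({x} : Set F), c ∈ W :=
    fun W hW c hc => hmid W hW c (hfm hc)
  have hinf : ∀ W ∈ 𝒲, ∀ c ∈ chart R ({x⁻¹} : Set F), c ∈ W :=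
    fun W hW c hc => hmid W hW c (him hc)
  obtain ⟨e₁, he₁, h₁⟩ := exists_chart_rep_rad h𝒲 hfin w hwW he₀ hloc_fin
  obtain ⟨e₂, he₂, h₂⟩ := exists_chart_rep_rad h𝒲 hinf w hwW he₀ hloc_inf
  -- kinds of `e₁`, `e₂`
  have hk0 : ∀ {e : F}, InJ 𝒲 (e₀ - e) → ∀ W ∈ 𝒲, e₀ ∈ W.nonunits → e ∈ W.nonunits := by
    intro e he W hW h0
    have : e = e₀ - (e₀ - e) := by ring
    rw [this]
    exact nu_sub W h0 (he W hW)
  have hk1 : ∀ {e : F}, InJ 𝒲 (e₀ - e) → ∀ W ∈ 𝒲, 1 - e₀ ∈ W.nonunits →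
      1 - e ∈ W.nonunits := by
    intro e he W hW h0
    have : 1 - e = (1 - e₀) + (e₀ - e) := by ring
    rw [this]
    exact nu_add W h0 (he W hW)
  have hsq : ∀ {C : Subalgebra R F}, (∀ W ∈ 𝒲, ∀ c ∈ C, c ∈ W) → ∀ {e : F}, e ∈ C →
      InJ 𝒲 (e₀ - e) → InJ 𝒲 (e ^ 2 - e) := by
    intro C hC e heC he W hW
    have heW : e ∈ W := hC W hW e heC
    rcases he₀ W hW with h | h
    · have : e ^ 2 - e = (e - 1) * e := by ring
      rw [this]
      exact nu_mul_left W (hk0 he W hW h) (W.sub_mem heW W.one_mem)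
    · have : e ^ 2 - e = -(e * (1 - e)) := by ring
      rw [this]
      exact nu_neg W (nu_mul_left W (hk1 he W hW h) heW)
  -- nilpotency exponents
  obtain ⟨N₁, t₁, ht₁, hN₁⟩ := qep_fin _ (Subalgebra.sub_mem _ (Subalgebra.pow_mem _ he₁ 2) he₁)
    (hsq hfin he₁ h₁)
  obtain ⟨N₂, t₂, ht₂, hN₂⟩ := qep_inf _ (Subalgebra.sub_mem _ (Subalgebra.pow_mem _ he₂ 2) he₂)
    (hsq hinf he₂ h₂)
  set n₁ := N₁ + 1 with hn₁
  set n₂ := N₂ + 1 with hn₂
  set E₁ : F := 1 - (1 - e₁ ^ n₁) ^ n₁ with hE₁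
  set E₂ : F := 1 - (1 - e₂ ^ n₂) ^ n₂ with hE₂
  have hE₁C : E₁ ∈ chart R ({x} : Set F) :=
    Subalgebra.sub_mem _ (Subalgebra.one_mem _) (Subalgebra.pow_mem _
      (Subalgebra.sub_mem _ (Subalgebra.one_mem _) (Subalgebra.pow_mem _ he₁ _)) _)
  have hE₂C : E₂ ∈ chart R ({x⁻¹} : Set F) :=
    Subalgebra.sub_mem _ (Subalgebra.one_mem _) (Subalgebra.pow_mem _
      (Subalgebra.sub_mem _ (Subalgebra.one_mem _) (Subalgebra.pow_mem _ he₂ _)) _)
  have hi₁ : ∃ t ∈ chart R ({x} : Set F), E₁ ^ 2 - E₁ = algebraMap R F w * t := by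
    refine exists_idem_lift_sub _ w he₁ n₁ ⟨t₁ * (e₁ ^ 2 - e₁), ?_, ?_⟩
    · exact Subalgebra.mul_mem _ ht₁
        (Subalgebra.sub_mem _ (Subalgebra.pow_mem _ he₁ 2) he₁)
    · rw [hn₁, pow_succ, hN₁]; ring
  have hi₂ : ∃ t ∈ chart R ({x⁻¹} : Set F), E₂ ^ 2 - E₂ = algebraMap R F w * t := by
    refine exists_idem_lift_sub _ w he₂ n₂ ⟨t₂ * (e₂ ^ 2 - e₂), ?_, ?_⟩
    · exact Subalgebra.mul_mem _ ht₂
        (Subalgebra.sub_mem _ (Subalgebra.pow_mem _ he₂ 2) he₂)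
    · rw [hn₂, pow_succ, hN₂]; ring
  -- kinds of `E₁`, `E₂`
  have hE₁0 : ∀ W ∈ 𝒲, e₀ ∈ W.nonunits → E₁ ∈ W.nonunits := fun W hW h =>
    nu_lift_zero W (hk0 h₁ W hW h) (Nat.succ_ne_zero _)
  have hE₁1 : ∀ W ∈ 𝒲, 1 - e₀ ∈ W.nonunits → 1 - E₁ ∈ W.nonunits := fun W hW h =>
    nu_lift_one W (hk1 h₁ W hW h) (Nat.succ_ne_zero _)
  have hE₂0 : ∀ W ∈ 𝒲, e₀ ∈ W.nonunits → E₂ ∈ W.nonunits := fun W hW h =>
    nu_lift_zero W (hk0 h₂ W hW h) (Nat.succ_ne_zero _)
  have hE₂1 : ∀ W ∈ 𝒲, 1 - e₀ ∈ W.nonunits → 1 - E₂ ∈ W.nonunits := fun W hW h =>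
    nu_lift_one W (hk1 h₂ W hW h) (Nat.succ_ne_zero _)
  have hdJ : InJ 𝒲 (E₁ - E₂) := by
    intro W hW
    rcases he₀ W hW with h | h
    · exact nu_sub W (hE₁0 W hW h) (hE₂0 W hW h)
    · have : E₁ - E₂ = (1 - E₂) - (1 - E₁) := by ring
      rw [this]
      exact nu_sub W (hE₂1 W hW h) (hE₁1 W hW h)
  obtain ⟨M, t₃, ht₃, hM⟩ := qep_mid _ (Subalgebra.sub_mem _ (hfm hE₁C) (him hE₂C)) hdJ
  have h₁₂ : ∃ t ∈ chart R ({x, x⁻¹} : Set F), E₁ - E₂ = algebraMap R F w * t := by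
    refine idem_congr_of_nilpotent_sub _ w (hfm hE₁C) (him hE₂C) ?_ ?_ M ⟨t₃, ht₃, hM⟩
    · obtain ⟨t, ht, h⟩ := hi₁
      exact ⟨t, hfm ht, h⟩
    · obtain ⟨t, ht, h⟩ := hi₂
      exact ⟨t, him ht, h⟩
  rcases connected_special_fibre hinjR hRF hx w hw E₁ E₂ hE₁C hE₂C hi₁ hi₂ h₁₂ with
    ⟨⟨t, ht, h⟩, _⟩ | ⟨⟨t, ht, h⟩, _⟩
  · left
    intro W hW
    have hE : E₁ ∈ W.nonunits := by
      rw [h]
      exact nu_mul_right W (hwW W hW) (hfin W hW t ht)
    rcases he₀ W hW with h0 | h1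
    · exact h0
    · exact (nu_not_both W hE (hE₁1 W hW h1)).elim
  · right
    intro W hW
    have hE : 1 - E₁ ∈ W.nonunits := by
      rw [h]
      exact nu_mul_right W (hwW W hW) (hfin W hW t ht)
    rcases he₀ W hW with h0 | h1
    · exact (nu_not_both W (hE₁0 W hW h0) hE).elim
    · exact h1

end Main

end Fermat.Agent.S36.H193
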