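import Fermat.Agent.S36.H193.LabelWall

/-!
# S36 engine, leaf CLOPEN (helper193), part 5: labels at a closed point from a purity datum

Setting of `LabelWall.lean`.  `C` is a chart of the cover field `Z`, `𝔫` a closed point of its
special fibre, `G ∈ Z` the Kummer generator.

* `isUnit_sub_of_pow_eq_one` : two distinct `m`-th roots of unity in a domain in which `m` is
  invertible differ by a unit.
* `label_ratio_at_point` : let `G = Y h` with `Y` regular at `𝔫` (`s' G = a' h`, `s' ∉ 𝔫`), and let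
  `W, W'` be sheets through `𝔫` on which `h` has the residues `t / s`, `t₁ / s₁` (regular at `𝔫`)
  and `G` the labels `ca`, `cb`.  Then `ca · s · t₁ ≡ cb · s₁ · t` modulo `𝔫`: *the ratio of the
  labels is the ratio of the values at `𝔫` of the residues of `h`*.
* `PureValuesAt` : a purity datum `h` at `𝔫` whose residue on every sheet `W` through `𝔫` has
  the value `ζ ^ κ W · v` at `𝔫` (the output of purity + norm compatibility of the label ratios).
* **`kummer_wall3_of_values`** : `PureValuesAt` at every closed point of the special fibre of the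
  two charts of `Z`, with `κ` depending only on the colour of the sheet, implies `G ∈ F`.
-/

set_option autoImplicit false
set_option linter.style.haveILetI false

namespace Fermat.Agent.S36.H193

open Polynomial Fermat.Agent.S18.H138

section Units

variable {A : Type*} [CommRing A] [IsDomain A]

/-- Distinct `m`-th roots of unity differ by a unit if `m` is invertible. -/
theorem isUnit_sub_of_pow_eq_one {m : ℕ} {mi : A} (hmi : (m : A) * mi = 1) {u v : A}
    (hu : u ^ m = 1) (hv : v ^ m = 1) (hne : u ≠ v) : IsUnit (u - v) := by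
  have hm0 : m ≠ 0 := by
    rintro rfl
    simp at hmi
  have hS : ∑ i ∈ Finset.range m, u ^ i * v ^ (m - 1 - i) = 0 := by
    have h := geom_sum₂_mul u v m
    rw [hu, hv, sub_self] at h
    rcases mul_eq_zero.1 h with h1 | h1
    · exact h1
    · exact absurd (sub_eq_zero.1 h1) hne
  have hdvd : u - v ∣ ∑ i ∈ Finset.range m, (u ^ i - v ^ i) * v ^ (m - 1 - i) :=
    Finset.dvd_sum fun i _ => Dvd.dvd.mul_right (sub_dvd_pow_sub_pow u v i) _
  have hsum : ∑ i ∈ Finset.range m, (u ^ i - v ^ i) * v ^ (m - 1 - i) =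
      -((m : A) * v ^ (m - 1)) := by
    have h1 : ∀ i ∈ Finset.range m, (u ^ i - v ^ i) * v ^ (m - 1 - i) =
        u ^ i * v ^ (m - 1 - i) - v ^ (m - 1) := by
      intro i hi
      have hi' : i + (m - 1 - i) = m - 1 := by
        have := Finset.mem_range.1 hi
        omega
      rw [sub_mul, ← pow_add, hi']
    rw [Finset.sum_congr rfl h1, Finset.sum_sub_distrib, hS, zero_sub]
    simp
  rw [hsum] at hdvd
  have hvu : IsUnit v := IsUnit.of_pow_eq_one hv hm0
  have hmu : IsUnit (m : A) := IsUnit.of_mul_eq_one _ hmi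
  exact isUnit_of_dvd_unit hdvd ((hmu.mul (hvu.pow _)).neg)

end Units

section Local

variable {R : Type*} [CommRing R] {Z : Type*} [Field Z] [Algebra R Z]

/-- **The ratio of the labels of two sheets through a closed point** is the ratio of the values
at that point of the residues of a purity datum. -/
theorem label_ratio_at_point (C : Subalgebra R Z) (𝔫 : Ideal C) [h𝔫 : 𝔫.IsPrime]
    {W W' : ValuationSubring Z} (hCW : ∀ c ∈ C, c ∈ W) (hCW' : ∀ c ∈ C, c ∈ W')
    (hth : Through C 𝔫 W) (hth' : Through C 𝔫 W')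
    {G h : Z} {a' s' : C} (hs' : s' ∉ 𝔫) (hY : (s' : Z) * G = a' * h)
    {s t s₁ t₁ : C} (hh : (s : Z) * h - t ∈ W.nonunits) (hh' : (s₁ : Z) * h - t₁ ∈ W'.nonunits)
    {ca cb : C} (hGa : G - ca ∈ W.nonunits) (hGb : G - cb ∈ W'.nonunits) :
    ca * s * t₁ - cb * s₁ * t ∈ 𝔫 := by
  -- on `W`: `s s' ca - a' t ∈ 𝔫`
  have key : ∀ {V : ValuationSubring Z}, (∀ c ∈ C, c ∈ V) → Through C 𝔫 V →
      ∀ {σ τ c : C}, (σ : Z) * h - τ ∈ V.nonunits → G - c ∈ V.nonunits →
        σ * s' * c - a' * τ ∈ 𝔫 := by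
    intro V hCV hV σ τ c h1 h2
    apply hV
    have : ((σ * s' * c - a' * τ : C) : Z) =
        (a' : Z) * ((σ : Z) * h - τ) - (σ : Z) * (s' : Z) * (G - c) := by
      push_cast
      have : (σ : Z) * (s' : Z) * G = (σ : Z) * ((a' : Z) * h) := by rw [← hY]; ring
      linear_combination this
    rw [this]
    exact nu_sub V (nu_mul_left V h1 (hCV _ a'.2))
      (nu_mul_left V h2 (V.mul_mem _ _ (hCV _ σ.2) (hCV _ s'.2)))
  have h1 := key hCW hth hh hGa
  have h2 := key hCW' hth' hh' hGb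
  have h3 : s' * (ca * s * t₁ - cb * s₁ * t) ∈ 𝔫 := by
    have : s' * (ca * s * t₁ - cb * s₁ * t) =
        t₁ * (s * s' * ca - a' * t) - t * (s₁ * s' * cb - a' * t₁) := by ring
    rw [this]
    exact 𝔫.sub_mem (𝔫.mul_mem_left _ h1) (𝔫.mul_mem_left _ h2)
  exact (h𝔫.mem_or_mem h3).resolve_left hs'

/-- A **purity datum with normalised values** at the closed point `𝔫` of the chart `C`:
`G = Y h` with `Y` regular at `𝔫`, and on every sheet `W` through `𝔫` the residue of `h` is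
regular at `𝔫` with value `ζ ^ κ W · v`. -/
def PureValuesAt (𝒲 : Set (ValuationSubring Z)) (C : Subalgebra R Z) (𝔫 : Ideal C) (G : Z)
    (ζ : R) (κ : ValuationSubring Z → ℕ) : Prop :=
  ∃ (h : Z) (a' s' v : C), s' ∉ 𝔫 ∧ v ∉ 𝔫 ∧ (s' : Z) * G = a' * h ∧
    ∀ W ∈ 𝒲, Through C 𝔫 W → ∃ s t : C, s ∉ 𝔫 ∧ (s : Z) * h - t ∈ W.nonunits ∧
      t - algebraMap R C (ζ ^ κ W) * v * s ∈ 𝔫

/-- The local hypothesis of `kummer_wall3` from a purity datum with normalised values. -/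
theorem label_eq_of_pureValuesAt [IsDomain R] {𝒲 : Set (ValuationSubring Z)}
    (C : Subalgebra R Z) (𝔫 : Ideal C) [h𝔫 : 𝔫.IsPrime]
    (hC : ∀ W ∈ 𝒲, ∀ c ∈ C, c ∈ W)
    {m : ℕ} {mi : R} (hmi : (m : R) * mi = 1) {ζ : R} (hζ : ζ ^ m = 1)
    {G : Z} {κ : ValuationSubring Z → ℕ} (hpv : PureValuesAt 𝒲 C 𝔫 G ζ κ)
    {W W' : ValuationSubring Z} (hW : W ∈ 𝒲) (hW' : W' ∈ 𝒲)
    (hth : Through C 𝔫 W) (hth' : Through C 𝔫 W') {a b : ℕ}
    (ha : G - algebraMap R Z (ζ ^ a) ∈ W.nonunits)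
    (hb : G - algebraMap R Z (ζ ^ b) ∈ W'.nonunits) :
    ζ ^ (a + κ W') = ζ ^ (b + κ W) := by
  obtain ⟨h, a', s', v, hs', hv, hY, hval⟩ := hpv
  obtain ⟨s, t, hs, hh, ht⟩ := hval W hW hth
  obtain ⟨s₁, t₁, hs₁, hh', ht₁⟩ := hval W' hW' hth'
  have hA := label_ratio_at_point C 𝔫 (hC W hW) (hC W' hW') hth hth' hs' hY hh hh'
    (ca := algebraMap R C (ζ ^ a)) (cb := algebraMap R C (ζ ^ b)) ha hb
  -- substitute the values
  have hB : algebraMap R C (ζ ^ (a + κ W') - ζ ^ (b + κ W)) * (v * s * s₁) ∈ 𝔫 := by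
    have : algebraMap R C (ζ ^ (a + κ W') - ζ ^ (b + κ W)) * (v * s * s₁) =
        (algebraMap R C (ζ ^ a) * s * t₁ - algebraMap R C (ζ ^ b) * s₁ * t)
          - algebraMap R C (ζ ^ a) * s * (t₁ - algebraMap R C (ζ ^ κ W') * v * s₁)
          + algebraMap R C (ζ ^ b) * s₁ * (t - algebraMap R C (ζ ^ κ W) * v * s) := by
      simp only [map_sub, map_pow, map_mul, pow_add]
      ring
    rw [this]
    exact 𝔫.add_mem (𝔫.sub_mem hA (𝔫.mul_mem_left _ ht₁)) (𝔫.mul_mem_left _ ht)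
  have hprod : v * s * s₁ ∉ 𝔫 := by
    intro hmem
    rcases h𝔫.mem_or_mem hmem with h1 | h1
    · rcases h𝔫.mem_or_mem h1 with h2 | h2
      · exact hv h2
      · exact hs h2
    · exact hs₁ h1
  have hC0 : algebraMap R C (ζ ^ (a + κ W') - ζ ^ (b + κ W)) ∈ 𝔫 :=
    (h𝔫.mem_or_mem hB).resolve_right hprod
  by_contra hne
  have hu : IsUnit (ζ ^ (a + κ W') - ζ ^ (b + κ W)) :=
    isUnit_sub_of_pow_eq_one hmi (by rw [← pow_mul, mul_comm, pow_mul, hζ, one_pow])
      (by rw [← pow_mul, mul_comm, pow_mul, hζ, one_pow]) hne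
  exact h𝔫.ne_top (𝔫.eq_top_of_isUnit_mem hC0 (hu.map (algebraMap R C)))

end Local

section Wall

variable {R : Type*} [CommRing R] {Z : Type*} [Field Z] [Algebra R Z]
variable [IsNoetherianRing R] [IsIntegrallyClosed (Polynomial R)] [CharZero Z]

/-- **The label wall, purity form.**  If at every closed point of the special fibre of the two
charts of the cover there is a purity datum with normalised values (normalisation depending only
on the colour of the sheet), then the split Kummer generator `G` lies in the base field. -/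
theorem kummer_wall3_of_values [IsDomain R]
    (hinjR : Function.Injective (algebraMap R Z))
    (hRF : ∀ y : Z, IsIntegral R y → y ∈ Set.range (algebraMap R Z))
    {x : Z} (hx : Transcendental R x) [FiniteDimensional (baseField R x) Z]
    (w : R) (hw : Prime w)
    {𝒲 : Set (ValuationSubring Z)} (h𝒲 : 𝒲.Finite) (hne : 𝒲.Nonempty) (hsep : Sep 𝒲)
    (hmid : ∀ W ∈ 𝒲, ∀ c ∈ chart R ({x, x⁻¹} : Set Z), c ∈ W)
    (hwW : ∀ W ∈ 𝒲, algebraMap R Z w ∈ W.nonunits)
    (qep_fin : QepRad 𝒲 w (chart R ({x} : Set Z)))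
    (qep_inf : QepRad 𝒲 w (chart R ({x⁻¹} : Set Z)))
    (qep_mid : QepRad 𝒲 w (chart R ({x, x⁻¹} : Set Z)))
    {F : Type*} [Field F] [Algebra R F] [Algebra F Z] [IsScalarTower R F Z]
    [IsGalois F Z] [FiniteDimensional F Z]
    (hstable : ∀ σ : Z ≃ₐ[F] Z, ∀ W ∈ 𝒲, W.comap ((σ.symm : Z ≃+* Z) : Z →+* Z) ∈ 𝒲)
    {m : ℕ} (hm : 0 < m) {mi : R} (hmi : (m : R) * mi = 1) {ζ : R} (hζ : IsPrimitiveRoot ζ m)
    {G : Z} (hGF : G ^ m ∈ Set.range (algebraMap F Z))
    (hG1 : ∀ W ∈ 𝒲, G ^ m - 1 ∈ W.nonunits)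
    (κ : ValuationSubring F → ℕ)
    (hpv_fin : ∀ 𝔫 : Ideal (chart R ({x} : Set Z)), 𝔫.IsMaximal →
      algebraMap R (chart R ({x} : Set Z)) w ∈ 𝔫 →
      PureValuesAt 𝒲 (chart R ({x} : Set Z)) 𝔫 G ζ fun W => κ (W.comap (algebraMap F Z)))
    (hpv_inf : ∀ 𝔫 : Ideal (chart R ({x⁻¹} : Set Z)), 𝔫.IsMaximal →
      algebraMap R (chart R ({x⁻¹} : Set Z)) w ∈ 𝔫 →
      PureValuesAt 𝒲 (chart R ({x⁻¹} : Set Z)) 𝔫 G ζ fun W => κ (W.comap (algebraMap F Z))) :
    G ∈ Set.range (algebraMap F Z) := by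
  have hfm : chart R ({x} : Set Z) ≤ chart R ({x, x⁻¹} : Set Z) := chart_mono (by simp)
  have him : chart R ({x⁻¹} : Set Z) ≤ chart R ({x, x⁻¹} : Set Z) := chart_mono (by simp)
  refine kummer_wall3 hinjR hRF hx w hw h𝒲 hne hsep hmid hwW qep_fin qep_inf qep_mid hstable
    hm hmi hζ hGF hG1 κ ?_ ?_
  · intro 𝔫 h𝔫 hw𝔫 W hW W' hW' hth hth' a b ha hb
    haveI := h𝔫.isPrime
    exact label_eq_of_pureValuesAt _ 𝔫 (fun V hV c hc => hmid V hV c (hfm hc)) hmi
      hζ.pow_eq_one (hpv_fin 𝔫 h𝔫 hw𝔫) hW hW' hth hth' ha hb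
  · intro 𝔫 h𝔫 hw𝔫 W hW W' hW' hth hth' a b ha hb
    haveI := h𝔫.isPrime
    exact label_eq_of_pureValuesAt _ 𝔫 (fun V hV c hc => hmid V hV c (him hc)) hmi
      hζ.pow_eq_one (hpv_inf 𝔫 h𝔫 hw𝔫) hW hW' hth hth' ha hb

end Wall

end Fermat.Agent.S36.H193
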