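import Fermat.Agent.S36.H193.ClopenGraph

/-!
# S36 engine, leaf CLOPEN (helper193), part 4: the label wall (constant labels ⇒ trivial cover)

Setting of `ClopenGraph.lean` for the cover field `Z` (finite separated set of sheets `𝒲`, radical
`q`-expansion principle for the three charts of `Z`, `R` integrally closed in `Z`), and a base
field `F ⊆ Z` with `Z / F` finite Galois, `𝒲` stable under `Gal (Z / F)`.

`m` is invertible in `R`, `ζ ∈ R` a primitive `m`-th root of unity, `G ∈ Z` with `G ^ m ∈ F` and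
`G ^ m ≡ 1` on every sheet (`G ^ m` is *split*).  Every sheet `W` then carries a *label*: the
unique `ζ ^ a` with `G ≡ ζ ^ a` on `W` (`exists_label`, `label_unique`).

**Theorem** (`kummer_wall3`).  Let `κ` be a function on the sheets of `F` (the *colours*).  If for
any two sheets `W, W'` of `Z` through a common closed point of the special fibre the normalised
labels agree, `label W / ζ ^ κ (colour W) = label W' / ζ ^ κ (colour W')`, then `G ∈ F`.

No reducedness of the special fibre is used, and any number of sheets may pass through a closed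
point.  (Level `q²`: colours `FF, mid, VV`; the local hypothesis is "purity + norm compatibility
of the label ratios + COUNT".)
-/

set_option autoImplicit false
set_option linter.style.haveILetI false

namespace Fermat.Agent.S36.H193

open Polynomial Fermat.Agent.S18.H138

section Labels

variable {Z : Type*} [Field Z]

theorem nu_mem_of_pow (W : ValuationSubring Z) {a : Z} {n : ℕ} (hn : n ≠ 0) (h : a ^ n ∈ W) :
    a ∈ W := by
  rw [← W.valuation_le_one_iff] at h ⊢
  rw [map_pow] at h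
  exact (pow_le_one_iff_of_nonneg zero_le hn).1 h

/-- In a finite product of elements of `W` lying in the maximal ideal, some factor lies in the
maximal ideal. -/
theorem nu_exists_of_prod (W : ValuationSubring Z) {ι : Type*} (s : Finset ι) (f : ι → Z)
    (hf : ∀ i ∈ s, f i ∈ W) (h : ∏ i ∈ s, f i ∈ W.nonunits) : ∃ i ∈ s, f i ∈ W.nonunits := by
  classical
  induction s using Finset.induction_on with
  | empty =>
    rw [Finset.prod_empty] at h
    exact absurd h (nu_one_not W)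
  | insert a s ha ih =>
    rw [Finset.prod_insert ha] at h
    by_cases h1 : f a ∈ W.nonunits
    · exact ⟨a, Finset.mem_insert_self a s, h1⟩
    · by_cases h2 : ∏ i ∈ s, f i ∈ W.nonunits
      · obtain ⟨i, hi, hfi⟩ := ih (fun i hi => hf i (Finset.mem_insert_of_mem hi)) h2
        exact ⟨i, Finset.mem_insert_of_mem hi, hfi⟩
      · exact absurd h (nu_unit_mul W (hf a (Finset.mem_insert_self a s))
          (W.prod_mem fun i hi => hf i (Finset.mem_insert_of_mem hi)) h1 h2)

/-- A root of unity `≠ 1` of order dividing `m`, `m` invertible in `W`, is not `≡ 1`. -/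
theorem zeta_sub_one_not_mem (W : ValuationSubring Z) {m : ℕ} {μ : Z} (hμW : μ ∈ W)
    (hμ : μ * (m : Z) = 1) {ξ : Z} (hξW : ξ ∈ W) (hξm : ξ ^ m = 1) (hne : ξ ≠ 1) :
    ξ - 1 ∉ W.nonunits := by
  intro h
  have hsum : ∑ i ∈ Finset.range m, ξ ^ i = 0 := by
    have h2 : (ξ - 1) * ∑ i ∈ Finset.range m, ξ ^ i = 0 := by
      rw [mul_geom_sum, hξm, sub_self]
    rcases mul_eq_zero.1 h2 with h3 | h3
    · exact absurd (sub_eq_zero.1 h3) hne
    · exact h3
  have hpow : ∀ i : ℕ, ξ ^ i - 1 ∈ W.nonunits := by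
    intro i
    rw [← mul_geom_sum]
    exact nu_mul_right W h (W.sum_mem fun j _ => W.pow_mem hξW j)
  have h4 : ∑ i ∈ Finset.range m, (ξ ^ i - 1) ∈ W.nonunits :=
    nu_sum W _ _ fun i _ => hpow i
  rw [Finset.sum_sub_distrib, hsum, zero_sub] at h4
  simp only [Finset.sum_const, Finset.card_range, nsmul_eq_mul, mul_one] at h4
  have h5 : (m : Z) ∈ W.nonunits := by
    have := nu_neg W h4
    rwa [neg_neg] at this
  have h6 := nu_mul_left W h5 hμW
  rw [hμ] at h6
  exact nu_one_not W h6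

/-- **Existence of the label**: if `G ^ m ≡ 1` on `W` then `G ≡ ζ ^ a` on `W` for some `a < m`. -/
theorem exists_label (W : ValuationSubring Z) {m : ℕ} (hm : 0 < m) {ζ : Z}
    (hζ : IsPrimitiveRoot ζ m) (hζW : ζ ∈ W) {G : Z} (hG : G ^ m - 1 ∈ W.nonunits) :
    ∃ a < m, G - ζ ^ a ∈ W.nonunits := by
  have hGW : G ∈ W := by
    refine nu_mem_of_pow W hm.ne' ?_
    have : G ^ m = (G ^ m - 1) + 1 := by ring
    rw [this]
    exact W.add_mem _ _ (nu_mem W hG) W.one_mem
  have hprod : G ^ m - 1 = ∏ i ∈ Finset.range m, (G - ζ ^ i) := by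
    have h := X_pow_sub_C_eq_prod hζ hm (one_pow m)
    have h2 := congrArg (fun p : Z[X] => p.eval G) h
    simp only [eval_sub, eval_pow, eval_X, eval_C, eval_prod, mul_one] at h2
    exact h2
  rw [hprod] at hG
  obtain ⟨i, hi, h⟩ := nu_exists_of_prod W _ _
    (fun i _ => W.sub_mem hGW (W.pow_mem hζW i)) hG
  exact ⟨i, Finset.mem_range.1 hi, h⟩

/-- **Uniqueness of the label.** -/
theorem label_unique (W : ValuationSubring Z) {m : ℕ} {μ : Z} (hμW : μ ∈ W)
    (hμ : μ * (m : Z) = 1) {ζ : Z} (hζm : ζ ^ m = 1) (hζW : ζ ∈ W) {G : Z} {a b : ℕ}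
    (ha : G - ζ ^ a ∈ W.nonunits) (hb : G - ζ ^ b ∈ W.nonunits) : ζ ^ a = ζ ^ b := by
  by_contra hne
  have hζ0 : ζ ≠ 0 := by
    rintro rfl
    have hm0 : m ≠ 0 := by
      rintro rfl
      simp at hμ
    rw [zero_pow hm0] at hζm
    exact zero_ne_one hζm
  have hb0 : ζ ^ b ≠ 0 := pow_ne_zero _ hζ0
  -- `(ζ ^ b)⁻¹ = ζ ^ (b (m - 1))`
  have hinv : (ζ ^ b)⁻¹ = ζ ^ (b * (m - 1)) := by
    apply inv_eq_of_mul_eq_one_left
    rw [← pow_add]
    have hm1 : 1 ≤ m := by
      rcases Nat.eq_zero_or_pos m with h0 | h0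
      · subst h0
        simp at hμ
      · exact h0
    have : b * (m - 1) + b = m * b := by
      have : m - 1 + 1 = m := Nat.sub_add_cancel hm1
      calc b * (m - 1) + b = b * (m - 1 + 1) := by ring
        _ = m * b := by rw [this, mul_comm]
    rw [this, pow_mul, hζm, one_pow]
  set ξ : Z := ζ ^ a * (ζ ^ b)⁻¹ with hξ
  have hξW : ξ ∈ W := by
    rw [hξ, hinv]
    exact W.mul_mem _ _ (W.pow_mem hζW a) (W.pow_mem hζW _)
  have hξm : ξ ^ m = 1 := by
    rw [hξ, mul_pow, inv_pow, ← pow_mul, ← pow_mul, mul_comm a m, mul_comm b m, pow_mul, pow_mul,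
      hζm, one_pow, one_pow, inv_one, mul_one]
  have hξne : ξ ≠ 1 := by
    intro h
    apply hne
    rw [hξ] at h
    field_simp at h
    exact h
  apply zeta_sub_one_not_mem W hμW hμ hξW hξm hξne
  have : ξ - 1 = ((G - ζ ^ b) - (G - ζ ^ a)) * (ζ ^ b)⁻¹ := by
    rw [hξ]
    field_simp
    ring
  rw [this, hinv]
  exact nu_mul_right W (nu_sub W hb ha) (W.pow_mem hζW _)

end Labels

section Galois

variable {F : Type*} [Field F] {Z : Type*} [Field Z] [Algebra F Z]

theorem mem_nonunits_comap_symm (W : ValuationSubring Z) (σ : Z ≃ₐ[F] Z) (b : Z) :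
    σ b ∈ (W.comap ((σ.symm : Z ≃+* Z) : Z →+* Z)).nonunits ↔ b ∈ W.nonunits := by
  rw [ValuationSubring.mem_nonunits_iff_or, ValuationSubring.mem_nonunits_iff_or,
    ValuationSubring.mem_comap]
  have h1 : ((σ.symm : Z ≃+* Z) : Z →+* Z) (σ b)⁻¹ = b⁻¹ := by
    rw [map_inv₀]
    congr 1
    exact σ.symm_apply_apply b
  rw [h1, map_eq_zero_iff σ σ.injective]

theorem comap_symm_comap_algebraMap (W : ValuationSubring Z) (σ : Z ≃ₐ[F] Z) :
    (W.comap ((σ.symm : Z ≃+* Z) : Z →+* Z)).comap (algebraMap F Z) =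
      W.comap (algebraMap F Z) := by
  ext f
  rw [ValuationSubring.mem_comap, ValuationSubring.mem_comap, ValuationSubring.mem_comap]
  have : ((σ.symm : Z ≃+* Z) : Z →+* Z) (algebraMap F Z f) = algebraMap F Z f :=
    σ.symm.commutes f
  rw [this]

/-- If `G ^ m ∈ F`, `G ≡ c` on a sheet `W` and on its conjugate `σ W`, with `c ∈ F` a unit of
`σ W` and `m` invertible on `σ W`, then `σ G = G`. -/
theorem fixed_of_label_eq (W : ValuationSubring Z) (σ : Z ≃ₐ[F] Z) {m : ℕ} {μ : Z}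
    (hμW : μ ∈ W.comap ((σ.symm : Z ≃+* Z) : Z →+* Z)) (hμ : μ * (m : Z) = 1)
    {G : Z} (hGF : G ^ m ∈ Set.range (algebraMap F Z)) (c : F)
    (hcW : algebraMap F Z c ∈ W.comap ((σ.symm : Z ≃+* Z) : Z →+* Z))
    (hc : algebraMap F Z c ∉ (W.comap ((σ.symm : Z ≃+* Z) : Z →+* Z)).nonunits)
    (h1 : G - algebraMap F Z c ∈ W.nonunits)
    (h2 : G - algebraMap F Z c ∈ (W.comap ((σ.symm : Z ≃+* Z) : Z →+* Z)).nonunits) :
    σ G = G := by
  set W' : ValuationSubring Z := W.comap ((σ.symm : Z ≃+* Z) : Z →+* Z) with hW'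
  have h3 : σ G - algebraMap F Z c ∈ W'.nonunits := by
    have := (mem_nonunits_comap_symm W σ (G - algebraMap F Z c)).2 h1
    rwa [map_sub, σ.commutes] at this
  have hGW' : G ∈ W' := by
    have : G = (G - algebraMap F Z c) + algebraMap F Z c := by ring
    rw [this]
    exact W'.add_mem _ _ (nu_mem W' h2) hcW
  have hσGW' : σ G ∈ W' := by
    have : σ G = (σ G - algebraMap F Z c) + algebraMap F Z c := by ring
    rw [this]
    exact W'.add_mem _ _ (nu_mem W' h3) hcW
  have hGnu : G ∉ W'.nonunits := by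
    intro h
    apply hc
    have : algebraMap F Z c = G - (G - algebraMap F Z c) := by ring
    rw [this]
    exact nu_sub W' h h2
  have hG0 : G ≠ 0 := by
    rintro rfl
    exact hGnu (nu_zero W')
  have hGinv : G⁻¹ ∈ W' := nu_unit_inv W' hGW' hGnu
  set ξ : Z := σ G * G⁻¹ with hξ
  have hξW : ξ ∈ W' := W'.mul_mem _ _ hσGW' hGinv
  have hξm : ξ ^ m = 1 := by
    obtain ⟨f, hf⟩ := hGF
    have : (σ G) ^ m = G ^ m := by
      rw [← map_pow, ← hf, σ.commutes]
    rw [hξ, mul_pow, this, inv_pow, mul_inv_cancel₀ (pow_ne_zero _ hG0)]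
  by_contra hne
  have hξne : ξ ≠ 1 := by
    intro h
    apply hne
    rw [hξ] at h
    field_simp at h
    exact h
  apply zeta_sub_one_not_mem W' hμW hμ hξW hξm hξne
  have : ξ - 1 = ((σ G - algebraMap F Z c) - (G - algebraMap F Z c)) * G⁻¹ := by
    rw [hξ]
    field_simp
    ring
  rw [this]
  exact nu_mul_right W' (nu_sub W' h3 h2) hGinv

end Galois

section Wall

variable {R : Type*} [CommRing R] {Z : Type*} [Field Z] [Algebra R Z]
variable [IsNoetherianRing R] [IsIntegrallyClosed (Polynomial R)] [CharZero Z]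

/-- **The label wall.**  Constant normalised labels at the closed points of the special fibre
force a split Kummer generator into the base field. -/
theorem kummer_wall3
    (hinjR : Function.Injective (algebraMap R Z))
    (hRF : ∀ y : Z, IsIntegral R y → y ∈ Set.range (algebraMap R Z))
    {x : Z} (hx : Transcendental R x) [FiniteDimensional (baseField R x) Z]
    (w : R) (hw : Prime w)
    {𝒲 : Set (ValuationSubring Z)} (h𝒲 : 𝒲.Finite) (hne : 𝒲.Nonempty) (hsep : Sep 𝒲)
    (hmid : ∀ W ∈ 𝒲, ∀ c ∈ chart R ({x, x⁻¹} : Set Z), c ∈ W)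
    (hwW : ∀ W ∈ 𝒲, algebraMap R Z w ∈ W.nonunits)
    (qep_fin : QepRad 𝒲 w (chart R ({x} : Set Z)))
    (qep_inf : QepRad 𝒲 w (chart R ({x⁻¹} : Set Z)))
    (qep_mid : QepRad 𝒲 w (chart R ({x, x⁻¹} : Set Z)))
    {F : Type*} [Field F] [Algebra R F] [Algebra F Z] [IsScalarTower R F Z]
    [IsGalois F Z] [FiniteDimensional F Z]
    (hstable : ∀ σ : Z ≃ₐ[F] Z, ∀ W ∈ 𝒲, W.comap ((σ.symm : Z ≃+* Z) : Z →+* Z) ∈ 𝒲)
    {m : ℕ} (hm : 0 < m) {mi : R} (hmi : (m : R) * mi = 1) {ζ : R} (hζ : IsPrimitiveRoot ζ m)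
    {G : Z} (hGF : G ^ m ∈ Set.range (algebraMap F Z))
    (hG1 : ∀ W ∈ 𝒲, G ^ m - 1 ∈ W.nonunits)
    (κ : ValuationSubring F → ℕ)
    (hloc_fin : ∀ 𝔫 : Ideal (chart R ({x} : Set Z)), 𝔫.IsMaximal →
      algebraMap R (chart R ({x} : Set Z)) w ∈ 𝔫 →
      ∀ W ∈ 𝒲, ∀ W' ∈ 𝒲, Through _ 𝔫 W → Through _ 𝔫 W' → ∀ a b : ℕ,
        G - algebraMap R Z (ζ ^ a) ∈ W.nonunits → G - algebraMap R Z (ζ ^ b) ∈ W'.nonunits →
        ζ ^ (a + κ (W'.comap (algebraMap F Z))) = ζ ^ (b + κ (W.comap (algebraMap F Z))))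
    (hloc_inf : ∀ 𝔫 : Ideal (chart R ({x⁻¹} : Set Z)), 𝔫.IsMaximal →
      algebraMap R (chart R ({x⁻¹} : Set Z)) w ∈ 𝔫 →
      ∀ W ∈ 𝒲, ∀ W' ∈ 𝒲, Through _ 𝔫 W → Through _ 𝔫 W' → ∀ a b : ℕ,
        G - algebraMap R Z (ζ ^ a) ∈ W.nonunits → G - algebraMap R Z (ζ ^ b) ∈ W'.nonunits →
        ζ ^ (a + κ (W'.comap (algebraMap F Z))) = ζ ^ (b + κ (W.comap (algebraMap F Z)))) :
    G ∈ Set.range (algebraMap F Z) := by
  classical
  set ζZ : Z := algebraMap R Z ζ with hζZ
  have hζZp : IsPrimitiveRoot ζZ m := hζ.map_of_injective hinjR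
  have hRW : ∀ W ∈ 𝒲, ∀ r : R, algebraMap R Z r ∈ W := fun W hW r =>
    hmid W hW _ (Subalgebra.algebraMap_mem _ r)
  have hμ : algebraMap R Z mi * (m : Z) = 1 := by
    have := congrArg (algebraMap R Z) hmi
    rw [mul_comm]
    simpa using this
  -- the labels
  have hlab : ∀ W : ValuationSubring Z, ∃ a : ℕ, W ∈ 𝒲 → G - algebraMap R Z (ζ ^ a) ∈ W.nonunits := by
    intro W
    by_cases hW : W ∈ 𝒲
    · obtain ⟨a, -, ha⟩ := exists_label W hm hζZp (hRW W hW ζ) (hG1 W hW)
      refine ⟨a, fun _ => ?_⟩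
      rw [map_pow]
      exact ha
    · exact ⟨0, fun h => absurd h hW⟩
  choose lab hlab using hlab
  have huniq : ∀ W ∈ 𝒲, ∀ a : ℕ, G - algebraMap R Z (ζ ^ a) ∈ W.nonunits → ζ ^ a = ζ ^ lab W := by
    intro W hW a ha
    apply hinjR
    rw [map_pow, map_pow]
    have h1 := hlab W hW
    rw [map_pow] at h1 ha
    exact label_unique W (hRW W hW mi) hμ hζZp.pow_eq_one (hRW W hW ζ) ha h1
  -- normalised labels
  set ν : ValuationSubring Z → R := fun W =>
    ζ ^ (lab W + (m - 1) * κ (W.comap (algebraMap F Z))) with hν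
  have hm1 : m - 1 + 1 = m := Nat.sub_add_cancel hm
  have hνloc : ∀ W ∈ 𝒲, ∀ W' ∈ 𝒲,
      ζ ^ (lab W + κ (W'.comap (algebraMap F Z))) =
        ζ ^ (lab W' + κ (W.comap (algebraMap F Z))) → ν W = ν W' := by
    intro W _ W' _ h
    set k := κ (W.comap (algebraMap F Z)) with hk
    set k' := κ (W'.comap (algebraMap F Z)) with hk'
    have e1 : ζ ^ (lab W + (m - 1) * k) = ζ ^ (lab W + k') * ζ ^ ((m - 1) * k + (m - 1) * k') := by
      rw [← pow_add]
      have : lab W + k' + ((m - 1) * k + (m - 1) * k') = lab W + (m - 1) * k + m * k' := by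
        calc lab W + k' + ((m - 1) * k + (m - 1) * k')
            = lab W + (m - 1) * k + (m - 1 + 1) * k' := by ring
          _ = lab W + (m - 1) * k + m * k' := by rw [hm1]
      rw [this, pow_add ζ (lab W + (m - 1) * k) (m * k'), pow_mul ζ m k', hζ.pow_eq_one, one_pow,
        mul_one]
    have e2 : ζ ^ (lab W' + (m - 1) * k') = ζ ^ (lab W' + k) * ζ ^ ((m - 1) * k + (m - 1) * k') := by
      rw [← pow_add]
      have : lab W' + k + ((m - 1) * k + (m - 1) * k') = lab W' + (m - 1) * k' + m * k := by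
        calc lab W' + k + ((m - 1) * k + (m - 1) * k')
            = lab W' + (m - 1) * k' + (m - 1 + 1) * k := by ring
          _ = lab W' + (m - 1) * k' + m * k := by rw [hm1]
      rw [this, pow_add ζ (lab W' + (m - 1) * k') (m * k), pow_mul ζ m k, hζ.pow_eq_one, one_pow,
        mul_one]
    change ζ ^ (lab W + (m - 1) * k) = ζ ^ (lab W' + (m - 1) * k')
    rw [e1, e2, h]
  have hconst := clopen_label hinjR hRF hx w hw h𝒲 hsep hmid hwW qep_fin qep_inf qep_mid ν
    (fun 𝔫 h𝔫 hw𝔫 W hW W' hW' hth hth' =>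
      hνloc W hW W' hW' (hloc_fin 𝔫 h𝔫 hw𝔫 W hW W' hW' hth hth' _ _ (hlab W hW) (hlab W' hW')))
    (fun 𝔫 h𝔫 hw𝔫 W hW W' hW' hth hth' =>
      hνloc W hW W' hW' (hloc_inf 𝔫 h𝔫 hw𝔫 W hW W' hW' hth hth' _ _ (hlab W hW) (hlab W' hW')))
  -- `G` is Galois-invariant
  rw [IsGalois.mem_range_algebraMap_iff_fixed]
  intro σ
  obtain ⟨W, hW⟩ := hne
  set W' : ValuationSubring Z := W.comap ((σ.symm : Z ≃+* Z) : Z →+* Z) with hW'
  have hW'mem : W' ∈ 𝒲 := hstable σ W hW
  have hcol : W'.comap (algebraMap F Z) = W.comap (algebraMap F Z) :=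
    comap_symm_comap_algebraMap W σ
  have hνeq : ν W' = ν W := hconst W' hW'mem W hW
  have hlabeq : ζ ^ lab W' = ζ ^ lab W := by
    have h := hνeq
    change ζ ^ (lab W' + (m - 1) * κ (W'.comap (algebraMap F Z))) =
      ζ ^ (lab W + (m - 1) * κ (W.comap (algebraMap F Z))) at h
    rw [hcol, pow_add, pow_add] at h
    have hu : IsUnit (ζ ^ ((m - 1) * κ (W.comap (algebraMap F Z)))) :=
      (hζ.isUnit hm.ne').pow _
    exact hu.mul_left_injective h
  have hcF : algebraMap R Z (ζ ^ lab W) = algebraMap F Z (algebraMap R F (ζ ^ lab W)) :=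
    IsScalarTower.algebraMap_apply R F Z _
  have h1 : G - algebraMap F Z (algebraMap R F (ζ ^ lab W)) ∈ W.nonunits := by
    rw [← hcF]
    exact hlab W hW
  have h2 : G - algebraMap F Z (algebraMap R F (ζ ^ lab W)) ∈ W'.nonunits := by
    rw [← hcF, ← hlabeq]
    exact hlab W' hW'mem
  refine fixed_of_label_eq W σ (hRW W' hW'mem mi) hμ hGF (algebraMap R F (ζ ^ lab W)) ?_ ?_ h1 h2
  · rw [← hcF]
    exact hRW W' hW'mem _
  · rw [← hcF]
    intro hmem
    -- `ζ ^ a` is a unit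
    have hu : algebraMap R Z (ζ ^ lab W) * algebraMap R Z (ζ ^ (lab W * (m - 1))) = 1 := by
      rw [← map_mul, ← pow_add]
      have : lab W + lab W * (m - 1) = m * lab W := by
        calc lab W + lab W * (m - 1) = lab W * (m - 1 + 1) := by ring
          _ = m * lab W := by rw [hm1, mul_comm]
      rw [this, pow_mul, hζ.pow_eq_one, one_pow, map_one]
    have := nu_mul_right W' hmem (hRW W' hW'mem (ζ ^ (lab W * (m - 1))))
    rw [hu] at this
    exact nu_one_not W' this

end Wall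

end Fermat.Agent.S36.H193
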