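import Fermat.Agent.A2.H652.RedBase
import Fermat.Agent.S36.H193.Clopen

/-!
# S36 engine, leaf CLOPEN (helper193), part 6: the radical `q`-expansion principle is automatic

Setting: `R` a domain with `R[X]` integrally closed, `w ∈ R` prime, `Z` a field containing `R`,
`x ∈ Z` transcendental over `R`; the charts are the integral closures of `R[x]`, `R[x⁻¹]`,
`R[x, x⁻¹]` in `Z`, the sheets are the valuation subrings `W` of `Z` with `A2.H12.IsSheet w x W`
(extensions of the Gauss valuation of `R[x]`).

**Theorem** (`qepRad_sheets`).  For each of the three charts `C`, an element of `C` lying in the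
maximal ideal of every sheet is nilpotent modulo `w C`:
`QepRad {W | IsSheet w x W} w C`.

No hypothesis on the special fibre (reduced or not), no finiteness, no noetherianity.
Proof: `rad (w C)` is the intersection of the minimal primes `𝔭` over `w C`; by going down
(`R[x]` is integrally closed) `𝔭 ∩ R[x] = w R[x]`, so any valuation subring of `Z` centred at `𝔭`
is a sheet (`isSheet_of_minimal`).
-/

set_option autoImplicit false
set_option linter.style.haveILetI false
set_option linter.unusedSectionVars false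

namespace Fermat.Agent.S36.H193

open Polynomial
open Fermat.Agent.A2.H12 (IsSheet)
open Fermat.Agent.S18.H138 (chart mem_chart mem_adjoin_singleton_iff
  isIntegrallyClosed_adjoin_singleton)

universe u

section GoingDown

variable {R : Type*} [CommRing R] [IsDomain R] {F : Type*} [Field F] [Algebra R F]

/-- **Going down.**  `B` the integral closure of `R[x]` in `F`, `p` a minimal prime over `w B`:
then `p ∩ R[x] = w R[x]`. -/
theorem coeff_dvd_of_mem_minimal [IsIntegrallyClosed R[X]] (w : R) (hw : Prime w) {x : F}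
    (hx : Transcendental R x) (B : Subalgebra R F)
    (hB : ∀ f : F, f ∈ B ↔ IsIntegral (Algebra.adjoin R ({x} : Set F)) f)
    (p : Ideal B) (hp : p ∈ (Ideal.span {algebraMap R B w}).minimalPrimes)
    (b : B) (hb : b ∈ p) (P : R[X]) (hbP : (b : F) = aeval x P) (i : ℕ) :
    w ∣ P.coeff i := by
  haveI hpp : p.IsPrime := hp.1.1
  have hAB : Algebra.adjoin R ({x} : Set F) ≤ B := fun y hy =>
    (hB y).2 (isIntegral_algebraMap (R := Algebra.adjoin R ({x} : Set F)) (x := ⟨y, hy⟩))
  letI : Algebra (Algebra.adjoin R ({x} : Set F)) B :=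
    (Subalgebra.inclusion hAB).toRingHom.toAlgebra
  haveI : IsScalarTower (Algebra.adjoin R ({x} : Set F)) B F :=
    IsScalarTower.of_algebraMap_eq (fun _ => rfl)
  have hinjAB : Function.Injective (algebraMap (Algebra.adjoin R ({x} : Set F)) B) :=
    Subalgebra.inclusion_injective hAB
  haveI : FaithfulSMul (Algebra.adjoin R ({x} : Set F)) B :=
    (faithfulSMul_iff_algebraMap_injective _ _).2 hinjAB
  haveI : Algebra.IsIntegral (Algebra.adjoin R ({x} : Set F)) B := ⟨fun y => by
    have := (hB y).1 y.2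
    exact (isIntegral_algebraMap_iff (B := F) Subtype.val_injective).1 this⟩
  haveI : IsIntegrallyClosed (Algebra.adjoin R ({x} : Set F)) :=
    isIntegrallyClosed_adjoin_singleton hx
  have hwA : Prime (algebraMap R (Algebra.adjoin R ({x} : Set F)) w) :=
    Fermat.Agent.A2.H652.prime_algebraMap_adjoin w hw hx
  haveI hq : (Ideal.span {algebraMap R (Algebra.adjoin R ({x} : Set F)) w}).IsPrime :=
    (Ideal.span_singleton_prime hwA.ne_zero).2 hwA
  have hwB : algebraMap (Algebra.adjoin R ({x} : Set F)) B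
      (algebraMap R (Algebra.adjoin R ({x} : Set F)) w) = algebraMap R B w := rfl
  have hwp : algebraMap R B w ∈ p := hp.1.2 (Ideal.subset_span rfl)
  have hle : Ideal.span {algebraMap R (Algebra.adjoin R ({x} : Set F)) w} ≤
      p.under (Algebra.adjoin R ({x} : Set F)) := by
    rw [Ideal.span_le, Set.singleton_subset_iff]
    change algebraMap _ B _ ∈ p
    rw [hwB]
    exact hwp
  obtain ⟨P', hP'le, hP'prime, hP'over⟩ := Ideal.exists_ideal_le_liesOver_of_le
    (p := Ideal.span {algebraMap R (Algebra.adjoin R ({x} : Set F)) w})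
    (q := p.under (Algebra.adjoin R ({x} : Set F))) p hle
  have hwP' : algebraMap R B w ∈ P' := by
    rw [← hwB, ← Ideal.mem_of_liesOver P'
      (Ideal.span {algebraMap R (Algebra.adjoin R ({x} : Set F)) w})]
    exact Ideal.subset_span rfl
  have hpP' : p ≤ P' := by
    refine hp.2 ⟨hP'prime, ?_⟩ hP'le
    rw [Ideal.span_le, Set.singleton_subset_iff]
    exact hwP'
  have hPp : P' = p := le_antisymm hP'le hpP'
  -- `b ∈ p ∩ R[x] = (w)`
  have hbA : (b : F) ∈ Algebra.adjoin R ({x} : Set F) := by
    rw [hbP]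
    exact mem_adjoin_singleton_iff.2 ⟨P, rfl⟩
  have hbq : (⟨(b : F), hbA⟩ : Algebra.adjoin R ({x} : Set F)) ∈
      Ideal.span {algebraMap R (Algebra.adjoin R ({x} : Set F)) w} := by
    rw [Ideal.mem_of_liesOver P' (Ideal.span {algebraMap R (Algebra.adjoin R ({x} : Set F)) w}),
      hPp]
    have : algebraMap (Algebra.adjoin R ({x} : Set F)) B ⟨(b : F), hbA⟩ = b := Subtype.ext rfl
    rw [this]
    exact hb
  obtain ⟨c, hc⟩ := Ideal.mem_span_singleton'.1 hbq
  obtain ⟨Q, hQ⟩ := mem_adjoin_singleton_iff.1 c.2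
  have h2 : aeval x (Q * C w) = aeval x P := by
    rw [map_mul, aeval_C, hQ, ← hbP]
    exact congrArg Subtype.val hc
  have h3 : Q * C w = P := by
    have := (transcendental_iff.1 hx) (Q * C w - P) (by rw [map_sub, h2, sub_self])
    exact sub_eq_zero.1 this
  rw [← h3, coeff_mul_C]
  exact dvd_mul_left _ _

end GoingDown

section Sheets

variable {R : Type u} [CommRing R] [IsDomain R] {F : Type u} [Field F] [Algebra R F]

/-- A valuation subring of `F` centred at a minimal prime over `w` of the chart is a sheet. -/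
theorem isSheet_of_minimal [IsIntegrallyClosed R[X]] (w : R) (hw : Prime w) {x : F}
    (hx : Transcendental R x) (B : Subalgebra R F)
    (hB : ∀ f : F, f ∈ B ↔ IsIntegral (Algebra.adjoin R ({x} : Set F)) f)
    (p : Ideal B) (hp : p ∈ (Ideal.span {algebraMap R B w}).minimalPrimes)
    (V : ValuationSubring F) (hBV : ∀ b ∈ B, b ∈ V)
    (hV : ∀ b : B, (b : F) ∈ V.nonunits ↔ b ∈ p) : IsSheet w x V := by
  have hAB : Algebra.adjoin R ({x} : Set F) ≤ B := fun y hy =>
    (hB y).2 (isIntegral_algebraMap (R := Algebra.adjoin R ({x} : Set F)) (x := ⟨y, hy⟩))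
  have hwp : algebraMap R B w ∈ p := hp.1.2 (Ideal.subset_span rfl)
  refine ⟨fun r => hBV _ (B.algebraMap_mem r), hBV _ (hAB (Algebra.subset_adjoin rfl)),
    (hV (algebraMap R B w)).2 hwp, ?_⟩
  intro P hP
  have hyB : aeval x P ∈ B := hAB (mem_adjoin_singleton_iff.2 ⟨P, rfl⟩)
  have hnot : aeval x P ∉ V.nonunits := by
    intro h
    have h1 : (⟨aeval x P, hyB⟩ : B) ∈ p := (hV ⟨aeval x P, hyB⟩).1 h
    obtain ⟨i, hi⟩ := hP
    exact hi (coeff_dvd_of_mem_minimal w hw hx B hB p hp _ h1 P rfl i)
  rw [ValuationSubring.mem_nonunits_iff_or] at hnot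
  by_contra h
  exact hnot (Or.inr h)

/-- Every minimal prime over `w` of the chart `chart R {x}` is the centre of a sheet. -/
theorem exists_sheet_of_minimal [IsIntegrallyClosed R[X]] (w : R) (hw : Prime w) {x : F}
    (hx : Transcendental R x)
    (p : Ideal (chart R ({x} : Set F)))
    (hp : p ∈ (Ideal.span {algebraMap R (chart R ({x} : Set F)) w}).minimalPrimes) :
    ∃ V : ValuationSubring F, IsSheet w x V ∧
      ∀ b : chart R ({x} : Set F), (b : F) ∈ V.nonunits ↔ b ∈ p := by
  haveI : p.IsPrime := hp.1.1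
  obtain ⟨V, hBV, hV⟩ := Fermat.Agent.A2.H652.exists_valuationSubring_center
    (chart R ({x} : Set F)) p
  exact ⟨V, isSheet_of_minimal w hw hx _ (fun _ => Iff.rfl) p hp V hBV hV, hV⟩

/-- **Radical `q`-expansion principle, finite chart.** -/
theorem qepRad_sheets_fin [IsIntegrallyClosed R[X]] (w : R) (hw : Prime w) {x : F}
    (hx : Transcendental R x) :
    QepRad {W : ValuationSubring F | IsSheet w x W} w (chart R ({x} : Set F)) := by
  intro b hb hJ
  set C := chart R ({x} : Set F) with hC
  have hrad : (⟨b, hb⟩ : C) ∈ (Ideal.span {algebraMap R C w}).radical := by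
    rw [← Ideal.sInf_minimalPrimes, Ideal.mem_sInf]
    intro p hp
    obtain ⟨V, hVs, hV⟩ := exists_sheet_of_minimal w hw hx p hp
    exact (hV ⟨b, hb⟩).1 (hJ V hVs)
  obtain ⟨N, hN⟩ := Ideal.mem_radical_iff.1 hrad
  obtain ⟨t, ht⟩ := Ideal.mem_span_singleton'.1 hN
  refine ⟨N, t, t.2, ?_⟩
  have := congrArg Subtype.val ht
  rw [mul_comm]
  exact this.symm

/-- Sheets for `x⁻¹` and sheets for `x` are the same. -/
theorem isSheet_inv_iff (w : R) {x : F} (hx0 : x ≠ 0) (V : ValuationSubring F) :
    IsSheet w x⁻¹ V ↔ IsSheet w x V := by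
  constructor
  · exact Fermat.Agent.A2.H652.isSheet_of_isSheet_inv w hx0
  · intro h
    have := Fermat.Agent.A2.H652.isSheet_of_isSheet_inv w (inv_ne_zero hx0)
      (V := V) (by rwa [inv_inv])
    exact this

/-- **Radical `q`-expansion principle** for the three charts, with respect to all sheets. -/
theorem qepRad_sheets [IsIntegrallyClosed R[X]] (w : R) (hw : Prime w) {x : F}
    (hx : Transcendental R x) :
    QepRad {W : ValuationSubring F | IsSheet w x W} w (chart R ({x} : Set F)) ∧
    QepRad {W : ValuationSubring F | IsSheet w x W} w (chart R ({x⁻¹} : Set F)) ∧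
    QepRad {W : ValuationSubring F | IsSheet w x W} w (chart R ({x, x⁻¹} : Set F)) := by
  have hx0 : x ≠ 0 := Fermat.Agent.S18.H138.ne_zero_of_transcendental hx
  have hfin := qepRad_sheets_fin w hw hx
  refine ⟨hfin, ?_, ?_⟩
  · have h := qepRad_sheets_fin w hw (Fermat.Agent.S18.H138.transcendental_inv hx)
    intro b hb hJ
    exact h b hb fun W hW => hJ W ((isSheet_inv_iff w hx0 W).1 hW)
  · intro b hb hJ
    obtain ⟨K, hK⟩ := Fermat.Agent.S18.H138.exists_pow_mul_mem_chart (R := R) hx0 hb
    obtain ⟨N, t, ht, hN⟩ := hfin _ hK fun W hW =>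
      nu_mul_left W (hJ W hW) (W.pow_mem hW.2.1 K)
    refine ⟨N, (x⁻¹ ^ K) ^ N * t, ?_, ?_⟩
    · refine Subalgebra.mul_mem _ (Subalgebra.pow_mem _ (Subalgebra.pow_mem _ ?_ K) N) ?_
      · exact Fermat.Agent.S18.H138.mem_chart_of_mem (by simp)
      · exact Fermat.Agent.S18.H138.chart_mono (by simp) ht
    · have hxK : x ^ K ≠ 0 := pow_ne_zero _ hx0
      have : b = x⁻¹ ^ K * (x ^ K * b) := by
        rw [inv_pow, ← mul_assoc, inv_mul_cancel₀ hxK, one_mul]
      rw [this, mul_pow, hN]
      ring

end Sheets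

end Fermat.Agent.S36.H193
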