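import Fermat.Agent.S36.H193.SheetsAll
import Fermat.Agent.S36.H193.QepAll

/-!
# S36 engine (helper193), part 12: the `q`-expansion principle WITH multiplicities from the list
of sheets (MOD3 field `qep_f` / `qep_i`; ALG3 ⟷ MOD3 adapter)

`R` noetherian domain with `R[X]` integrally closed, `w ∈ R` prime, `F ∋ x` a field of
characteristic `0`, `x` transcendental over `R`, `F` finite over `Frac R (x)`;
`B = chart R {x}` the integral closure of `R[x]` in `F`.  Sheets: `A2.H12.IsSheet w x V`
(= the valuation rings of `F` extending the Gauss valuation of `R[x]`).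

* `qep_of_sheets` : if `𝒱` contains every sheet, then `b ∈ B`, `b / w ∈ V` for all `V ∈ 𝒱`
  imply `b ∈ w B`  (algebraic Hartogs, `A2.H849`: the height-one primes of `B` containing `w` are
  the centres of the sheets).
* `qep3_of_sheets`, `qep3_inv_of_sheets` : the same for three valuation rings, in the exact
  shape of the fields `qep_f`, `qep_i` (`Qep3`) of the frozen three-component context:
  "every sheet is one of `V₁, V₂, V₃`" (degree count) ⟹ `Qep3` for both charts.
-/

set_option autoImplicit false
set_option linter.style.haveILetI false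
set_option linter.unusedSectionVars false

namespace Fermat.Agent.S36.H193

open Polynomial
open Fermat.Agent.A2.H12 (IsSheet)
open Fermat.Agent.A2.H849 (IsLocDVR mem_range_of_forall_isLocDVR)
open Fermat.Agent.S18.H138

universe u

section Qep

variable {R : Type u} [CommRing R] [IsDomain R] {F : Type u} [Field F] [Algebra R F]
variable [IsNoetherianRing R] [IsIntegrallyClosed R[X]] [CharZero F]

/-- **The `q`-expansion principle with multiplicities**, from the list of sheets. -/
theorem qep_of_sheets (hinjR : Function.Injective (algebraMap R F)) (w : R) (hw : Prime w)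
    {x : F} (hx : Transcendental R x) [FiniteDimensional (baseField R x) F]
    (𝒱 : Set (ValuationSubring F)) (h𝒱 : ∀ V, IsSheet w x V → V ∈ 𝒱)
    (b : chart R ({x} : Set F))
    (hb : ∀ V ∈ 𝒱, (b : F) * (algebraMap R F w)⁻¹ ∈ V) :
    ∃ c : chart R ({x} : Set F), b = algebraMap R (chart R ({x} : Set F)) w * c := by
  classical
  obtain ⟨hnoeth, hic, hfrac⟩ := chart_inst (R := R) hx
  haveI := hnoeth
  haveI := hic
  haveI : IsFractionRing (chart R ({x} : Set F)) F := by
    refine IsFractionRing.of_field (chart R ({x} : Set F)) F (fun z => ?_)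
    obtain ⟨a, ha, b', hb', -, h⟩ := hfrac z
    exact ⟨⟨a, ha⟩, ⟨b', hb'⟩, h⟩
  have hwF0 : algebraMap R F w ≠ 0 := fun h => hw.ne_zero (hinjR (by rw [h, map_zero]))
  have hwB0 : algebraMap R (chart R ({x} : Set F)) w ≠ 0 := by
    intro h0
    exact hwF0 (congrArg Subtype.val h0)
  have hmem : (b : F) * (algebraMap R F w)⁻¹ ∈ (algebraMap (chart R ({x} : Set F)) F).range := by
    refine mem_range_of_forall_isLocDVR _ (fun O P hOP => ?_)
    haveI := hOP.prime
    have hBO : ∀ c ∈ (chart R ({x} : Set F)), c ∈ O := fun c hc => hOP.le ⟨c, hc⟩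
    by_cases hwP : algebraMap R (chart R ({x} : Set F)) w ∈ P
    · -- `O` is a sheet
      have hmin : P ∈ (Ideal.span {algebraMap R (chart R ({x} : Set F)) w}).minimalPrimes := by
        refine ⟨⟨hOP.prime, ?_⟩, ?_⟩
        · rw [Ideal.span_le, Set.singleton_subset_iff]
          exact hwP
        · rintro Q ⟨hQp, hQw⟩ hQP
          have hwQ : algebraMap R (chart R ({x} : Set F)) w ∈ Q := hQw (Ideal.subset_span rfl)
          have hQ0 : Q ≠ ⊥ := by
            intro h0
            rw [h0, Ideal.mem_bot] at hwQ
            exact hwB0 hwQ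
          exact (hOP.height_one Q hQp hQ0 hQP).ge
      have hV : ∀ c : (chart R ({x} : Set F)), (c : F) ∈ O.nonunits ↔ c ∈ P := by
        intro c
        constructor
        · intro hc
          by_contra hcP
          have h1 : ((c : F))⁻¹ ∈ O := hOP.inv_mem c hcP
          rw [ValuationSubring.mem_nonunits_iff_or] at hc
          rcases hc with h0 | h2
          · apply hcP
            have : c = 0 := Subtype.ext h0
            rw [this]
            exact P.zero_mem
          · exact h2 h1
        · intro hcP
          by_cases hc0 : c = 0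
          · rw [hc0]
            exact nu_zero O
          · rw [ValuationSubring.mem_nonunits_iff_or]
            exact Or.inr (hOP.inv_not_mem c hcP hc0)
      have hsheet : IsSheet w x O :=
        isSheet_of_minimal w hw hx (chart R ({x} : Set F)) (fun _ => Iff.rfl) P hmin O hBO hV
      exact hb O (h𝒱 O hsheet)
    · have h1 : ((algebraMap R (chart R ({x} : Set F)) w : (chart R ({x} : Set F))) : F)⁻¹ ∈ O := hOP.inv_mem _ hwP
      exact O.mul_mem _ _ (hBO b b.2) h1
  obtain ⟨c, hc⟩ := hmem
  refine ⟨c, Subtype.ext ?_⟩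
  have hc' : (c : F) = (b : F) * (algebraMap R F w)⁻¹ := hc
  have : ((algebraMap R (chart R ({x} : Set F)) w * c : (chart R ({x} : Set F))) : F) = algebraMap R F w * (c : F) := rfl
  rw [this, hc', mul_comm (b : F), ← mul_assoc, mul_inv_cancel₀ hwF0, one_mul]

/-- **`Qep3` for the finite chart** from "every sheet is one of `V₁, V₂, V₃`". -/
theorem qep3_of_sheets (hinjR : Function.Injective (algebraMap R F)) (w : R) (hw : Prime w)
    {x : F} (hx : Transcendental R x) [FiniteDimensional (baseField R x) F]
    (V₁ V₂ V₃ : ValuationSubring F)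
    (hsheets : ∀ V, IsSheet w x V → V = V₁ ∨ V = V₂ ∨ V = V₃) :
    ∀ b : chart R ({x} : Set F), (b : F) * (algebraMap R F w)⁻¹ ∈ V₁ →
      (b : F) * (algebraMap R F w)⁻¹ ∈ V₂ → (b : F) * (algebraMap R F w)⁻¹ ∈ V₃ →
      ∃ c : chart R ({x} : Set F), b = algebraMap R (chart R ({x} : Set F)) w * c := by
  intro b h₁ h₂ h₃
  refine qep_of_sheets hinjR w hw hx {V | V = V₁ ∨ V = V₂ ∨ V = V₃} hsheets b ?_
  rintro V (rfl | rfl | rfl)
  · exact h₁
  · exact h₂
  · exact h₃

/-- **`Qep3` for the chart at infinity** from "every sheet is one of `V₁, V₂, V₃`". -/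
theorem qep3_inv_of_sheets (hinjR : Function.Injective (algebraMap R F)) (w : R) (hw : Prime w)
    {x : F} (hx : Transcendental R x) [FiniteDimensional (baseField R x) F]
    (V₁ V₂ V₃ : ValuationSubring F)
    (hsheets : ∀ V, IsSheet w x V → V = V₁ ∨ V = V₂ ∨ V = V₃) :
    ∀ b : chart R ({x⁻¹} : Set F), (b : F) * (algebraMap R F w)⁻¹ ∈ V₁ →
      (b : F) * (algebraMap R F w)⁻¹ ∈ V₂ → (b : F) * (algebraMap R F w)⁻¹ ∈ V₃ →
      ∃ c : chart R ({x⁻¹} : Set F), b = algebraMap R (chart R ({x⁻¹} : Set F)) w * c := by
  have hx0 : x ≠ 0 := Fermat.Agent.S18.H138.ne_zero_of_transcendental hx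
  haveI : FiniteDimensional (baseField R x⁻¹) F := by
    rw [baseField_inv]
    infer_instance
  exact qep3_of_sheets hinjR w hw (Fermat.Agent.S18.H138.transcendental_inv hx) V₁ V₂ V₃
    (fun V hV => hsheets V ((isSheet_inv_iff w hx0 V).1 hV))

end Qep

end Fermat.Agent.S36.H193
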