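import Fermat.Agent.A2.H193.Closed

/-!
# S36 engine, leaf CLOPEN (helper193), part 3: descent of a root congruent to `1` modulo the radical

`K ⊆ Ω` fields, `O ⊆ K` an `R`-subalgebra with fraction field `K`, integrally closed in `K`,
`W ∈ O` a non-unit, `m` invertible in `O`.

**Theorem** (`root_mem_rad`).  If `z ∈ Ω` satisfies `z ^ m ∈ K` and `z ≡ 1` modulo the *radical*
of `W` in the integral closure of `O` in `Ω` (i.e. `(z - 1) ^ N = W t` with `t` integral over `O`,
for some `N`), then `z ∈ K`.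

This is the radical version of `A2.H193.mem_of_congr_one` (where `N = 1`), needed when the
special fibre is not reduced (level `q²`: `W = q` is not a uniformiser of the middle sheet).

Proof: `y = z - 1` is a root of the monic polynomial `expand N (scaleRoots T W)`, `T` the minimal
polynomial of `t`, which is `X ^ (N e)` modulo a maximal ideal `𝔪 ∋ W` of `O`.  Hence the minimal
polynomial `Q` of `z` reduces to `(X - 1) ^ d` modulo `𝔪`; it divides `X ^ m - z ^ m`, whose
derivative `m X ^ (m - 1)` does not vanish at `1` modulo `𝔪`.  So `d ≤ 1`.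
No irreducibility of `X ^ m - u` is assumed.
-/

set_option autoImplicit false
set_option linter.style.haveILetI false

namespace Fermat.Agent.S36.H193

open Polynomial Fermat.Agent.A2.H193

/-- A monic divisor of `X ^ n` over a field is a power of `X`. -/
theorem eq_X_pow_of_monic_of_dvd {κ : Type*} [Field κ] {P : κ[X]} (hP : P.Monic) {n : ℕ}
    (h : P ∣ X ^ n) : P = X ^ P.natDegree := by
  obtain ⟨i, -, hi⟩ := (dvd_prime_pow (prime_X (R := κ)) n).1 h
  have h1 : P = X ^ i := eq_of_monic_of_associated hP (monic_X_pow i) hi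
  have h2 : P.natDegree = i := by rw [h1, natDegree_X_pow]
  rw [h2]
  exact h1

/-- If `(X - 1) ^ 2` divides `X ^ m - c` then `m = 0` in the coefficient ring. -/
theorem natCast_eq_zero_of_sq_dvd {κ : Type*} [CommRing κ] {m : ℕ} {c : κ}
    (h : (X - C 1) ^ 2 ∣ (X ^ m - C c : κ[X])) : (m : κ) = 0 := by
  obtain ⟨g, hg⟩ := h
  have h1 := congrArg (fun p : κ[X] => (derivative p).eval 1) hg
  simp only [derivative_sub, derivative_C, sub_zero, derivative_mul,
    derivative_pow, derivative_X, eval_mul, eval_add, eval_pow, eval_sub, eval_X, eval_C,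
    one_pow, mul_one, sub_self, Nat.cast_ofNat] at h1
  simpa using h1

variable {R : Type*} [CommRing R] {Ω : Type*} [Field Ω] [Algebra R Ω]

/-- **Descent modulo the radical.**  `z ^ m ∈ K` and `(z - 1) ^ N ∈ W·O'` imply `z ∈ K`. -/
theorem root_mem_rad (O : Subalgebra R Ω) (K : Subfield Ω)
    (hOK : ∀ a ∈ O, a ∈ K) (hOfrac : ∀ y ∈ K, ∃ a ∈ O, ∃ b ∈ O, y = a / b)
    (hOcl : ∀ y ∈ K, IsIntegral O y → y ∈ O)
    (W : Ω) (hWO : W ∈ O) (hWunit : ∀ a ∈ O, W * a ≠ 1)
    (m : ℕ) (μ : Ω) (hμO : μ ∈ O) (hμ : μ * (m : Ω) = 1)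
    (z : Ω) (hzK : z ^ m ∈ K)
    (N : ℕ) (t : Ω) (ht : IsIntegral O t) (hzt : (z - 1) ^ N = W * t) : z ∈ K := by
  classical
  have hWK : W ∈ K := hOK W hWO
  -- the ring homomorphism `O → K`
  let φ : O →+* K :=
    { toFun := fun a => ⟨a, hOK a a.2⟩
      map_one' := rfl
      map_mul' := fun _ _ => rfl
      map_zero' := rfl
      map_add' := fun _ _ => rfl }
  have hφinj : Function.Injective φ := by
    intro a b hab
    have : (a : Ω) = b := congrArg (fun t : K => (t : Ω)) hab
    exact Subtype.ext this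
  set W₀ : O := ⟨W, hWO⟩ with hW₀
  set μ₀ : O := ⟨μ, hμO⟩ with hμ₀
  -- `N ≠ 0`
  have hN : 0 < N := by
    rcases Nat.eq_zero_or_pos N with h0 | h0
    · exfalso
      rw [h0, pow_zero] at hzt
      have hW0 : W ≠ 0 := by
        rintro rfl
        rw [zero_mul] at hzt
        exact one_ne_zero hzt
      have htK : t ∈ K := by
        have : t = W⁻¹ := by
          rw [eq_comm, inv_eq_iff_eq_inv, ← one_div, eq_div_iff]
          · exact hzt.symm
          · rintro rfl
            rw [mul_zero] at hzt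
            exact one_ne_zero hzt
        rw [this]
        exact K.inv_mem hWK
      exact hWunit t (hOcl t htK ht) hzt.symm
    · exact h0
  set y : Ω := z - 1 with hy
  have hyint : IsIntegral O y := by
    refine IsIntegral.of_pow hN ?_
    rw [hzt]
    exact (isIntegral_algebraMap (x := W₀)).mul ht
  have hzint : IsIntegral O z := by
    have : z = y + 1 := by rw [hy]; ring
    rw [this]
    exact hyint.add isIntegral_one
  have hzKint : IsIntegral K z := isIntegral_subfield_of_isIntegral O K hOK hzint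
  have htKint : IsIntegral K t := isIntegral_subfield_of_isIntegral O K hOK ht
  have huO : z ^ m ∈ O := hOcl _ hzK (hzint.pow m)
  set u₀ : O := ⟨z ^ m, huO⟩ with hu₀
  -- the minimal polynomial of `z` lifts to `O`
  have hlift : minpoly K z ∈ lifts φ := by
    rw [lifts_iff_coeff_lifts]
    intro i
    exact ⟨⟨_, minpoly_coeff_mem_of_closed O K hOK hOfrac hOcl hzint i⟩, Subtype.ext rfl⟩
  obtain ⟨Q₀, hQ₀map, hQ₀deg, hQ₀monic⟩ :=
    lifts_and_natDegree_eq_and_monic hlift (minpoly.monic hzKint)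
  -- the minimal polynomial of `t` lifts to `O`
  have hliftT : minpoly K t ∈ lifts φ := by
    rw [lifts_iff_coeff_lifts]
    intro i
    exact ⟨⟨_, minpoly_coeff_mem_of_closed O K hOK hOfrac hOcl ht i⟩, Subtype.ext rfl⟩
  obtain ⟨T₀, hT₀map, hT₀deg, hT₀monic⟩ :=
    lifts_and_natDegree_eq_and_monic hliftT (minpoly.monic htKint)
  have hT₀t : aeval t T₀ = 0 := by
    have h1 : eval₂ (algebraMap K Ω) t (T₀.map φ) = 0 := by
      rw [hT₀map]; exact minpoly.aeval K t
    rw [eval₂_map] at h1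
    exact h1
  -- `y` is a root of `M₀ = expand N (scaleRoots T₀ W₀)`
  set M₀ : (↥O)[X] := expand O N (T₀.scaleRoots W₀) with hM₀
  have hM₀monic : M₀.Monic := Monic.expand hN ((monic_scaleRoots_iff W₀).2 hT₀monic)
  have hM₀y : aeval y M₀ = 0 := by
    rw [hM₀, expand_aeval, hy, hzt]
    exact scaleRoots_aeval_eq_zero (r := W₀) hT₀t
  -- `P₀ = Q₀(X + 1)` is the minimal polynomial of `y`
  set P₀ : (↥O)[X] := Q₀.comp (X + C 1) with hP₀
  have hP₀monic : P₀.Monic := by
    refine hQ₀monic.comp (monic_X_add_C 1) ?_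
    rw [natDegree_X_add_C]
    exact one_ne_zero
  have hP₀map : P₀.map φ = minpoly K y := by
    rw [hP₀, Polynomial.map_comp, hQ₀map, Polynomial.map_add, map_X, map_C, map_one, hy]
    have := minpoly.sub_algebraMap (A := K) z (1 : K)
    rw [map_one] at this
    rw [this]
  have hdvdK : P₀.map φ ∣ M₀.map φ := by
    rw [hP₀map]
    refine minpoly.dvd K y ?_
    rw [aeval_def, eval₂_map]
    exact hM₀y
  have hdvd : P₀ ∣ M₀ := (map_dvd_map φ hφinj hP₀monic).1 hdvdK
  -- `Q₀ ∣ X ^ m - u₀`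
  have hdvdQK : Q₀.map φ ∣ (X ^ m - C u₀ : (↥O)[X]).map φ := by
    rw [hQ₀map]
    refine minpoly.dvd K z ?_
    rw [aeval_def, eval₂_map]
    simp only [eval₂_sub, eval₂_pow, eval₂_X, eval₂_C]
    exact sub_self _
  have hdvdQ : Q₀ ∣ X ^ m - C u₀ := (map_dvd_map φ hφinj hQ₀monic).1 hdvdQK
  -- a maximal ideal containing `W₀`
  have hspan : Ideal.span ({W₀} : Set O) ≠ ⊤ := by
    rw [Ne, Ideal.span_singleton_eq_top]
    rintro hu
    obtain ⟨b, hb⟩ := hu.exists_right_inv
    exact hWunit b b.2 (congrArg (fun t : O => (t : Ω)) hb)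
  obtain ⟨𝔪, h𝔪, hle⟩ := Ideal.exists_le_maximal _ hspan
  have hW𝔪 : W₀ ∈ 𝔪 := hle (Ideal.subset_span rfl)
  letI : Field (↥O ⧸ 𝔪) := Ideal.Quotient.field 𝔪
  set π : O →+* (↥O ⧸ 𝔪) := Ideal.Quotient.mk 𝔪 with hπ
  have hπW : π W₀ = 0 := Ideal.Quotient.eq_zero_iff_mem.2 hW𝔪
  have hμm : μ₀ * (m : O) = 1 := by
    apply Subtype.ext
    push_cast
    exact hμ
  have hπm : ((m : ℕ) : ↥O ⧸ 𝔪) ≠ 0 := by
    intro h
    have := congrArg π hμm
    rw [map_mul, map_natCast, h, mul_zero, map_one] at this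
    exact zero_ne_one this
  -- `M₀ ≡ X ^ (N e)` modulo `𝔪`
  have hSmap : (T₀.scaleRoots W₀).map π = X ^ T₀.natDegree := by
    ext i
    rw [coeff_map, coeff_scaleRoots, coeff_X_pow]
    split_ifs with hi
    · rw [hi, Nat.sub_self, pow_zero, mul_one]
      have : T₀.coeff T₀.natDegree = 1 := hT₀monic
      rw [this, map_one]
    · rcases lt_or_gt_of_ne hi with hlt | hgt
      · have hpos : T₀.natDegree - i ≠ 0 := by omega
        rw [map_mul, map_pow, hπW, zero_pow hpos, mul_zero]
      · rw [coeff_eq_zero_of_natDegree_lt hgt, zero_mul, map_zero]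
  have hMmap : M₀.map π = X ^ (T₀.natDegree * N) := by
    rw [hM₀, map_expand, hSmap, map_pow, expand_X, ← pow_mul, mul_comm]
  -- `P₀ ≡ X ^ d`
  have hPmap : P₀.map π = X ^ P₀.natDegree := by
    have h1 : P₀.map π ∣ X ^ (T₀.natDegree * N) := by
      rw [← hMmap]
      exact Polynomial.map_dvd π hdvd
    have h2 := eq_X_pow_of_monic_of_dvd (hP₀monic.map π) h1
    rw [hP₀monic.natDegree_map] at h2
    exact h2
  -- `Q₀ ≡ (X - 1) ^ d`
  have hQP : Q₀ = P₀.comp (X - C 1) := by
    rw [hP₀, comp_assoc]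
    simp
  have hQmap : Q₀.map π = (X - C 1) ^ P₀.natDegree := by
    rw [hQP, Polynomial.map_comp, hPmap, Polynomial.map_sub, map_X, map_C, map_one]
    simp
  have hdegP : P₀.natDegree = Q₀.natDegree := by
    rw [hP₀, natDegree_comp, natDegree_X_add_C, mul_one]
  -- degree bound
  have hdeg : Q₀.natDegree ≤ 1 := by
    by_contra hcon
    rw [not_le] at hcon
    have h1 : (X - C 1 : (↥O ⧸ 𝔪)[X]) ^ 2 ∣ Q₀.map π := by
      rw [hQmap, hdegP]
      exact pow_dvd_pow _ hcon
    have h2 : Q₀.map π ∣ (X ^ m - C (π u₀) : (↥O ⧸ 𝔪)[X]) := by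
      have := Polynomial.map_dvd π hdvdQ
      simpa using this
    exact hπm (natCast_eq_zero_of_sq_dvd (h1.trans h2))
  have hpos := minpoly.natDegree_pos hzKint
  have hone : (minpoly K z).natDegree = 1 := by omega
  obtain ⟨zk, hzk⟩ := minpoly.natDegree_eq_one_iff.1 hone
  rw [← hzk]
  exact zk.2

end Fermat.Agent.S36.H193
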