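import Fermat.Agent.S36.H193.WallSheets

/-!
# S36 engine, leaf CLOPEN (helper193), part 9: the label wall with hypotheses on the base only

Setting of `WallSheets.lean`: base field `F ∋ x`, finite Galois cover `Z / F`, `G ∈ Z` with
`G ^ m = f ∈ F`, `R` integrally closed in `Z`.

* `BasePureValuesAt` : a purity datum for `f` at the closed point `𝔫` of a chart `B` of the BASE:
  `f = ε h ^ m` with `ε = e₁ / e₂` a unit at `𝔫`, and on every sheet `V` of `F` through `𝔫` the
  residue of `h` is regular at `𝔫` with value `ζ ^ κ V · v`.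
* **`kummer_wall3_of_base`** : if `f ≡ 1` on every sheet of `F` and `f` has a purity datum with
  normalised values at every closed point of the special fibre of the two charts of `F`, then
  every `m`-th root `G` of `f` in `Z` lies in `F`.

No hypothesis on the cover except "no new constants" (`hRF`), no hypothesis on the special fibre
of the base (non-reduced fibres, any number of branches through a point).
-/

set_option autoImplicit false
set_option linter.style.haveILetI false
set_option linter.unusedSectionVars false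

namespace Fermat.Agent.S36.H193

open Polynomial
open Fermat.Agent.A2.H12 (IsSheet)
open Fermat.Agent.S18.H138

universe u

section Tower

variable {R : Type*} [CommRing R] {F : Type*} [Field F] [Algebra R F]
variable {Z : Type*} [Field Z] [Algebra F Z] [Algebra R Z] [IsScalarTower R F Z]

/-- The chart of the base maps into the chart of the cover. -/
theorem algebraMap_mem_chart (T : Set F) {b : F} (hb : b ∈ chart R T) :
    algebraMap F Z b ∈ chart R (algebraMap F Z '' T) := by
  rw [mem_chart] at hb ⊢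
  have h1 : IsIntegral (Algebra.adjoin R T) (algebraMap F Z b) :=
    hb.map (IsScalarTower.toAlgHom (Algebra.adjoin R T) F Z)
  exact Fermat.Agent.A2.H652.isIntegral_adjoin_image_of_isIntegral_adjoin T h1

/-- The ring homomorphism from the chart of the base to the chart of the cover. -/
def chartMap (T : Set F) : chart R T →+* chart R (algebraMap F Z '' T : Set Z) where
  toFun b := ⟨algebraMap F Z b, algebraMap_mem_chart T b.2⟩
  map_one' := Subtype.ext (map_one _)
  map_mul' _ _ := Subtype.ext (map_mul _ _ _)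
  map_zero' := Subtype.ext (map_zero _)
  map_add' _ _ := Subtype.ext (map_add _ _ _)

theorem coe_chartMap (T : Set F) (b : chart R T) :
    ((chartMap (Z := Z) T b : chart R (algebraMap F Z '' T : Set Z)) : Z) = algebraMap F Z b :=
  rfl

theorem chartMap_algebraMap (T : Set F) (r : R) :
    chartMap (Z := Z) T (algebraMap R (chart R T) r) =
      algebraMap R (chart R (algebraMap F Z '' T : Set Z)) r := by
  apply Subtype.ext
  rw [coe_chartMap]
  exact (IsScalarTower.algebraMap_apply R F Z r).symm

/-- The chart of the cover is integral over the chart of the base. -/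
theorem chartMap_isIntegral (T : Set F) : (chartMap (R := R) (Z := Z) T).IsIntegral := by
  intro c
  have hc : IsIntegral (Algebra.adjoin R T) (c : Z) :=
    Fermat.Agent.A2.H652.isIntegral_adjoin_of_isIntegral_adjoin_image T (mem_chart.1 c.2)
  obtain ⟨P, hPm, hP⟩ := hc
  -- push the coefficients into the chart of the base
  let ι : Algebra.adjoin R T →+* chart R T :=
    (Subalgebra.inclusion (adjoin_le_chart T)).toRingHom
  refine ⟨P.map ι, hPm.map ι, ?_⟩
  rw [eval₂_map]
  apply Subtype.ext
  have h1 := Polynomial.hom_eval₂ P ((chartMap (Z := Z) T).comp ι)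
    ((chart R (algebraMap F Z '' T : Set Z)).val : _ →+* Z) c
  rw [show (((chart R (algebraMap F Z '' T : Set Z)).val : _ →+* Z)
    (eval₂ ((chartMap (Z := Z) T).comp ι) c P) : Z) =
      ((eval₂ ((chartMap (Z := Z) T).comp ι) c P : chart R (algebraMap F Z '' T : Set Z)) : Z)
    from rfl] at h1
  rw [h1]
  exact hP

/-- The closed point of the base below a closed point of the cover. -/
theorem comap_chartMap_isMaximal (T : Set F)
    (𝔫 : Ideal (chart R (algebraMap F Z '' T : Set Z))) [h𝔫 : 𝔫.IsMaximal] :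
    (𝔫.comap (chartMap (Z := Z) T)).IsMaximal := by
  letI : Algebra (chart R T) (chart R (algebraMap F Z '' T : Set Z)) :=
    (chartMap (Z := Z) T).toAlgebra
  haveI : Algebra.IsIntegral (chart R T) (chart R (algebraMap F Z '' T : Set Z)) :=
    ⟨chartMap_isIntegral T⟩
  exact Ideal.isMaximal_comap_of_isIntegral_of_isMaximal 𝔫

theorem mem_nonunits_comap_algebraMap (W : ValuationSubring Z) (b : F) :
    b ∈ (W.comap (algebraMap F Z)).nonunits ↔ algebraMap F Z b ∈ W.nonunits := by
  rw [ValuationSubring.mem_nonunits_iff_or, ValuationSubring.mem_nonunits_iff_or,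
    ValuationSubring.mem_comap, map_inv₀, map_eq_zero]

/-- A sheet of the cover through a closed point restricts to a sheet of the base through the
point below. -/
theorem through_comap (T : Set F) (𝔫 : Ideal (chart R (algebraMap F Z '' T : Set Z)))
    {W : ValuationSubring Z} (hth : Through _ 𝔫 W) :
    Through (chart R T) (𝔫.comap (chartMap (Z := Z) T)) (W.comap (algebraMap F Z)) := by
  intro c hc
  rw [Ideal.mem_comap]
  exact hth _ ((mem_nonunits_comap_algebraMap W _).1 hc)

/-- A **purity datum with normalised values on the base**: `f = (e₁ / e₂) h ^ m` with `e₂ ∉ 𝔫`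
(and `e₁ ∉ 𝔫` automatically if `f` is a unit on a sheet through `𝔫`), and on every sheet `V`
of `𝒱` through `𝔫` the residue of `h` is `t / s` with `s ∉ 𝔫` and value `ζ ^ κ V · v` at `𝔫`. -/
def BasePureValuesAt (𝒱 : Set (ValuationSubring F)) (B : Subalgebra R F) (𝔫 : Ideal B) (m : ℕ)
    (f : F) (ζ : R) (κ : ValuationSubring F → ℕ) : Prop :=
  ∃ (h : F) (e₁ e₂ v : B), h ≠ 0 ∧ e₂ ∉ 𝔫 ∧ v ∉ 𝔫 ∧ (e₂ : F) * f = e₁ * h ^ m ∧
    ∀ V ∈ 𝒱, Through B 𝔫 V → ∃ s t : B, s ∉ 𝔫 ∧ (s : F) * h - t ∈ V.nonunits ∧
      t - algebraMap R B (ζ ^ κ V) * v * s ∈ 𝔫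

/-- Transfer of a purity datum from the base to the cover. -/
theorem pureValuesAt_of_base (T : Set F) {𝒱 : Set (ValuationSubring F)}
    {𝒲 : Set (ValuationSubring Z)} (h𝒲 : ∀ W ∈ 𝒲, W.comap (algebraMap F Z) ∈ 𝒱)
    (𝔫 : Ideal (chart R (algebraMap F Z '' T : Set Z)))
    {m : ℕ} (hm : 0 < m) {f : F} {G : Z} (hG : G ^ m = algebraMap F Z f) {ζ : R}
    {κ : ValuationSubring F → ℕ}
    (hb : BasePureValuesAt 𝒱 (chart R T) (𝔫.comap (chartMap (Z := Z) T)) m f ζ κ) :
    PureValuesAt 𝒲 (chart R (algebraMap F Z '' T : Set Z)) 𝔫 G ζ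
      fun W => κ (W.comap (algebraMap F Z)) := by
  obtain ⟨h, e₁, e₂, v, hh0, he₂, hv, hf, hval⟩ := hb
  have hhZ : algebraMap F Z h ≠ 0 := by
    rwa [Ne, map_eq_zero]
  -- `a' = e₂ G / h` lies in the chart of the cover
  have ha' : algebraMap F Z e₂ * G * (algebraMap F Z h)⁻¹ ∈
      chart R (algebraMap F Z '' T : Set Z) := by
    rw [mem_chart]
    refine IsIntegral.of_pow hm ?_
    have h1 : (algebraMap F Z e₂ * G * (algebraMap F Z h)⁻¹) ^ m =
        algebraMap F Z ((e₂ : F) ^ (m - 1) * e₁) := by
      have h2 : (e₂ : F) ^ m * f = (e₂ : F) ^ (m - 1) * e₁ * h ^ m := by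
        have : (e₂ : F) ^ m = (e₂ : F) ^ (m - 1) * e₂ := by
          rw [← pow_succ, Nat.sub_add_cancel hm]
        rw [this, mul_assoc, hf]
        ring
      rw [mul_pow, mul_pow, hG, ← map_pow, ← map_mul, h2, inv_pow, ← map_pow, map_mul,
        mul_assoc, mul_inv_cancel₀ (by rw [map_pow]; exact pow_ne_zero _ hhZ), mul_one]
    rw [h1]
    exact mem_chart.1 (algebraMap_mem_chart T
      (Subalgebra.mul_mem _ (Subalgebra.pow_mem _ e₂.2 _) e₁.2))
  refine ⟨algebraMap F Z h, ⟨_, ha'⟩, chartMap T e₂, chartMap T v, he₂, hv, ?_, ?_⟩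
  · rw [coe_chartMap]
    field_simp
  · intro W hW hth
    obtain ⟨s, t, hs, hst, ht⟩ := hval _ (h𝒲 W hW) (through_comap T 𝔫 hth)
    refine ⟨chartMap T s, chartMap T t, hs, ?_, ?_⟩
    · rw [coe_chartMap, coe_chartMap, ← map_mul, ← map_sub]
      exact (mem_nonunits_comap_algebraMap W _).1 hst
    · rw [Ideal.mem_comap, map_sub, map_mul, map_mul, chartMap_algebraMap] at ht
      exact ht

end Tower

section Wall

variable {R : Type u} [CommRing R] [IsDomain R] {Z : Type u} [Field Z] [Algebra R Z]
variable [IsNoetherianRing R] [IsIntegrallyClosed R[X]] [CharZero Z]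
variable {F : Type u} [Field F] [Algebra R F] [Algebra F Z] [IsScalarTower R F Z]

/-- **The label wall, base form.**  `f ∈ F` split on every sheet of `F`, with a purity datum
with colour-normalised values at every closed point of the special fibre of the two charts of
`F`: then every `m`-th root of `f` in a finite Galois cover `Z / F` without new constants lies
in `F`. -/
theorem kummer_wall3_of_base
    (hinjR : Function.Injective (algebraMap R Z))
    (hRF : ∀ y : Z, IsIntegral R y → y ∈ Set.range (algebraMap R Z))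
    {x : F} (hx : Transcendental R (algebraMap F Z x))
    [FiniteDimensional (baseField R (algebraMap F Z x)) Z]
    (w : R) (hw : Prime w)
    [IsGalois F Z] [FiniteDimensional F Z]
    {m : ℕ} (hm : 0 < m) {mi : R} (hmi : (m : R) * mi = 1) {ζ : R} (hζ : IsPrimitiveRoot ζ m)
    {f : F} {G : Z} (hG : G ^ m = algebraMap F Z f)
    (hsplit : ∀ V, IsSheet w x V → f - 1 ∈ V.nonunits)
    (κ : ValuationSubring F → ℕ)
    (hpure_fin : ∀ 𝔫 : Ideal (chart R ({x} : Set F)), 𝔫.IsMaximal →
      algebraMap R (chart R ({x} : Set F)) w ∈ 𝔫 →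
      BasePureValuesAt {V | IsSheet w x V} (chart R ({x} : Set F)) 𝔫 m f ζ κ)
    (hpure_inf : ∀ 𝔫 : Ideal (chart R ({x⁻¹} : Set F)), 𝔫.IsMaximal →
      algebraMap R (chart R ({x⁻¹} : Set F)) w ∈ 𝔫 →
      BasePureValuesAt {V | IsSheet w x V} (chart R ({x⁻¹} : Set F)) 𝔫 m f ζ κ) :
    G ∈ Set.range (algebraMap F Z) := by
  have hcomap : ∀ W ∈ {W : ValuationSubring Z | IsSheet w (algebraMap F Z x) W},
      W.comap (algebraMap F Z) ∈ {V : ValuationSubring F | IsSheet w x V} :=
    fun W hW => Fermat.Agent.A2.H12.IsSheet.comap_algebraMap hW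
  have himg1 : (algebraMap F Z '' ({x} : Set F) : Set Z) = {algebraMap F Z x} :=
    Set.image_singleton
  have himg2 : (algebraMap F Z '' ({x⁻¹} : Set F) : Set Z) = {(algebraMap F Z x)⁻¹} := by
    rw [Set.image_singleton, map_inv₀]
  refine kummer_wall3_sheets_of_values hinjR hRF hx w hw hm hmi hζ ⟨f, hG.symm⟩ ?_ κ ?_ ?_
  · intro W hW
    have h1 := hsplit _ (hcomap W hW)
    rw [mem_nonunits_comap_algebraMap, map_sub, map_one, ← hG] at h1
    exact h1
  · rw [← himg1]
    intro 𝔫 h𝔫 hw𝔫
    haveI := h𝔫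
    refine pureValuesAt_of_base ({x} : Set F) hcomap 𝔫 hm hG
      (hpure_fin _ (comap_chartMap_isMaximal _ 𝔫) ?_)
    rw [Ideal.mem_comap, chartMap_algebraMap]
    exact hw𝔫
  · rw [← himg2]
    intro 𝔫 h𝔫 hw𝔫
    haveI := h𝔫
    refine pureValuesAt_of_base ({x⁻¹} : Set F) hcomap 𝔫 hm hG
      (hpure_inf _ (comap_chartMap_isMaximal _ 𝔫) ?_)
    rw [Ideal.mem_comap, chartMap_algebraMap]
    exact hw𝔫

end Wall

end Fermat.Agent.S36.H193
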