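import Fermat.Agent.S36.H193.SheetsAll
import Fermat.Agent.S36.H193.LabelLocal

/-!
# S36 engine, leaf CLOPEN (helper193), part 8: the CLOPEN theorems for the set of all sheets

Setting: `R` a noetherian domain with `R[X]` integrally closed, `w ∈ R` prime, `Z` a field of
characteristic `0`, `x ∈ Z` transcendental over `R`, `Z` finite over `baseField R x`, `R`
integrally closed in `Z` (`hRF`: no new constants).  Sheets: `A2.H12.IsSheet w x W`.

The structural hypotheses of `Clopen.lean` / `ClopenGraph.lean` / `LabelWall.lean` (finiteness and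
separation of the sheets, radical `q`-expansion principle for the three charts) are *theorems*
(`SheetsAll.lean`, `QepAll.lean`), so that only the local hypotheses remain:

* `clopen_sheets_all` : a property of sheets which propagates along sheets meeting at a closed
  point of the special fibre of one of the two charts holds for all sheets or for none.
* `clopen_label_sheets` : a labelling of the sheets which agrees on any two sheets through a
  common closed point is constant.
* **`kummer_wall3_sheets`** : `Z / F` finite Galois, `x ∈ F`, `G ^ m ∈ F` split on every sheet of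
  `Z`, normalised labels agree at every closed point ⟹ `G ∈ F`.
* **`kummer_wall3_sheets_of_values`** : the same with the local hypothesis `PureValuesAt`.
-/

set_option autoImplicit false
set_option linter.style.haveILetI false
set_option linter.unusedSectionVars false

namespace Fermat.Agent.S36.H193

open Polynomial
open Fermat.Agent.A2.H12 (IsSheet)
open Fermat.Agent.S18.H138

universe u

section All

variable {R : Type u} [CommRing R] [IsDomain R] {Z : Type u} [Field Z] [Algebra R Z]
variable [IsNoetherianRing R] [IsIntegrallyClosed R[X]] [CharZero Z]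

/-- **CLOPEN for all sheets, graph form.** -/
theorem clopen_sheets_all
    (hinjR : Function.Injective (algebraMap R Z))
    (hRF : ∀ y : Z, IsIntegral R y → y ∈ Set.range (algebraMap R Z))
    {x : Z} (hx : Transcendental R x) [FiniteDimensional (baseField R x) Z]
    (w : R) (hw : Prime w)
    (P : ValuationSubring Z → Prop)
    (hloc_fin : ∀ 𝔫 : Ideal (chart R ({x} : Set Z)), 𝔫.IsMaximal →
      algebraMap R (chart R ({x} : Set Z)) w ∈ 𝔫 →
      ∀ W, IsSheet w x W → ∀ W', IsSheet w x W' →
        Through _ 𝔫 W → Through _ 𝔫 W' → P W → P W')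
    (hloc_inf : ∀ 𝔫 : Ideal (chart R ({x⁻¹} : Set Z)), 𝔫.IsMaximal →
      algebraMap R (chart R ({x⁻¹} : Set Z)) w ∈ 𝔫 →
      ∀ W, IsSheet w x W → ∀ W', IsSheet w x W' →
        Through _ 𝔫 W → Through _ 𝔫 W' → P W → P W') :
    (∀ W, IsSheet w x W → P W) ∨ (∀ W, IsSheet w x W → ¬ P W) := by
  obtain ⟨q1, q2, q3⟩ := qepRad_sheets w hw hx
  exact clopen_sheets hinjR hRF hx w hw (sheets_finite hinjR w hw hx) (sheets_sep hinjR w hw hx)
    (fun W hW => sheet_chart_mid_le (show IsSheet w x W from hW))
    (fun W hW => (show IsSheet w x W from hW).2.2.1) q1 q2 q3 P hloc_fin hloc_inf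

/-- **CLOPEN for all sheets, label form.** -/
theorem clopen_label_sheets
    (hinjR : Function.Injective (algebraMap R Z))
    (hRF : ∀ y : Z, IsIntegral R y → y ∈ Set.range (algebraMap R Z))
    {x : Z} (hx : Transcendental R x) [FiniteDimensional (baseField R x) Z]
    (w : R) (hw : Prime w)
    {α : Type*} (lab : ValuationSubring Z → α)
    (hloc_fin : ∀ 𝔫 : Ideal (chart R ({x} : Set Z)), 𝔫.IsMaximal →
      algebraMap R (chart R ({x} : Set Z)) w ∈ 𝔫 →
      ∀ W, IsSheet w x W → ∀ W', IsSheet w x W' →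
        Through _ 𝔫 W → Through _ 𝔫 W' → lab W = lab W')
    (hloc_inf : ∀ 𝔫 : Ideal (chart R ({x⁻¹} : Set Z)), 𝔫.IsMaximal →
      algebraMap R (chart R ({x⁻¹} : Set Z)) w ∈ 𝔫 →
      ∀ W, IsSheet w x W → ∀ W', IsSheet w x W' →
        Through _ 𝔫 W → Through _ 𝔫 W' → lab W = lab W') :
    ∀ W, IsSheet w x W → ∀ W', IsSheet w x W' → lab W = lab W' := by
  obtain ⟨q1, q2, q3⟩ := qepRad_sheets w hw hx
  exact clopen_label hinjR hRF hx w hw (sheets_finite hinjR w hw hx) (sheets_sep hinjR w hw hx)
    (fun W hW => sheet_chart_mid_le (show IsSheet w x W from hW))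
    (fun W hW => (show IsSheet w x W from hW).2.2.1) q1 q2 q3 lab hloc_fin hloc_inf

/-- There is at least one sheet. -/
theorem sheets_nonempty (w : R) (hw : Prime w) {x : Z} (hx : Transcendental R x) :
    {W : ValuationSubring Z | IsSheet w x W}.Nonempty := by
  set B := chart R ({x} : Set Z) with hB
  have hne : Ideal.span {algebraMap R B w} ≠ ⊤ := by
    intro htop
    -- `1 = w t` with `t` integral over `R[x]` is impossible: `w` is prime in `R[x]`
    rw [Ideal.span_singleton_eq_top] at htop
    obtain ⟨t, ht⟩ := htop.exists_right_inv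
    have hx0 : x ≠ 0 := ne_zero_of_transcendental hx
    have h1 : algebraMap R Z 1 = algebraMap R Z w * (t : Z) := by
      rw [map_one]
      exact (congrArg Subtype.val ht).symm
    -- use the `R / w → B / w` injectivity lemma of `S18.H138`
    have hinj : Function.Injective (algebraMap R Z) := by
      rw [injective_iff_map_eq_zero]
      intro r hr
      by_contra hr0
      have : aeval x (C r : R[X]) = 0 := by rw [aeval_C, hr]
      have h2 := (transcendental_iff.1 hx) _ this
      exact hr0 (C_eq_zero.1 h2)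
    have := dvd_of_algebraMap_eq_mul hinj hx w 1 t.2 h1
    exact hw.not_isUnit (isUnit_of_dvd_one this)
  obtain ⟨p, hp⟩ := Ideal.nonempty_minimalPrimes hne
  obtain ⟨V, hV, -⟩ := exists_sheet_of_minimal w hw hx p hp
  exact ⟨V, hV⟩

end All

section Wall

variable {R : Type u} [CommRing R] [IsDomain R] {Z : Type u} [Field Z] [Algebra R Z]
variable [IsNoetherianRing R] [IsIntegrallyClosed R[X]] [CharZero Z]
variable {F : Type u} [Field F] [Algebra R F] [Algebra F Z] [IsScalarTower R F Z]

/-- The image of a sheet under an element of the Galois group is a sheet. -/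
theorem isSheet_comap_symm {w : R} {x : F} (σ : Z ≃ₐ[F] Z) {W : ValuationSubring Z}
    (hW : IsSheet w (algebraMap F Z x) W) :
    IsSheet w (algebraMap F Z x) (W.comap ((σ.symm : Z ≃+* Z) : Z →+* Z)) := by
  have hσs : ∀ f : F, ((σ.symm : Z ≃+* Z) : Z →+* Z) (algebraMap F Z f) = algebraMap F Z f :=
    fun f => σ.symm.commutes f
  have hσR : ∀ r : R, ((σ.symm : Z ≃+* Z) : Z →+* Z) (algebraMap R Z r) = algebraMap R Z r := by
    intro r
    rw [IsScalarTower.algebraMap_apply R F Z, hσs]
  refine ⟨?_, ?_, ?_, ?_⟩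
  · intro r
    rw [ValuationSubring.mem_comap, hσR]
    exact hW.1 r
  · rw [ValuationSubring.mem_comap, hσs]
    exact hW.2.1
  · have := (mem_nonunits_comap_symm W σ (algebraMap R Z w)).2 hW.2.2.1
    have h2 : σ (algebraMap R Z w) = algebraMap R Z w := by
      rw [IsScalarTower.algebraMap_apply R F Z, σ.commutes]
    rwa [h2] at this
  · intro P hP
    rw [ValuationSubring.mem_comap, map_inv₀]
    have h1 : ((σ.symm : Z ≃+* Z) : Z →+* Z) (aeval (algebraMap F Z x) P) =
        aeval (algebraMap F Z x) P := by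
      have h2 : aeval (algebraMap F Z x) P = algebraMap F Z (aeval x P) := by
        rw [← aeval_algebraMap_apply]
      rw [h2, hσs]
    rw [h1]
    exact hW.2.2.2 P hP

/-- **The label wall for all sheets.** -/
theorem kummer_wall3_sheets
    (hinjR : Function.Injective (algebraMap R Z))
    (hRF : ∀ y : Z, IsIntegral R y → y ∈ Set.range (algebraMap R Z))
    {x : F} (hx : Transcendental R (algebraMap F Z x))
    [FiniteDimensional (baseField R (algebraMap F Z x)) Z]
    (w : R) (hw : Prime w)
    [IsGalois F Z] [FiniteDimensional F Z]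
    {m : ℕ} (hm : 0 < m) {mi : R} (hmi : (m : R) * mi = 1) {ζ : R} (hζ : IsPrimitiveRoot ζ m)
    {G : Z} (hGF : G ^ m ∈ Set.range (algebraMap F Z))
    (hG1 : ∀ W, IsSheet w (algebraMap F Z x) W → G ^ m - 1 ∈ W.nonunits)
    (κ : ValuationSubring F → ℕ)
    (hloc_fin : ∀ 𝔫 : Ideal (chart R ({algebraMap F Z x} : Set Z)), 𝔫.IsMaximal →
      algebraMap R (chart R ({algebraMap F Z x} : Set Z)) w ∈ 𝔫 →
      ∀ W, IsSheet w (algebraMap F Z x) W → ∀ W', IsSheet w (algebraMap F Z x) W' →
        Through _ 𝔫 W → Through _ 𝔫 W' → ∀ a b : ℕ,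
        G - algebraMap R Z (ζ ^ a) ∈ W.nonunits → G - algebraMap R Z (ζ ^ b) ∈ W'.nonunits →
        ζ ^ (a + κ (W'.comap (algebraMap F Z))) = ζ ^ (b + κ (W.comap (algebraMap F Z))))
    (hloc_inf : ∀ 𝔫 : Ideal (chart R ({(algebraMap F Z x)⁻¹} : Set Z)), 𝔫.IsMaximal →
      algebraMap R (chart R ({(algebraMap F Z x)⁻¹} : Set Z)) w ∈ 𝔫 →
      ∀ W, IsSheet w (algebraMap F Z x) W → ∀ W', IsSheet w (algebraMap F Z x) W' →
        Through _ 𝔫 W → Through _ 𝔫 W' → ∀ a b : ℕ,
        G - algebraMap R Z (ζ ^ a) ∈ W.nonunits → G - algebraMap R Z (ζ ^ b) ∈ W'.nonunits →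
        ζ ^ (a + κ (W'.comap (algebraMap F Z))) = ζ ^ (b + κ (W.comap (algebraMap F Z)))) :
    G ∈ Set.range (algebraMap F Z) := by
  obtain ⟨q1, q2, q3⟩ := qepRad_sheets w hw hx
  exact kummer_wall3 hinjR hRF hx w hw (sheets_finite hinjR w hw hx) (sheets_nonempty w hw hx)
    (sheets_sep hinjR w hw hx)
    (fun W hW => sheet_chart_mid_le (show IsSheet w (algebraMap F Z x) W from hW))
    (fun W hW => (show IsSheet w (algebraMap F Z x) W from hW).2.2.1) q1 q2 q3
    (fun σ W hW => isSheet_comap_symm σ (show IsSheet w (algebraMap F Z x) W from hW))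
    hm hmi hζ hGF hG1 κ hloc_fin hloc_inf

/-- **The label wall for all sheets, purity form.** -/
theorem kummer_wall3_sheets_of_values
    (hinjR : Function.Injective (algebraMap R Z))
    (hRF : ∀ y : Z, IsIntegral R y → y ∈ Set.range (algebraMap R Z))
    {x : F} (hx : Transcendental R (algebraMap F Z x))
    [FiniteDimensional (baseField R (algebraMap F Z x)) Z]
    (w : R) (hw : Prime w)
    [IsGalois F Z] [FiniteDimensional F Z]
    {m : ℕ} (hm : 0 < m) {mi : R} (hmi : (m : R) * mi = 1) {ζ : R} (hζ : IsPrimitiveRoot ζ m)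
    {G : Z} (hGF : G ^ m ∈ Set.range (algebraMap F Z))
    (hG1 : ∀ W, IsSheet w (algebraMap F Z x) W → G ^ m - 1 ∈ W.nonunits)
    (κ : ValuationSubring F → ℕ)
    (hpv_fin : ∀ 𝔫 : Ideal (chart R ({algebraMap F Z x} : Set Z)), 𝔫.IsMaximal →
      algebraMap R (chart R ({algebraMap F Z x} : Set Z)) w ∈ 𝔫 →
      PureValuesAt {W | IsSheet w (algebraMap F Z x) W} (chart R ({algebraMap F Z x} : Set Z))
        𝔫 G ζ fun W => κ (W.comap (algebraMap F Z)))
    (hpv_inf : ∀ 𝔫 : Ideal (chart R ({(algebraMap F Z x)⁻¹} : Set Z)), 𝔫.IsMaximal →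
      algebraMap R (chart R ({(algebraMap F Z x)⁻¹} : Set Z)) w ∈ 𝔫 →
      PureValuesAt {W | IsSheet w (algebraMap F Z x) W}
        (chart R ({(algebraMap F Z x)⁻¹} : Set Z)) 𝔫 G ζ
        fun W => κ (W.comap (algebraMap F Z))) :
    G ∈ Set.range (algebraMap F Z) := by
  obtain ⟨q1, q2, q3⟩ := qepRad_sheets w hw hx
  exact kummer_wall3_of_values hinjR hRF hx w hw (sheets_finite hinjR w hw hx)
    (sheets_nonempty w hw hx) (sheets_sep hinjR w hw hx)
    (fun W hW => sheet_chart_mid_le (show IsSheet w (algebraMap F Z x) W from hW))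
    (fun W hW => (show IsSheet w (algebraMap F Z x) W from hW).2.2.1) q1 q2 q3
    (fun σ W hW => isSheet_comap_symm σ (show IsSheet w (algebraMap F Z x) W from hW))
    hm hmi hζ hGF hG1 κ hpv_fin hpv_inf

end Wall

end Fermat.Agent.S36.H193
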